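import Fermat.Agent.S27Lib.GroupTheory

/-!
The torsion count, from: finite invariants of all powers of Frobenius with orders
`|det (1 - M ^ m)|`, and surjectivity of norms.
-/

set_option autoImplicit false
set_option linter.unusedSectionVars false
set_option linter.style.haveILetI false

namespace Fermat.Agent.S27Lib

open Finset

section MatrixGrowth

variable {n : Type*} [Fintype n] [DecidableEq n] (ℓ : ℕ) [hℓ : Fact ℓ.Prime]

/-- one step -/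
theorem det_one_sub_pow_step (M : Matrix n n ℤ)
    (hM : (Int.castRingHom (ZMod (ℓ ^ 2))).mapMatrix M = 1) :
    ∃ u : ℤ, ¬ (ℓ : ℤ) ∣ u ∧ (1 - M ^ ℓ).det = (ℓ : ℤ) ^ (Fintype.card n) * u * (1 - M).det := by
  set S : Matrix n n ℤ := ∑ i ∈ range ℓ, M ^ i with hS
  have h1 : (1 - M) * S = 1 - M ^ ℓ := by
    rw [hS, mul_neg_geom_sum]
  have h2 : (Int.castRingHom (ZMod (ℓ ^ 2))).mapMatrix (S - (ℓ : ℤ) • 1) = 0 := by
    rw [hS, map_sub, map_sum]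
    simp only [map_pow, hM, one_pow, sum_const, card_range]
    rw [zsmul_one, map_intCast]
    simp
  have h3 : ∀ i j, ((ℓ ^ 2 : ℕ) : ℤ) ∣ (S - (ℓ : ℤ) • 1) i j := by
    intro i j
    have := congrFun (congrFun h2 i) j
    rw [RingHom.mapMatrix_apply, Matrix.map_apply] at this
    rw [← ZMod.intCast_zmod_eq_zero_iff_dvd]
    simpa using this
  choose C hC using h3
  have h4 : S = (ℓ : ℤ) • (1 + (ℓ : ℤ) • Matrix.of C) := by
    ext i j
    have := hC i j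
    rw [Matrix.sub_apply] at this
    rw [Matrix.smul_apply, Matrix.add_apply, Matrix.smul_apply, Matrix.of_apply]
    rw [Matrix.smul_apply] at this
    push_cast at this
    simp only [smul_eq_mul] at this ⊢
    linarith
  refine ⟨(1 + (ℓ : ℤ) • Matrix.of C).det, ?_, ?_⟩
  · intro hdvd
    have h5 : (((1 + (ℓ : ℤ) • Matrix.of C).det : ℤ) : ZMod ℓ) = 1 := by
      have : (Int.castRingHom (ZMod ℓ)) (1 + (ℓ : ℤ) • Matrix.of C).det = 1 := by
        rw [RingHom.map_det]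
        have : (Int.castRingHom (ZMod ℓ)).mapMatrix (1 + (ℓ : ℤ) • Matrix.of C) = 1 := by
          ext i j
          simp [RingHom.mapMatrix_apply, Matrix.map_apply, Matrix.add_apply, Matrix.one_apply]
        rw [this, Matrix.det_one]
      simpa using this
    rw [(ZMod.intCast_zmod_eq_zero_iff_dvd _ ℓ).2 hdvd] at h5
    exact zero_ne_one h5
  · rw [← h1, Matrix.det_mul, h4, Matrix.det_smul]
    ring

theorem exists_pow_eq_one_of_det (M : Matrix n n ℤ) (hM : ¬ (ℓ : ℤ) ∣ M.det) (a : ℕ)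
    (ha : 0 < a) : ∃ m₀ : ℕ, 0 < m₀ ∧ a ∣ m₀ ∧
      (Int.castRingHom (ZMod (ℓ ^ 2))).mapMatrix (M ^ m₀) = 1 := by
  set M' := (Int.castRingHom (ZMod (ℓ ^ 2))).mapMatrix M with hM'
  have h1 : IsUnit M'.det := by
    rw [hM', ← RingHom.map_det]
    have h2 : IsCoprime (M.det) ((ℓ ^ 2 : ℕ) : ℤ) := by
      push_cast
      apply IsCoprime.pow_right
      exact ((Nat.prime_iff_prime_int.1 hℓ.out).coprime_iff_not_dvd.2 hM).symm
    obtain ⟨u, v, huv⟩ := h2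
    refine IsUnit.of_mul_eq_one (b := ((u : ℤ) : ZMod (ℓ ^ 2))) ?_
    have := congrArg (Int.castRingHom (ZMod (ℓ ^ 2))) huv
    simp only [map_add, map_mul, eq_intCast, Int.cast_natCast, ZMod.natCast_self, mul_zero,
      add_zero, Int.cast_one] at this
    rw [mul_comm]
    simpa using this
  have h3 : IsUnit M' := (Matrix.isUnit_iff_isUnit_det M').2 h1
  obtain ⟨U, hU⟩ := h3
  haveI : NeZero (ℓ ^ 2) := ⟨pow_ne_zero _ hℓ.out.ne_zero⟩
  haveI : Finite (Matrix n n (ZMod (ℓ ^ 2)))ˣ := inferInstance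
  have h4 := isOfFinOrder_of_finite U
  rw [isOfFinOrder_iff_pow_eq_one] at h4
  obtain ⟨r, hr, hUr⟩ := h4
  refine ⟨a * r, Nat.mul_pos ha hr, dvd_mul_right _ _, ?_⟩
  rw [map_pow, ← hM', ← hU, mul_comm, pow_mul, ← Units.val_pow_eq_pow_val, hUr]
  simp

theorem exists_matrix_growth (M : Matrix n n ℤ) (hM : ¬ (ℓ : ℤ) ∣ M.det) (a : ℕ)
    (ha : 0 < a) : ∃ m₀ : ℕ, 0 < m₀ ∧ a ∣ m₀ ∧ ∀ s : ℕ, ∃ u : ℤ, ¬ (ℓ : ℤ) ∣ u ∧
      (1 - M ^ (m₀ * ℓ ^ (s + 1))).det =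
        (ℓ : ℤ) ^ (Fintype.card n) * u * (1 - M ^ (m₀ * ℓ ^ s)).det := by
  obtain ⟨m₀, h0, h1, h2⟩ := exists_pow_eq_one_of_det ℓ M hM a ha
  refine ⟨m₀, h0, h1, fun s => ?_⟩
  have := det_one_sub_pow_step ℓ (M ^ (m₀ * ℓ ^ s)) (by rw [pow_mul, map_pow, h2, one_pow])
  rw [← pow_mul, mul_assoc, ← pow_succ] at this
  exact this

theorem exists_factorization_growth (M : Matrix n n ℤ) (hM : ¬ (ℓ : ℤ) ∣ M.det) (a : ℕ)
    (ha : 0 < a) (hne : ∀ m : ℕ, 0 < m → (1 - M ^ m).det ≠ 0) :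
    ∃ m₀ : ℕ, 0 < m₀ ∧ a ∣ m₀ ∧ ∃ c : ℕ, ∀ s : ℕ,
      (1 - M ^ (m₀ * ℓ ^ s)).det.natAbs.factorization ℓ = c + Fintype.card n * s := by
  obtain ⟨m₀, h0, h1, h2⟩ := exists_matrix_growth ℓ M hM a ha
  refine ⟨m₀, h0, h1, (1 - M ^ (m₀ * ℓ ^ 0)).det.natAbs.factorization ℓ, fun s => ?_⟩
  induction s with
  | zero => simp
  | succ s ih =>
    obtain ⟨u, hu, h3⟩ := h2 s
    have hu0 : u ≠ 0 := by rintro rfl; exact hu (dvd_zero _)
    have hℓ0 : ℓ ≠ 0 := hℓ.out.ne_zero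
    rw [h3, Int.natAbs_mul, Int.natAbs_mul, Int.natAbs_pow, Int.natAbs_natCast,
      Nat.factorization_mul (by positivity) (by
        have := hne (m₀ * ℓ ^ s) (Nat.mul_pos h0 (by positivity))
        exact Int.natAbs_ne_zero.2 this),
      Nat.factorization_mul (by positivity) (Int.natAbs_ne_zero.2 hu0)]
    simp only [Finsupp.add_apply]
    rw [ih, hℓ.out.factorization_pow, Finsupp.single_eq_same,
      Nat.factorization_eq_zero_of_not_dvd (n := u.natAbs) (by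
        intro hd; exact hu (Int.natCast_dvd.2 hd))]
    ring

end MatrixGrowth

section Primary

variable {B : Type*} [AddCommGroup B] (ℓ : ℕ) [hℓ : Fact ℓ.Prime]

/-- the `ℓ`-primary part -/
def primPart (B : Type*) [AddCommGroup B] (ℓ : ℕ) : AddSubgroup B where
  carrier := {x | ∃ k : ℕ, ℓ ^ k • x = 0}
  zero_mem' := ⟨0, by simp⟩
  add_mem' := by
    rintro x y ⟨k, hk⟩ ⟨l, hl⟩
    refine ⟨k + l, ?_⟩
    rw [smul_add, pow_add, mul_smul, mul_smul, hl, smul_comm, hk, smul_zero, smul_zero, add_zero]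
  neg_mem' := by
    rintro x ⟨k, hk⟩
    exact ⟨k, by rw [smul_neg, hk, neg_zero]⟩

theorem mem_primPart {x : B} : x ∈ primPart B ℓ ↔ ∃ k : ℕ, ℓ ^ k • x = 0 := Iff.rfl

theorem card_primPart [Finite B] :
    Nat.card (primPart B ℓ) = ℓ ^ ((Nat.card B).factorization ℓ) := by
  classical
  have h1 : ∃ r, Nat.card (primPart B ℓ) = ℓ ^ r := by
    refine ⟨_, Nat.eq_prime_pow_of_unique_prime_dvd (p := ℓ) Nat.card_pos.ne' ?_⟩
    intro q hq hqd
    haveI := Fact.mk hq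
    haveI := Fintype.ofFinite (primPart B ℓ)
    rw [Nat.card_eq_fintype_card] at hqd
    obtain ⟨x, hx⟩ := exists_prime_addOrderOf_dvd_card q hqd
    obtain ⟨k, hk⟩ := x.2
    have h2 : ℓ ^ k • x = 0 := Subtype.ext (by simpa using hk)
    have h3 := addOrderOf_dvd_of_nsmul_eq_zero h2
    rw [hx] at h3
    exact (Nat.prime_dvd_prime_iff_eq hq hℓ.out).1 (hq.dvd_of_dvd_pow h3)
  obtain ⟨r, hr⟩ := h1
  have h2 : ¬ ℓ ∣ Nat.card (B ⧸ primPart B ℓ) := by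
    intro hd
    haveI := Fintype.ofFinite (B ⧸ primPart B ℓ)
    rw [Nat.card_eq_fintype_card] at hd
    obtain ⟨x, hx⟩ := exists_prime_addOrderOf_dvd_card ℓ hd
    obtain ⟨y, rfl⟩ := QuotientAddGroup.mk_surjective x
    have h3 : ℓ • (QuotientAddGroup.mk y : B ⧸ primPart B ℓ) = 0 := by
      have := addOrderOf_nsmul_eq_zero (QuotientAddGroup.mk y : B ⧸ primPart B ℓ)
      rwa [hx] at this
    rw [← QuotientAddGroup.mk_nsmul, QuotientAddGroup.eq_zero_iff] at h3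
    obtain ⟨k, hk⟩ := h3
    have h4 : y ∈ primPart B ℓ := ⟨k + 1, by rw [pow_succ, mul_smul, hk]⟩
    rw [(QuotientAddGroup.eq_zero_iff y).2 h4, addOrderOf_zero] at hx
    exact hℓ.out.one_lt.ne hx
  have h3 := AddSubgroup.card_eq_card_quotient_mul_card_addSubgroup (primPart B ℓ)
  rw [hr] at h3
  rw [hr, h3, Nat.factorization_mul (Nat.card_pos).ne' (pow_pos hℓ.out.pos r).ne',
    Finsupp.add_apply, Nat.factorization_eq_zero_of_not_dvd h2, zero_add,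
    hℓ.out.factorization_pow, Finsupp.single_eq_same]

/-- an element of finite order can be modified to an `ℓ`-primary one. -/
theorem exists_mul_primary {y : B} {N : ℕ} (hN : 0 < N) (hy : N • y = 0) (k : ℕ) :
    ∃ e : ℕ, e • y ∈ primPart B ℓ ∧ ∀ x : B, ℓ ^ k • x = 0 → e • x = x := by
  obtain ⟨r, u, hu, hNu⟩ := Nat.exists_eq_pow_mul_and_not_dvd hN.ne' ℓ hℓ.out.ne_one
  have hcop : Nat.Coprime u (ℓ ^ k) :=
    Nat.Coprime.pow_right k ((Nat.Prime.coprime_iff_not_dvd hℓ.out).2 hu).symm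
  obtain ⟨e, he1, he2⟩ := Nat.chineseRemainder hcop 0 1
  refine ⟨e, ?_, ?_⟩
  · have h1 : u ∣ e := (Nat.modEq_zero_iff_dvd).1 he1
    obtain ⟨w, rfl⟩ := h1
    refine ⟨r, ?_⟩
    rw [smul_smul, ← mul_assoc, ← hNu, mul_comm, mul_smul, hy, smul_zero]
  · intro x hx
    rcases Nat.lt_or_ge 0 e with he | he
    · have h2 : 1 ≤ e := he
      have h3 : ℓ ^ k ∣ e - 1 := (Nat.modEq_iff_dvd' h2).1 he2.symm
      obtain ⟨w, hw⟩ := h3
      have h4 : e = ℓ ^ k * w + 1 := by omega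
      rw [h4, add_smul, one_smul, mul_comm, mul_smul, hx, smul_zero, zero_add]
    · have h2 : e = 0 := by omega
      rw [h2] at he2
      have h3 : ℓ ^ k ∣ 1 := by
        have := (Nat.modEq_zero_iff_dvd).1 he2.symm
        exact this
      have h4 : ℓ ^ k = 1 := Nat.dvd_one.1 h3
      rw [h4, one_smul] at hx
      rw [hx, smul_zero]

end Primary

section Main

variable {P : Type*} [AddCommGroup P] (ℓ : ℕ) [hℓ : Fact ℓ.Prime] (φ : Module.End ℤ P)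

/-- the subgroup of `ℓ`-primary elements fixed by some `φ^(m ℓ^s)`. -/
def GG (m : ℕ) : Submodule ℤ P where
  carrier := {x | (∃ k : ℕ, ℓ ^ k • x = 0) ∧ ∃ s : ℕ, (φ ^ (m * ℓ ^ s)) x = x}
  zero_mem' := ⟨⟨0, by simp⟩, ⟨0, by simp⟩⟩
  add_mem' := by
    rintro x y ⟨hx, s, hs⟩ ⟨hy, t, ht⟩
    refine ⟨(primPart P ℓ).add_mem hx hy, s + t, ?_⟩
    rw [map_add, pow_fix_of_fix φ (n := m * ℓ ^ s) _ hs, pow_fix_of_fix φ (n := m * ℓ ^ t) _ ht]
    · exact mul_dvd_mul_left _ (pow_dvd_pow _ (by omega))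
    · exact mul_dvd_mul_left _ (pow_dvd_pow _ (by omega))
  smul_mem' := by
    rintro c x ⟨hx, s, hs⟩
    refine ⟨(primPart P ℓ).zsmul_mem hx c, s, ?_⟩
    rw [map_zsmul, hs]

theorem mem_GG {m : ℕ} {x : P} : x ∈ GG ℓ φ m ↔
    (∃ k : ℕ, ℓ ^ k • x = 0) ∧ ∃ s : ℕ, (φ ^ (m * ℓ ^ s)) x = x := Iff.rfl

theorem GG_mono {m m' : ℕ} (h : m ∣ m') : GG ℓ φ m ≤ GG ℓ φ m' := by
  rintro x ⟨hx, s, hs⟩
  exact ⟨hx, s, pow_fix_of_fix φ (mul_dvd_mul_right h _) hs⟩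

theorem phi_mem_GG {m : ℕ} {x : P} (hx : x ∈ GG ℓ φ m) (r : ℕ) : (φ ^ r) x ∈ GG ℓ φ m := by
  obtain ⟨⟨k, hk⟩, s, hs⟩ := hx
  refine ⟨⟨k, ?_⟩, s, ?_⟩
  · rw [← map_nsmul, hk, map_zero]
  · rw [← Module.End.mul_apply, ← pow_add, add_comm, pow_add, Module.End.mul_apply, hs]

/-- restriction of `φ^m` to `GG`. -/
def psiGG (m : ℕ) : Module.End ℤ (GG ℓ φ m) :=
  (φ ^ m).restrict (fun _ hx => phi_mem_GG ℓ φ hx m)

theorem psiGG_pow_apply (m r : ℕ) (x : GG ℓ φ m) :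
    (((psiGG ℓ φ m) ^ r) x : P) = (φ ^ (m * r)) x := by
  induction r with
  | zero => simp
  | succ r ih =>
    rw [pow_succ', Module.End.mul_apply, Nat.mul_succ, add_comm, pow_add, Module.End.mul_apply,
      ← ih]
    rfl

variable {n : Type*} [Fintype n] [DecidableEq n] (M : Matrix n n ℤ)

theorem GG_core (hM : ¬ (ℓ : ℤ) ∣ M.det)
    (hne : ∀ m : ℕ, 0 < m → (1 - M ^ m).det ≠ 0)
    (H2 : ∀ m : ℕ, 0 < m → Nat.card {x : P // (φ ^ m) x = x} = (1 - M ^ m).det.natAbs)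
    (H3 : ∀ a : ℕ, 0 < a → ∀ x : P, (φ ^ a) x = x →
      ∃ y : P, (φ ^ (a * ℓ)) y = y ∧ ∑ i ∈ range ℓ, ((φ ^ a) ^ i) y = x) (a : ℕ) (ha : 0 < a) :
    ∃ m₀ : ℕ, 0 < m₀ ∧ a ∣ m₀ ∧ (∀ x ∈ GG ℓ φ m₀, ∃ y ∈ GG ℓ φ m₀, ℓ • y = x) ∧
      Nat.card {x : GG ℓ φ m₀ // ℓ • x = 0} = ℓ ^ (Fintype.card n) := by
  obtain ⟨m₀, h0, h1, c, hc⟩ := exists_factorization_growth ℓ M hM a ha hne
  refine ⟨m₀, h0, h1, ?_⟩
  have hℓ0 : 0 < ℓ := hℓ.out.pos
  have hfinB : ∀ m : ℕ, 0 < m → Finite {x : P // (φ ^ m) x = x} := by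
    intro m hm
    apply Nat.finite_of_card_ne_zero
    rw [H2 m hm]
    exact Int.natAbs_ne_zero.2 (hne m hm)
  -- orders of invariants
  have key := core ℓ (psiGG ℓ φ m₀) c (Fintype.card n) (by
    rintro ⟨x, ⟨k, hk⟩, hs⟩
    exact ⟨k, Subtype.ext hk⟩) (by
    rintro ⟨x, hk, s, hs⟩
    refine ⟨s, Subtype.ext ?_⟩
    rw [psiGG_pow_apply]
    exact hs) (by
    intro s
    have hm : 0 < m₀ * ℓ ^ s := Nat.mul_pos h0 (pow_pos hℓ0 s)
    let B : Submodule ℤ P := LinearMap.ker (φ ^ (m₀ * ℓ ^ s) - 1)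
    have memB : ∀ x, x ∈ B ↔ (φ ^ (m₀ * ℓ ^ s)) x = x := by
      intro x; simp [B, LinearMap.mem_ker, sub_eq_zero]
    have hcB : Nat.card B = Nat.card {x : P // (φ ^ (m₀ * ℓ ^ s)) x = x} :=
      Nat.card_congr (Equiv.subtypeEquivRight memB)
    haveI : Finite {x : P // (φ ^ (m₀ * ℓ ^ s)) x = x} := hfinB _ hm
    haveI : Finite B := Finite.of_equiv _ (Equiv.subtypeEquivRight memB).symm
    have h3 := card_primPart (B := B) ℓ
    rw [hcB, H2 _ hm, hc s] at h3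
    rw [← h3]
    refine Nat.card_congr ⟨fun x => ⟨⟨x.1.1, ?_⟩, ?_⟩, fun x => ⟨⟨x.1.1, ?_, s, ?_⟩, ?_⟩, ?_, ?_⟩
    · rw [memB]
      have := congrArg Subtype.val x.2
      rwa [psiGG_pow_apply] at this
    · obtain ⟨⟨k, hk⟩, -⟩ := x.1.2
      exact ⟨k, Subtype.ext hk⟩
    · obtain ⟨k, hk⟩ := x.2
      exact ⟨k, by simpa using congrArg Subtype.val hk⟩
    · exact (memB _).1 x.1.2
    · apply Subtype.ext
      rw [psiGG_pow_apply]
      exact (memB _).1 x.1.2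
    · intro x; rfl
    · intro x; rfl) (by
    rintro s ⟨x, ⟨k, hk⟩, hs⟩ hx
    have hx' : (φ ^ (m₀ * ℓ ^ s)) x = x := by
      have := congrArg Subtype.val hx
      rwa [psiGG_pow_apply] at this
    have hm : 0 < m₀ * ℓ ^ s := Nat.mul_pos h0 (pow_pos hℓ0 s)
    obtain ⟨y, hy1, hy2⟩ := H3 (m₀ * ℓ ^ s) hm x hx'
    have hm' : 0 < m₀ * ℓ ^ s * ℓ := Nat.mul_pos hm hℓ0
    have hN : 0 < Nat.card {x : P // (φ ^ (m₀ * ℓ ^ s * ℓ)) x = x} := by
      rw [H2 _ hm']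
      exact Int.natAbs_pos.2 (hne _ hm')
    have hyN : Nat.card {x : P // (φ ^ (m₀ * ℓ ^ s * ℓ)) x = x} • y = 0 := by
      let B : Submodule ℤ P := LinearMap.ker (φ ^ (m₀ * ℓ ^ s * ℓ) - 1)
      have memB : ∀ x, x ∈ B ↔ (φ ^ (m₀ * ℓ ^ s * ℓ)) x = x := by
        intro x; simp [B, LinearMap.mem_ker, sub_eq_zero]
      have hcB : Nat.card B = Nat.card {x : P // (φ ^ (m₀ * ℓ ^ s * ℓ)) x = x} :=
        Nat.card_congr (Equiv.subtypeEquivRight memB)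
      rw [← hcB]
      have := card_nsmul_eq_zero' (G := B) (x := ⟨y, (memB y).2 hy1⟩)
      exact congrArg Subtype.val this
    obtain ⟨e, he1, he2⟩ := exists_mul_primary ℓ hN hyN k
    have hm2 : m₀ * ℓ ^ s * ℓ = m₀ * ℓ ^ (s + 1) := by rw [mul_assoc, ← pow_succ]
    refine ⟨⟨e • y, he1, s + 1, ?_⟩, ?_, ?_⟩
    · rw [map_nsmul, ← hm2, hy1]
    · apply Subtype.ext
      rw [psiGG_pow_apply]
      show (φ ^ (m₀ * ℓ ^ (s + 1))) (e • y) = e • y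
      rw [map_nsmul, ← hm2, hy1]
    · apply Subtype.ext
      rw [AddSubmonoidClass.coe_finsetSum]
      have : ∀ i ∈ range ℓ, (((((psiGG ℓ φ m₀) ^ ℓ ^ s) ^ i) ⟨e • y, he1, s + 1, by
          rw [map_nsmul, ← hm2, hy1]⟩ : GG ℓ φ m₀) : P) = e • (((φ ^ (m₀ * ℓ ^ s)) ^ i) y) := by
        intro i _
        rw [← pow_mul, psiGG_pow_apply, ← mul_assoc, pow_mul]
        show ((φ ^ (m₀ * ℓ ^ s)) ^ i) (e • y) = _
        rw [map_nsmul]
      rw [Finset.sum_congr rfl this, ← Finset.smul_sum, hy2]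
      exact he2 x hk)
  refine ⟨?_, key.2⟩
  intro x hx
  obtain ⟨y, hy⟩ := key.1 ⟨x, hx⟩
  exact ⟨y.1, y.2, congrArg Subtype.val hy⟩

/-- **Torsion count.** -/
theorem torsion_count (hM : ¬ (ℓ : ℤ) ∣ M.det)
    (hne : ∀ m : ℕ, 0 < m → (1 - M ^ m).det ≠ 0)
    (H1 : ∀ x : P, ∃ m : ℕ, 0 < m ∧ (φ ^ m) x = x)
    (H2 : ∀ m : ℕ, 0 < m → Nat.card {x : P // (φ ^ m) x = x} = (1 - M ^ m).det.natAbs)
    (H3 : ∀ a : ℕ, 0 < a → ∀ x : P, (φ ^ a) x = x →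
      ∃ y : P, (φ ^ (a * ℓ)) y = y ∧ ∑ i ∈ range ℓ, ((φ ^ a) ^ i) y = x) (k : ℕ) :
    Nat.card {x : P // ℓ ^ k • x = 0} = ℓ ^ (Fintype.card n * k) := by
  have hℓ0 : 0 < ℓ := hℓ.out.pos
  obtain ⟨m₀, h0, -, -, hcard0⟩ := GG_core ℓ φ M hM hne H2 H3 1 one_pos
  have hpow : 0 < ℓ ^ (Fintype.card n) := by positivity
  -- all ℓ-torsion is in GG m₀
  have hmem : ∀ x : P, ℓ • x = 0 → x ∈ GG ℓ φ m₀ := by
    intro x hx
    obtain ⟨b, hb, hbx⟩ := H1 x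
    obtain ⟨m₁, h1, hdvd, -, hcard1⟩ := GG_core ℓ φ M hM hne H2 H3 (m₀ * b) (Nat.mul_pos h0 hb)
    have hle : GG ℓ φ m₀ ≤ GG ℓ φ m₁ := GG_mono ℓ φ ((dvd_mul_right _ _).trans hdvd)
    haveI : Finite {x : GG ℓ φ m₁ // ℓ • x = 0} := by
      apply Nat.finite_of_card_ne_zero; rw [hcard1]; exact hpow.ne'
    let f : {x : GG ℓ φ m₀ // ℓ • x = 0} → {x : GG ℓ φ m₁ // ℓ • x = 0} := fun x =>
      ⟨⟨x.1.1, hle x.1.2⟩, Subtype.ext (show ℓ • x.1.1 = 0 from congrArg Subtype.val x.2)⟩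
    have hf : Function.Injective f := by
      intro x y hxy
      apply Subtype.ext; apply Subtype.ext
      exact congrArg (fun z : {x : GG ℓ φ m₁ // ℓ • x = 0} => z.1.1) hxy
    have hbij : Function.Bijective f := by
      exact (Nat.bijective_iff_injective_and_card f).2 ⟨hf, by rw [hcard0, hcard1]⟩
    have hx1 : x ∈ GG ℓ φ m₁ := by
      refine ⟨⟨1, by simpa using hx⟩, 0, ?_⟩
      exact pow_fix_of_fix φ (((dvd_mul_left _ _).trans hdvd).trans (dvd_mul_right _ _)) hbx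
    obtain ⟨z, hz⟩ := hbij.2 ⟨⟨x, hx1⟩, Subtype.ext hx⟩
    have : z.1.1 = x := congrArg (fun z : {x : GG ℓ φ m₁ // ℓ • x = 0} => z.1.1) hz
    rw [← this]
    exact z.1.2
  have hcardℓ : Nat.card {x : P // ℓ • x = 0} = ℓ ^ (Fintype.card n) := by
    rw [← hcard0]
    refine Nat.card_congr ⟨fun x => ⟨⟨x.1, hmem x.1 x.2⟩, Subtype.ext x.2⟩,
      fun x => ⟨x.1.1, congrArg Subtype.val x.2⟩, ?_, ?_⟩
    · intro x; rfl
    · intro x; rfl
  have hdiv : ∀ (k : ℕ) (x : P), ℓ ^ k • x = 0 → ∃ y : P, ℓ • y = x := by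
    intro k x hx
    obtain ⟨b, hb, hbx⟩ := H1 x
    obtain ⟨m₁, h1, hdvd, hd, -⟩ := GG_core ℓ φ M hM hne H2 H3 b hb
    obtain ⟨y, -, hy⟩ := hd x ⟨⟨k, hx⟩, 0, pow_fix_of_fix φ (hdvd.trans (dvd_mul_right _ _)) hbx⟩
    exact ⟨y, hy⟩
  induction k with
  | zero =>
    simp only [pow_zero, one_smul, mul_zero]
    rw [Nat.card_eq_one_iff_unique]
    exact ⟨⟨fun a b => Subtype.ext (a.2.trans b.2.symm)⟩, ⟨⟨0, rfl⟩⟩⟩
  | succ k ih =>
    let K1 : Submodule ℤ P := LinearMap.ker (((ℓ ^ (k + 1) : ℕ) : ℤ) • (LinearMap.id : Module.End ℤ P))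
    let K0 : Submodule ℤ P := LinearMap.ker (((ℓ ^ k : ℕ) : ℤ) • (LinearMap.id : Module.End ℤ P))
    have mem1 : ∀ x, x ∈ K1 ↔ ℓ ^ (k + 1) • x = 0 := by
      intro x
      simp only [K1, LinearMap.mem_ker, LinearMap.smul_apply, LinearMap.id_apply, natCast_zsmul]
    have mem0 : ∀ x, x ∈ K0 ↔ ℓ ^ k • x = 0 := by
      intro x
      simp only [K0, LinearMap.mem_ker, LinearMap.smul_apply, LinearMap.id_apply, natCast_zsmul]
    let f : K1 →ₗ[ℤ] K0 := ((ℓ : ℤ) • (LinearMap.id : P →ₗ[ℤ] P)).restrict (p := K1) (q := K0) (by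
      intro y hy
      rw [mem1] at hy
      rw [mem0]
      simp only [LinearMap.smul_apply, LinearMap.id_apply, natCast_zsmul]
      rw [smul_smul, ← pow_succ]; exact hy)
    have hf : ∀ y : K1, ((f y : K0) : P) = ℓ • (y : P) := by
      intro y
      simp [f]
    have hfsurj : Function.Surjective f := by
      rintro ⟨x, hx⟩
      obtain ⟨y, hy⟩ := hdiv k x ((mem0 x).1 hx)
      refine ⟨⟨y, (mem1 y).2 ?_⟩, Subtype.ext ?_⟩
      · rw [pow_succ, mul_smul, hy]; exact (mem0 x).1 hx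
      · rw [hf]; exact hy
    have hker : Nat.card (LinearMap.ker f) = Nat.card {x : P // ℓ • x = 0} := by
      refine Nat.card_congr ⟨fun x => ⟨x.1.1, ?_⟩, fun x => ⟨⟨x.1, ?_⟩, ?_⟩, ?_, ?_⟩
      · have := x.2
        rw [LinearMap.mem_ker] at this
        rw [← hf, this]; rfl
      · rw [mem1, pow_succ, mul_smul, x.2, smul_zero]
      · rw [LinearMap.mem_ker]
        apply Subtype.ext
        rw [hf]
        exact x.2
      · intro x; rfl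
      · intro x; rfl
    have hquot : Nat.card K1 = Nat.card K0 * Nat.card (LinearMap.ker f) := by
      have h1 := AddSubgroup.card_eq_card_quotient_mul_card_addSubgroup
        (f.toAddMonoidHom.ker)
      have h2 : Nat.card (K1 ⧸ f.toAddMonoidHom.ker) = Nat.card K0 :=
        Nat.card_congr
          (QuotientAddGroup.quotientKerEquivOfSurjective f.toAddMonoidHom hfsurj).toEquiv
      rw [h2] at h1
      exact h1
    have e1 : Nat.card {x : P // ℓ ^ (k + 1) • x = 0} = Nat.card K1 :=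
      Nat.card_congr (Equiv.subtypeEquivRight mem1).symm
    have e0 : Nat.card {x : P // ℓ ^ k • x = 0} = Nat.card K0 :=
      Nat.card_congr (Equiv.subtypeEquivRight mem0).symm
    rw [e1, hquot, hker, hcardℓ, ← e0, ih, ← pow_add]
    ring_nf

end Main

end Fermat.Agent.S27Lib
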