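import Fermat.Agent.S27Lib.PowerSeriesLog

/-!
From the counting identities for Frobenius-invariant divisors to the integer matrix `M` with
`h m = det (1 - M ^ m)`.
-/

set_option autoImplicit false
set_option linter.unusedSectionVars false
set_option linter.style.haveILetI false

namespace Fermat.Agent.S27Lib

open Finset

section companion

open Polynomial

/-- every monic integer polynomial is a characteristic polynomial. -/
theorem exists_matrix_charpoly (f : ℤ[X]) (hf : f.Monic) :
    ∃ M : Matrix (Fin f.natDegree) (Fin f.natDegree) ℤ, M.charpoly = f := by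
  have hdim : (AdjoinRoot.powerBasis' hf).dim = f.natDegree := AdjoinRoot.powerBasis'_dim hf
  set pb := AdjoinRoot.powerBasis' hf with hpb
  have h1 : (Algebra.leftMulMatrix pb.basis pb.gen).charpoly = f := by
    rw [charpoly_leftMulMatrix]
    have hgen : pb.gen = AdjoinRoot.root f := AdjoinRoot.powerBasis'_gen hf
    rw [hgen]
    symm
    apply minpoly.unique' ℤ (AdjoinRoot.root f) hf
    · exact AdjoinRoot.aeval_eq f ▸ AdjoinRoot.mk_self
    · intro q hq
      by_contra hcon
      push Not at hcon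
      obtain ⟨hq0, hq1⟩ := hcon
      rw [AdjoinRoot.aeval_eq, AdjoinRoot.mk_eq_zero] at hq1
      have := hf.not_dvd_of_degree_lt hq0 hq
      exact this hq1
  rw [← hdim]
  exact ⟨_, h1⟩

theorem reverse_prod (s : Multiset ℂ) :
    ((s.map (fun a => X - C a)).prod).reverse = (s.map (fun a => 1 - C a * X)).prod := by
  induction s using Multiset.induction_on with
  | empty =>
    simp only [Multiset.map_zero, Multiset.prod_zero]
    rw [← C_1, reverse_C]
  | cons a s ih =>
    rw [Multiset.map_cons, Multiset.prod_cons, Multiset.map_cons, Multiset.prod_cons,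
      reverse_mul_of_domain, ih]
    congr 1
    have h1 : (X - C a : ℂ[X]) = C (-a) + X := by rw [C_neg]; ring
    rw [h1]
    have h2 : (C (-a) + X : ℂ[X]) = (C (-a) * X ^ 0 + X : ℂ[X]) := by rw [pow_zero, mul_one]
    by_cases ha : a = 0
    · subst ha
      rw [neg_zero, C_0, zero_add, zero_mul, sub_zero]
      have := reverse_mul_X (1 : ℂ[X])
      rw [one_mul] at this
      rw [this, ← C_1, reverse_C]
    · have : (C (-a) + X : ℂ[X]).natDegree = 1 := by
        rw [add_comm]; exact natDegree_X_add_C _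
      ext n
      rw [coeff_reverse, this]
      rcases n with _ | _ | n
      · simp [revAt_le]
      · rw [revAt_le (by omega)]
        simp [coeff_one]
      · rw [revAt_eq_self_of_lt (by omega)]
        simp [coeff_one, coeff_X]

theorem det_one_sub_pow {n : ℕ} (M : Matrix (Fin n) (Fin n) ℂ) {m : ℕ} (hm : 0 < m)
    (s : Multiset ℂ) (hs : M.charpoly = (s.map (fun a => X - C a)).prod) :
    (1 - M ^ m).det = (s.map (fun a => 1 - a ^ m)).prod := by
  obtain ⟨ζ, hζ⟩ : ∃ ζ : ℂ, IsPrimitiveRoot ζ m := ⟨_, Complex.isPrimitiveRoot_exp m hm.ne'⟩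
  have hrev : M.charpolyRev = (s.map (fun a => 1 - C a * X)).prod := by
    rw [← Matrix.reverse_charpoly, hs, reverse_prod]
  have hdet : ∀ z : ℂ, (1 - z • M).det = (s.map (fun a => 1 - a * z)).prod := by
    intro z
    have h1 : (M.charpolyRev).eval z = (1 - z • M).det := by
      rw [Matrix.charpolyRev, ← coe_evalRingHom, RingHom.map_det]
      congr 1
      ext i j
      simp [Matrix.one_apply, RingHom.mapMatrix_apply]
      split_ifs <;> simp [mul_comm]
    rw [← h1, hrev, ← coe_evalRingHom, map_multiset_prod, Multiset.map_map]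
    congr 1
    apply Multiset.map_congr rfl
    intro a _
    simp
  have hpoly : (1 - X ^ m : ℂ[X]) = ∏ z ∈ nthRootsFinset m (1 : ℂ), (1 - C z * X) := by
    have hζ' : IsPrimitiveRoot (C ζ) m := hζ.map_of_injective C_injective
    have h1 := hζ'.pow_sub_pow_eq_prod_sub_mul (1 : ℂ[X]) X hm
    rw [one_pow] at h1
    rw [h1]
    have h2 : nthRootsFinset m (1 : ℂ[X]) = (nthRootsFinset m (1 : ℂ)).map ⟨C, C_injective⟩ := by
      symm
      apply Finset.eq_of_subset_of_card_le
      · intro z hz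
        rw [Finset.mem_map] at hz
        obtain ⟨w, hw, rfl⟩ := hz
        rw [mem_nthRootsFinset hm] at hw
        simp only [Function.Embedding.coeFn_mk]
        rw [mem_nthRootsFinset hm, ← C_pow, hw, C_1]
      · rw [Finset.card_map, hζ.card_nthRootsFinset, hζ'.card_nthRootsFinset]
    rw [h2, Finset.prod_map]
    rfl
  let D : ℂ[X] →* ℂ := Matrix.detMonoidHom.comp (aeval M : ℂ[X] →ₐ[ℂ] Matrix (Fin n) (Fin n) ℂ).toMonoidHom
  have hD : ∀ p : ℂ[X], D p = (aeval M p).det := fun p => rfl
  have h3 : D (1 - X ^ m) = (1 - M ^ m).det := by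
    rw [hD, map_sub, map_one, map_pow, aeval_X]
  rw [← h3, hpoly, map_prod]
  have h4 : ∀ z : ℂ, D (1 - C z * X) = (s.map (fun a => 1 - a * z)).prod := by
    intro z
    rw [hD, map_sub, map_one, map_mul, aeval_C, aeval_X, ← hdet z, Algebra.smul_def]
  simp only [h4]
  rw [← Multiset.prod_map_prod]
  congr 1
  apply Multiset.map_congr rfl
  intro a _
  have h5 := hζ.pow_sub_pow_eq_prod_sub_mul 1 a hm
  rw [one_pow] at h5
  rw [h5]
  refine Finset.prod_congr rfl fun z _ => ?_
  ring

end companion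

section Lpoly

open PowerSeries

theorem coeff_LS_zero (Q : ℤ) (A : ℕ → ℤ) :
    coeff 0 ((1 - X) * (1 - C Q * X) * (PowerSeries.mk A : ℤ⟦X⟧)) = A 0 := by
  have h : ((1 - X) * (1 - C Q * X) * (PowerSeries.mk A : ℤ⟦X⟧)) =
      (PowerSeries.mk A : ℤ⟦X⟧) - X * (C (1 + Q) * PowerSeries.mk A)
        + X * (X * (C Q * PowerSeries.mk A)) := by
    rw [map_add, map_one]; ring
  rw [h, map_add, map_sub, coeff_zero_X_mul, coeff_zero_X_mul, coeff_mk]
  ring

theorem coeff_LS_one (Q : ℤ) (A : ℕ → ℤ) :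
    coeff 1 ((1 - X) * (1 - C Q * X) * (PowerSeries.mk A : ℤ⟦X⟧)) = A 1 - (1 + Q) * A 0 := by
  have h : ((1 - X) * (1 - C Q * X) * (PowerSeries.mk A : ℤ⟦X⟧)) =
      (PowerSeries.mk A : ℤ⟦X⟧) - X * (C (1 + Q) * PowerSeries.mk A)
        + X * (X * (C Q * PowerSeries.mk A)) := by
    rw [map_add, map_one]; ring
  have e : (1 : ℕ) = 0 + 1 := rfl
  rw [h, map_add, map_sub, e, coeff_succ_X_mul, coeff_succ_X_mul, coeff_zero_X_mul, coeff_mk,
    coeff_C_mul, coeff_mk]
  ring

theorem coeff_LS_add_two (Q : ℤ) (A : ℕ → ℤ) (n : ℕ) :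
    coeff (n + 2) ((1 - X) * (1 - C Q * X) * (PowerSeries.mk A : ℤ⟦X⟧)) =
      A (n + 2) - (1 + Q) * A (n + 1) + Q * A n := by
  have h : ((1 - X) * (1 - C Q * X) * (PowerSeries.mk A : ℤ⟦X⟧)) =
      (PowerSeries.mk A : ℤ⟦X⟧) - X * (C (1 + Q) * PowerSeries.mk A)
        + X * (X * (C Q * PowerSeries.mk A)) := by
    rw [map_add, map_one]; ring
  rw [h, map_add, map_sub, show n + 2 = (n + 1) + 1 by ring, coeff_succ_X_mul, coeff_succ_X_mul,
    coeff_succ_X_mul, coeff_mk, coeff_C_mul, coeff_mk, coeff_C_mul, coeff_mk]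

/-- The hypotheses on the counting function of invariant effective divisors. -/
structure CountHyp (Q g h : ℕ) (A : ℕ → ℕ) : Prop where
  A0 : A 0 = 1
  big : ∀ n, 2 * g ≤ n + 1 → ((Q : ℤ) - 1) * A n = h * ((Q : ℤ) ^ (n + 1 - g) - 1)
  can : 1 ≤ g → ((Q : ℤ) - 1) * A (2 * g - 2) =
    h * ((Q : ℤ) ^ (g - 1) - 1) + (Q : ℤ) ^ g - (Q : ℤ) ^ (g - 1)

theorem exists_Lpoly {Q g h : ℕ} (hQ : 2 ≤ Q) {A : ℕ → ℕ} (H : CountHyp Q g h A) :
    ∃ P : Polynomial ℤ, (P : ℤ⟦X⟧) = (1 - X) * (1 - C (Q : ℤ) * X) *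
        (PowerSeries.mk (fun n => (A n : ℤ))) ∧
      P.natDegree ≤ 2 * g ∧ P.coeff 0 = 1 ∧ P.coeff (2 * g) = (Q : ℤ) ^ g ∧ P.eval 1 = h := by
  set LS : ℤ⟦X⟧ := (1 - X) * (1 - C (Q : ℤ) * X) * (PowerSeries.mk (fun n => (A n : ℤ))) with hLS
  have hQ1 : ((Q : ℤ) - 1) ≠ 0 := by
    have : (2 : ℤ) ≤ Q := by exact_mod_cast hQ
    omega
  have hvanish : ∀ n, 2 * g < n → coeff n LS = 0 := by
    intro n hn
    rcases n with _ | _ | n
    · omega
    · have hg : g = 0 := by omega
      subst hg
      rw [hLS, zero_add, coeff_LS_one]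
      apply mul_left_cancel₀ hQ1
      have h1 := H.big 1 (by omega)
      have h0 := H.big 0 (by omega)
      simp only [Nat.sub_zero] at h1 h0
      push_cast at h1 h0 ⊢
      have : ((Q : ℤ) - 1) * (A 1 - (1 + Q) * A 0) =
          ((Q : ℤ) - 1) * A 1 - (1 + Q) * (((Q : ℤ) - 1) * A 0) := by ring
      rw [this, h1, h0]
      ring
    · rw [hLS, coeff_LS_add_two]
      apply mul_left_cancel₀ hQ1
      have h2 := H.big (n + 2) (by omega)
      have h1 := H.big (n + 1) (by omega)
      have h0 := H.big n (by omega)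
      obtain ⟨k, hk⟩ : ∃ k, n + 1 = g + k := ⟨n + 1 - g, by omega⟩
      rw [show n + 2 + 1 - g = k + 2 by omega] at h2
      rw [show n + 1 + 1 - g = k + 1 by omega] at h1
      rw [show n + 1 - g = k by omega] at h0
      have : ((Q : ℤ) - 1) * ((A (n + 2) : ℤ) - (1 + Q) * A (n + 1) + Q * A n) =
          ((Q : ℤ) - 1) * A (n + 2) - (1 + Q) * (((Q : ℤ) - 1) * A (n + 1))
            + Q * (((Q : ℤ) - 1) * A n) := by ring
      rw [this, h2, h1, h0]
      ring
  have hP : ((PowerSeries.trunc (2 * g + 1) LS : Polynomial ℤ) : ℤ⟦X⟧) = LS := by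
    ext n
    rw [Polynomial.coeff_coe, coeff_trunc]
    split_ifs with hn
    · rfl
    · exact (hvanish n (by omega)).symm
  set P := PowerSeries.trunc (2 * g + 1) LS with hPdef
  have hcoeff : ∀ n, P.coeff n = coeff n LS := by
    intro n
    rw [← Polynomial.coeff_coe, hP]
  have hdeg : P.natDegree ≤ 2 * g := by
    rw [Polynomial.natDegree_le_iff_coeff_eq_zero]
    intro n hn
    rw [hcoeff, hvanish n hn]
  refine ⟨P, hP, hdeg, ?_, ?_, ?_⟩
  · rw [hcoeff, hLS, coeff_LS_zero, H.A0]; rfl
  · rw [hcoeff]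
    rcases Nat.eq_zero_or_pos g with hg | hg
    · subst hg
      rw [mul_zero, hLS, coeff_LS_zero, H.A0]; simp
    · obtain ⟨k, rfl⟩ : ∃ k, g = k + 1 := ⟨g - 1, by omega⟩
      rw [show 2 * (k + 1) = 2 * k + 2 by ring, hLS, coeff_LS_add_two]
      apply mul_left_cancel₀ hQ1
      have h2 := H.big (2 * k + 2) (by omega)
      have h1 := H.big (2 * k + 1) (by omega)
      have h0 := H.can (by omega)
      rw [show 2 * k + 2 + 1 - (k + 1) = k + 2 by omega] at h2
      rw [show 2 * k + 1 + 1 - (k + 1) = k + 1 by omega] at h1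
      rw [show 2 * (k + 1) - 2 = 2 * k by omega, show k + 1 - 1 = k by omega] at h0
      have : ((Q : ℤ) - 1) * ((A (2 * k + 2) : ℤ) - (1 + Q) * A (2 * k + 1) + Q * A (2 * k)) =
          ((Q : ℤ) - 1) * A (2 * k + 2) - (1 + Q) * (((Q : ℤ) - 1) * A (2 * k + 1))
            + Q * (((Q : ℤ) - 1) * A (2 * k)) := by ring
      rw [this, h2, h1, h0]
      ring
  · -- evaluation at one
    set N := 2 * g + 1 with hN
    have h1 : P.eval 1 = ∑ i ∈ range (N + 1), P.coeff i := by
      rw [Polynomial.eval_eq_sum_range' (n := N + 1) (by omega)]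
      simp
    have h2 : ∀ n : ℕ, ∑ i ∈ range (n + 1 + 1), coeff i LS = (A (n + 1) : ℤ) - Q * A n := by
      intro n
      induction n with
      | zero =>
        rw [Finset.sum_range_succ, Finset.sum_range_one, hLS, coeff_LS_zero, coeff_LS_one]
        ring
      | succ n ih =>
        rw [Finset.sum_range_succ, ih, hLS, coeff_LS_add_two]
        ring
    rw [h1]
    simp only [hcoeff]
    rw [hN, h2]
    apply mul_left_cancel₀ hQ1
    have h3 := H.big (2 * g + 1) (by omega)
    have h4 := H.big (2 * g) (by omega)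
    rw [show 2 * g + 1 + 1 - g = g + 2 by omega] at h3
    rw [show 2 * g + 1 - g = g + 1 by omega] at h4
    have : ((Q : ℤ) - 1) * ((A (2 * g + 1) : ℤ) - Q * A (2 * g)) =
        ((Q : ℤ) - 1) * (A (2 * g + 1) : ℤ) - Q * (((Q : ℤ) - 1) * A (2 * g)) := by ring
    rw [this, h3, h4]
    ring

/-- Main algebraic statement on zeta functions. -/
theorem exists_matrix_of_count {q g : ℕ} (hq : 2 ≤ q) (A S : ℕ → ℕ → ℕ) (h : ℕ → ℕ)
    (hcount : ∀ m, 1 ≤ m → CountHyp (q ^ m) g (h m) (A m))
    (hrec : ∀ m, 1 ≤ m → ∀ n, 1 ≤ n → n * A m n = ∑ j ∈ Icc 1 n, S m j * A m (n - j))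
    (hS : ∀ m, 1 ≤ m → ∀ n, 1 ≤ n → S m n = S 1 (m * n)) :
    ∃ (d : ℕ) (M : Matrix (Fin d) (Fin d) ℤ), d = 2 * g ∧ M.det = (q : ℤ) ^ g ∧
      (∀ m, 1 ≤ m → (1 - M ^ m).det = h m) ∧
      ∃ s : Multiset ℂ, ∀ n, 1 ≤ n → (S 1 n : ℂ) = 1 + (q : ℂ) ^ n - (s.map (fun a => a ^ n)).sum := by
  have hqm : ∀ m, 1 ≤ m → 2 ≤ q ^ m := fun m hm => hq.trans (Nat.le_self_pow (by omega) q)
  choose! P hP hdeg hP0 hPg hP1 using fun m hm => exists_Lpoly (hqm m hm) (hcount m hm)
  -- the polynomial f
  have hq0 : (q : ℤ) ^ g ≠ 0 := pow_ne_zero _ (by exact_mod_cast (by omega : q ≠ 0))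
  have hPg1 : (P 1).coeff (2 * g) = (q : ℤ) ^ g := by
    have := hPg 1 le_rfl
    rwa [pow_one] at this
  have hnd : (P 1).natDegree = 2 * g := by
    apply le_antisymm (hdeg 1 le_rfl)
    apply Polynomial.le_natDegree_of_ne_zero
    rw [hPg1]; exact hq0
  set f := (P 1).reverse with hf
  have htd : (P 1).natTrailingDegree = 0 := by
    rw [Polynomial.natTrailingDegree_eq_zero]
    right
    rw [hP0 1 le_rfl]; exact one_ne_zero
  have hfdeg : f.natDegree = 2 * g := by
    rw [hf, Polynomial.reverse_natDegree, htd, hnd, Nat.sub_zero]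
  have hfmonic : f.Monic := by
    rw [Polynomial.Monic, hf, Polynomial.reverse_leadingCoeff, Polynomial.trailingCoeff, htd,
      hP0 1 le_rfl]
  have hf0 : f.coeff 0 = (q : ℤ) ^ g := by
    rw [hf, Polynomial.coeff_zero_reverse, Polynomial.leadingCoeff, hnd, hPg1]
  have hfrev : f.reverse = P 1 := by
    ext n
    rw [Polynomial.coeff_reverse, hfdeg]
    rcases le_or_gt n (2 * g) with hn | hn
    · rw [Polynomial.revAt_le hn, hf, Polynomial.coeff_reverse, hnd,
        Polynomial.revAt_le (by omega)]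
      congr 1
      omega
    · rw [Polynomial.revAt_eq_self_of_lt hn, Polynomial.coeff_eq_zero_of_natDegree_lt (by omega),
        Polynomial.coeff_eq_zero_of_natDegree_lt (by omega)]
  obtain ⟨M, hM⟩ := exists_matrix_charpoly f hfmonic
  -- the complex roots
  set fC := f.map (Int.castRingHom ℂ) with hfC
  have hfCmonic : fC.Monic := hfmonic.map _
  set s : Multiset ℂ := fC.roots with hs
  have hfCprod : fC = (s.map (fun a => Polynomial.X - Polynomial.C a)).prod := by
    have := (IsAlgClosed.splits fC).eq_prod_roots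
    rw [hfCmonic.leadingCoeff, Polynomial.C_1, one_mul] at this
    exact this
  set MC := M.map (Int.castRingHom ℂ) with hMC
  have hMCchar : MC.charpoly = (s.map (fun a => Polynomial.X - Polynomial.C a)).prod := by
    rw [hMC, Matrix.charpoly_map, hM, ← hfC, hfCprod]
  -- the L-polynomial over ℂ
  have hP1C : (P 1).map (Int.castRingHom ℂ) =
      (s.map (fun a => 1 - Polynomial.C a * Polynomial.X)).prod := by
    rw [← reverse_prod, ← hfCprod, hfC, ← hfrev]
    ext n
    have hnd' : (f.map (Int.castRingHom ℂ)).natDegree = f.natDegree :=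
      hfmonic.natDegree_map _
    rw [Polynomial.coeff_map, Polynomial.coeff_reverse f,
      Polynomial.coeff_reverse (Polynomial.map (Int.castRingHom ℂ) f), hnd', Polynomial.coeff_map]
  -- power series identities over ℂ
  have hcast : ∀ m, 1 ≤ m → (((P m).map (Int.castRingHom ℂ) : Polynomial ℂ) : ℂ⟦X⟧) =
      (1 - X) * (1 - C ((q : ℂ) ^ m) * X) * (PowerSeries.mk (fun n => (A m n : ℂ))) := by
    intro m hm
    have h1 := congrArg (PowerSeries.map (Int.castRingHom ℂ)) (hP m hm)
    rw [← Polynomial.polynomial_map_coe] at h1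
    rw [h1, map_mul, map_mul, map_sub, map_sub, map_one, map_mul, PowerSeries.map_X,
      PowerSeries.map_C]
    congr 2
    · congr 2
      simp
  have hlogA : ∀ m, 1 ≤ m → IsLog (posSeries (fun n => (S m n : ℂ)))
      (PowerSeries.mk (fun n => (A m n : ℂ))) := by
    intro m hm
    apply isLog_of_rec
    · simp [(hcount m hm).A0]
    · intro n hn
      have := hrec m hm n hn
      exact_mod_cast this
  have hprodps : ∀ t : Multiset ℂ,
      ((t.map (fun a => 1 - Polynomial.C a * Polynomial.X)).prod : Polynomial ℂ) =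
      ((t.map (fun a => 1 - C a * X)).prod : ℂ⟦X⟧) := by
    intro t
    induction t using Multiset.induction_on with
    | empty => simp
    | cons a t ih =>
      rw [Multiset.map_cons, Multiset.prod_cons, Multiset.map_cons, Multiset.prod_cons,
        Polynomial.coe_mul, ih]
      congr 1
      simp
  have hone : IsLog (-(sig 1)) (1 - X : ℂ⟦X⟧) := by
    have := isLog_one_sub 1
    rwa [map_one, one_mul] at this
  -- formula for S 1
  have hlog1 : IsLog (-(sig 1) + -(sig ((q : ℂ) ^ 1)) + posSeries (fun n => (S 1 n : ℂ)))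
      (((P 1).map (Int.castRingHom ℂ) : Polynomial ℂ) : ℂ⟦X⟧) := by
    rw [hcast 1 le_rfl]
    exact (hone.mul (isLog_one_sub _)).mul (hlogA 1 le_rfl)
  have hlog2 : IsLog (-(s.map sig).sum)
      (((P 1).map (Int.castRingHom ℂ) : Polynomial ℂ) : ℂ⟦X⟧) := by
    rw [hP1C, hprodps]
    exact isLog_prod s
  have hσ := hlog1.unique_log hlog2
  have hS1 : ∀ n, 1 ≤ n → (S 1 n : ℂ) = 1 + (q : ℂ) ^ n - (s.map (fun a => a ^ n)).sum := by
    intro n hn
    have h1 := congrArg (coeff n) hσ
    rw [map_add, map_add, map_neg, map_neg, map_neg, coeff_sig _ hn, coeff_sig _ hn,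
      coeff_posSeries _ hn, coeff_sum_sig _ hn, one_pow, pow_one] at h1
    linear_combination h1
  -- L-polynomials of all levels
  have hPm : ∀ m, 1 ≤ m → (((P m).map (Int.castRingHom ℂ) : Polynomial ℂ) : ℂ⟦X⟧) =
      (((s.map (fun a => a ^ m)).map (fun a => 1 - Polynomial.C a * Polynomial.X)).prod :
        Polynomial ℂ) := by
    intro m hm
    have h1 : IsLog (-(sig 1) + -(sig ((q : ℂ) ^ m)) + posSeries (fun n => (S m n : ℂ)))
        (((P m).map (Int.castRingHom ℂ) : Polynomial ℂ) : ℂ⟦X⟧) := by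
      rw [hcast m hm]
      exact (hone.mul (isLog_one_sub _)).mul (hlogA m hm)
    have h2 : IsLog (-((s.map (fun a => a ^ m)).map sig).sum)
      ((((s.map (fun a => a ^ m)).map (fun a => 1 - Polynomial.C a * Polynomial.X)).prod :
        Polynomial ℂ) : ℂ⟦X⟧) := by
      rw [hprodps]
      exact isLog_prod _
    have h3 : (-(sig 1) + -(sig ((q : ℂ) ^ m)) + posSeries (fun n => (S m n : ℂ))) =
        -((s.map (fun a => a ^ m)).map sig).sum := by
      ext n
      rcases Nat.eq_zero_or_pos n with rfl | hn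
      · rw [map_add, map_add, map_neg, map_neg, map_neg, coeff_sig_zero, coeff_sig_zero,
          coeff_posSeries_zero, coeff_sum_sig_zero]
        simp
      · rw [map_add, map_add, map_neg, map_neg, map_neg, coeff_sig _ hn, coeff_sig _ hn,
          coeff_posSeries _ hn, coeff_sum_sig _ hn, one_pow, hS m hm n hn,
          hS1 (m * n) (Nat.mul_pos hm hn), Multiset.map_map]
        have : (s.map (fun a => a ^ (m * n))) = s.map ((fun a => a ^ n) ∘ fun a => a ^ m) := by
          apply Multiset.map_congr rfl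
          intro a _
          simp [pow_mul]
        rw [this]
        ring
    rw [h3] at h1
    exact h1.unique h2
  refine ⟨f.natDegree, M, hfdeg, ?_, ?_, s, hS1⟩
  · rw [Matrix.det_eq_sign_charpoly_coeff, hM, hf0, Fintype.card_fin, hfdeg, pow_mul]
    norm_num
  · intro m hm
    have h1 : (((1 - M ^ m).det : ℤ) : ℂ) = (h m : ℂ) := by
      have h2 : (((1 - M ^ m).det : ℤ) : ℂ) = (1 - MC ^ m).det := by
        have := RingHom.map_det (Int.castRingHom ℂ) (1 - M ^ m)
        rw [map_sub, map_one, map_pow] at this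
        exact this
      rw [h2, det_one_sub_pow MC hm s hMCchar]
      have h3 : ((P m).map (Int.castRingHom ℂ)) =
          ((s.map (fun a => a ^ m)).map (fun a => 1 - Polynomial.C a * Polynomial.X)).prod :=
        Polynomial.coe_injective ℂ (hPm m hm)
      have h4 : ((P m).map (Int.castRingHom ℂ)).eval 1 = (h m : ℂ) := by
        have h5 := hP1 m hm
        have h6 : ((P m).map (Int.castRingHom ℂ)).eval ((Int.castRingHom ℂ) 1) =
          (Int.castRingHom ℂ) ((P m).eval 1) := Polynomial.eval_map_apply _ _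
        rw [map_one, h5] at h6
        rw [h6]; simp
      rw [← h4, h3, ← Polynomial.coe_evalRingHom, map_multiset_prod, Multiset.map_map,
        Multiset.map_map]
      congr 1
      apply Multiset.map_congr rfl
      intro a _
      simp
    exact_mod_cast h1

end Lpoly

end Fermat.Agent.S27Lib

namespace Fermat.Agent.S27Lib

open Finset PowerSeries

/-- If `B` is a polynomial with logarithmic derivative `T`, and `A'` has logarithmic derivative
`T (m ·)`, then `A'` is also a polynomial. -/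
theorem eventually_zero_of_rec {m : ℕ} (hm : 1 ≤ m) (B T A' : ℕ → ℂ) (hB0 : B 0 = 1)
    (hBrec : ∀ n : ℕ, 1 ≤ n → (n : ℂ) * B n = ∑ j ∈ Icc 1 n, T j * B (n - j))
    (hBfin : ∃ N, ∀ n, N ≤ n → B n = 0) (hA0 : A' 0 = 1)
    (hArec : ∀ n : ℕ, 1 ≤ n → (n : ℂ) * A' n = ∑ j ∈ Icc 1 n, T (m * j) * A' (n - j)) :
    ∃ N, ∀ n, N ≤ n → A' n = 0 := by
  obtain ⟨N, hN⟩ := hBfin
  set P : Polynomial ℂ := PowerSeries.trunc N (PowerSeries.mk B) with hPdef
  have hP : (P : ℂ⟦X⟧) = PowerSeries.mk B := by
    ext n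
    rw [hPdef, Polynomial.coeff_coe, coeff_trunc]
    split_ifs with hn
    · rfl
    · rw [coeff_mk, hN n (by omega)]
  have hPcoeff : ∀ n, P.coeff n = B n := by
    intro n
    rw [← Polynomial.coeff_coe, hP, coeff_mk]
  have hP0 : P.coeff 0 = 1 := by rw [hPcoeff, hB0]
  have htd : P.natTrailingDegree = 0 := by
    rw [Polynomial.natTrailingDegree_eq_zero]
    right
    rw [hP0]; exact one_ne_zero
  set f := P.reverse with hf
  have hfdeg : f.natDegree = P.natDegree := by
    rw [hf, Polynomial.reverse_natDegree, htd, Nat.sub_zero]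
  have hfmonic : f.Monic := by
    rw [Polynomial.Monic, hf, Polynomial.reverse_leadingCoeff, Polynomial.trailingCoeff, htd, hP0]
  have hfrev : f.reverse = P := by
    ext n
    rw [Polynomial.coeff_reverse, hfdeg]
    rcases le_or_gt n P.natDegree with hn | hn
    · rw [Polynomial.revAt_le hn, hf, Polynomial.coeff_reverse,
        Polynomial.revAt_le (by omega)]
      congr 1
      omega
    · rw [Polynomial.revAt_eq_self_of_lt hn, Polynomial.coeff_eq_zero_of_natDegree_lt (by omega),
        Polynomial.coeff_eq_zero_of_natDegree_lt (by omega)]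
  set s : Multiset ℂ := f.roots with hs
  have hfprod : f = (s.map (fun a => Polynomial.X - Polynomial.C a)).prod := by
    have := (IsAlgClosed.splits f).eq_prod_roots
    rw [hfmonic.leadingCoeff, Polynomial.C_1, one_mul] at this
    exact this
  have hPprod : P = (s.map (fun a => 1 - Polynomial.C a * Polynomial.X)).prod := by
    rw [← reverse_prod, ← hfprod, hfrev]
  have hprodps : ∀ t : Multiset ℂ,
      ((t.map (fun a => 1 - Polynomial.C a * Polynomial.X)).prod : Polynomial ℂ) =
      ((t.map (fun a => 1 - C a * X)).prod : ℂ⟦X⟧) := by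
    intro t
    induction t using Multiset.induction_on with
    | empty => simp
    | cons a t ih =>
      rw [Multiset.map_cons, Multiset.prod_cons, Multiset.map_cons, Multiset.prod_cons,
        Polynomial.coe_mul, ih]
      congr 1
      simp
  have hlog1 : IsLog (posSeries T) (PowerSeries.mk B) := isLog_of_rec T B hB0 hBrec
  have hlog2 : IsLog (-(s.map sig).sum) (PowerSeries.mk B) := by
    rw [← hP, hPprod, hprodps]
    exact isLog_prod s
  have hσ := hlog1.unique_log hlog2
  have hT : ∀ n, 1 ≤ n → T n = - (s.map (fun a => a ^ n)).sum := by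
    intro n hn
    have h1 := congrArg (coeff n) hσ
    rw [map_neg, coeff_posSeries _ hn, coeff_sum_sig _ hn] at h1
    exact h1
  have hlog3 : IsLog (posSeries (fun j => T (m * j))) (PowerSeries.mk A') :=
    isLog_of_rec (fun j => T (m * j)) A' hA0 hArec
  have hlog4 : IsLog (-((s.map (fun a => a ^ m)).map sig).sum)
      (((s.map (fun a => a ^ m)).map (fun a => 1 - Polynomial.C a * Polynomial.X)).prod :
        Polynomial ℂ) := by
    rw [hprodps]
    exact isLog_prod _
  have h3 : posSeries (fun j => T (m * j)) = -((s.map (fun a => a ^ m)).map sig).sum := by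
    ext n
    rcases Nat.eq_zero_or_pos n with rfl | hn
    · rw [map_neg, coeff_posSeries_zero, coeff_sum_sig_zero, neg_zero]
    · rw [map_neg, coeff_posSeries _ hn, coeff_sum_sig _ hn, hT _ (Nat.mul_pos hm hn),
        Multiset.map_map]
      congr 2
      apply Multiset.map_congr rfl
      intro a _
      simp [pow_mul]
  rw [h3] at hlog3
  have h4 := hlog3.unique hlog4
  refine ⟨(((s.map (fun a => a ^ m)).map
    (fun a => 1 - Polynomial.C a * Polynomial.X)).prod).natDegree + 1, fun n hn => ?_⟩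
  have h5 := congrArg (coeff n) h4
  rw [coeff_mk, Polynomial.coeff_coe, Polynomial.coeff_eq_zero_of_natDegree_lt (by omega)] at h5
  exact h5

end Fermat.Agent.S27Lib
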