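import Fermat.Agent.S27Lib.FrobGeom
import Fermat.Agent.S27Lib.ZetaAlgebra
import Fermat.Agent.S27Lib.TorsionCount
import Fermat.Agent.RR.Corollaries

/-!
Counting Frobenius-invariant effective divisors and divisor classes.
-/

set_option autoImplicit false
set_option linter.unusedSectionVars false
set_option linter.style.haveILetI false

noncomputable section

open AlgebraicCurve Fermat.Agent.RR Finset

namespace Fermat.Agent.S27Lib

variable {K F : Type*} [Field K] [Field F] [Algebra K F] [IsAlgClosed K] [FunctionField K F]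

/-- the divisor `D - deg(D) P₀` of degree zero. -/
def clsDiv (P₀ : Place K F) : (Place K F →₀ ℕ) →+ Divisor.degZero (K := K) (F := F) where
  toFun D := ⟨toDiv D - Finsupp.single P₀ (D.degree : ℤ), by
    rw [Divisor.mem_degZero, map_sub, degree_toDiv, degree_single_one, sub_self]⟩
  map_zero' := by
    apply Subtype.ext
    simp
  map_add' D E := by
    apply Subtype.ext
    simp only [map_add, AddSubgroup.coe_add]
    push_cast
    rw [Finsupp.single_add]
    abel

theorem coe_clsDiv (P₀ : Place K F) (D : Place K F →₀ ℕ) :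
    ((clsDiv P₀ D : Divisor.degZero (K := K) (F := F)) : Divisor K F) =
      toDiv D - Finsupp.single P₀ (D.degree : ℤ) := rfl

/-- the class of `D - deg(D) P₀`. -/
def cls (P₀ : Place K F) : (Place K F →₀ ℕ) →+ Pic0 K F :=
  (QuotientAddGroup.mk' _).comp (clsDiv P₀)

theorem cls_eq (P₀ : Place K F) (D : Place K F →₀ ℕ) : cls P₀ D = Pic0.mk (clsDiv P₀ D) := rfl

theorem mk_eq_mk_iff (D E : Divisor.degZero (K := K) (F := F)) :
    Pic0.mk D = Pic0.mk E ↔ ∃ h : F, h ≠ 0 ∧ (E : Divisor K F) = (D : Divisor K F) + divOf h := by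
  have h1 : Pic0.mk D = Pic0.mk E ↔
      -D + E ∈ (Divisor.principal (K := K) (F := F)).addSubgroupOf
        (Divisor.degZero (K := K) (F := F)) := QuotientAddGroup.eq
  rw [h1, AddSubgroup.mem_addSubgroupOf]
  constructor
  · rintro ⟨f, hf, hfD⟩
    refine ⟨f, hf, ?_⟩
    ext v
    have := hfD v
    simp only [AddSubgroup.coe_add, NegMemClass.coe_neg, Finsupp.add_apply, Finsupp.neg_apply] at this
    rw [Finsupp.add_apply, divOf_apply, ← this]
    ring
  · rintro ⟨f, hf, hfD⟩
    refine ⟨f, hf, fun v => ?_⟩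
    simp only [AddSubgroup.coe_add, NegMemClass.coe_neg, Finsupp.add_apply, Finsupp.neg_apply]
    rw [hfD, Finsupp.add_apply, divOf_apply]
    ring

theorem smul_clsDiv (σ : SemilinearAut K F) {P₀ : Place K F} (hP₀ : σ • P₀ = P₀)
    {D : Place K F →₀ ℕ} (hD : ∀ x, D (pperm σ x) = D x) :
    SemilinearAut.degZeroSMulHom σ (clsDiv P₀ D) = clsDiv P₀ D := by
  apply Subtype.ext
  rw [SemilinearAut.coe_degZeroSMulHom, coe_clsDiv, smul_sub, (smul_toDiv_eq_iff σ D).2 hD,
    SemilinearAut.smul_single, hP₀]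

theorem smul_cls (σ : SemilinearAut K F) {P₀ : Place K F} (hP₀ : σ • P₀ = P₀)
    {D : Place K F →₀ ℕ} (hD : ∀ x, D (pperm σ x) = D x) :
    σ • cls P₀ D = cls P₀ D := by
  rw [cls_eq, SemilinearAut.pic0_smul_mk, smul_clsDiv σ hP₀ hD]

theorem smul_cls_single (σ : SemilinearAut K F) {P₀ : Place K F} (hP₀ : σ • P₀ = P₀)
    (P : Place K F) :
    σ • cls P₀ (Finsupp.single P 1) = cls P₀ (Finsupp.single (σ • P) 1) := by
  rw [cls_eq, cls_eq, SemilinearAut.pic0_smul_mk]
  congr 1
  apply Subtype.ext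
  have h1 : ∀ Q : Place K F, toDiv (Finsupp.single Q 1) = (Finsupp.single Q 1 : Divisor K F) := by
    intro Q; simp [toDiv]
  rw [SemilinearAut.coe_degZeroSMulHom, coe_clsDiv, coe_clsDiv, smul_sub, h1, h1,
    SemilinearAut.smul_single, SemilinearAut.smul_single, hP₀, Finsupp.degree_single,
    Finsupp.degree_single]

/-- fixed classes -/
def fixedCls (σ : SemilinearAut K F) : AddSubgroup (Pic0 K F) where
  carrier := {x | σ • x = x}
  zero_mem' := smul_zero (A := Pic0 K F) σ
  add_mem' := by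
    intro a b ha hb
    show σ • (a + b) = a + b
    rw [smul_add, ha, hb]
  neg_mem' := by
    intro a ha
    show σ • (-a) = -a
    rw [smul_neg, ha]

theorem mem_fixedCls {σ : SemilinearAut K F} {x : Pic0 K F} : x ∈ fixedCls σ ↔ σ • x = x := Iff.rfl

/-- a representing divisor -/
def repD (x : Pic0 K F) : Divisor.degZero (K := K) (F := F) := (Pic0.mk_surjective x).choose

theorem mk_repD (x : Pic0 K F) : Pic0.mk (repD x) = x := (Pic0.mk_surjective x).choose_spec

/-- the divisor of degree `n` representing `x + n P₀`. -/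
def repN (P₀ : Place K F) (x : Pic0 K F) (n : ℕ) : Divisor K F :=
  (repD x : Divisor K F) + Finsupp.single P₀ (n : ℤ)

theorem degree_repN (P₀ : Place K F) (x : Pic0 K F) (n : ℕ) :
    Divisor.degree (repN P₀ x n) = n := by
  rw [repN, map_add, degree_single_one, Divisor.mem_degZero.1 (repD x).2, zero_add]

theorem cls_eq_iff (P₀ : Place K F) (x : Pic0 K F) {n : ℕ} (D : Place K F →₀ ℕ)
    (hD : D.degree = n) :
    cls P₀ D = x ↔ ∃ h : F, h ≠ 0 ∧ toDiv D = repN P₀ x n + divOf h := by
  conv_lhs => rw [← mk_repD x]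
  rw [eq_comm, cls_eq, mk_eq_mk_iff]
  refine exists_congr fun h => and_congr_right fun _ => ?_
  rw [coe_clsDiv, hD, repN]
  constructor
  · intro h1
    rw [sub_eq_iff_eq_add] at h1
    rw [h1]; abel
  · intro h1
    rw [h1]; abel

theorem degree_eq_of_toDiv {P₀ : Place K F} {x : Pic0 K F} {n : ℕ} {D : Place K F →₀ ℕ} {h : F}
    (hD : toDiv D = repN P₀ x n + divOf h) : D.degree = n := by
  have := congrArg Divisor.degree hD
  rw [degree_toDiv, map_add, degree_repN, degree_divOf, add_zero] at this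
  exact_mod_cast this

section count

open Classical in
theorem card_filter_eq {σ : SemilinearAut K F} (P₀ : Place K F)
    (hfix : ∀ j, 1 ≤ j → {x | (pperm σ)^[j] x = x}.Finite)
    (x : Pic0 K F) (n : ℕ) :
    ((invFinset (pperm σ) hfix n).filter (fun D => cls P₀ D = x)).card =
      Nat.card (InvEff σ (repN P₀ x n)) := by
  symm
  apply Nat.subtype_card
  intro D
  rw [Finset.mem_filter, mem_invFinset]
  constructor
  · rintro ⟨⟨h1, h2⟩, h3⟩
    exact ⟨h1, (cls_eq_iff P₀ x D h2).1 h3⟩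
  · rintro ⟨h1, h, h0, h3⟩
    have h2 := degree_eq_of_toDiv h3
    exact ⟨⟨h1, h2⟩, (cls_eq_iff P₀ x D h2).2 ⟨h, h0, h3⟩⟩

variable {p r : ℕ} [Fact p.Prime] [CharP K p] {σ : SemilinearAut K F} (hσ : IsFrob p r σ)
  {P₀ : Place K F} (hP₀ : σ • P₀ = P₀)

/-- `l(x + n P₀)` -/
def ell (P₀ : Place K F) (x : Pic0 K F) (n : ℕ) : ℕ :=
  Module.finrank K (riemannRochSpace (repN P₀ x n))

theorem ell_of_big (P₀ : Place K F) (x : Pic0 K F) {n : ℕ} (hn : 2 * genusFF K F ≤ n + 1) :
    ell P₀ x n = n + 1 - genusFF K F := by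
  have h1 := finrank_riemannRochSpace_eq (D := repN P₀ x n) (by rw [degree_repN]; omega)
  rw [degree_repN] at h1
  unfold ell
  omega

theorem ell_ge (P₀ : Place K F) (x : Pic0 K F) (n : ℕ) :
    (n : ℤ) + 1 - genusFF K F ≤ ell P₀ x n := by
  have h1 := finrank_riemannRochSpace_ge (repN P₀ x n)
  rw [degree_repN] at h1
  exact h1

include hP₀ in
theorem exists_repN_smul {x : Pic0 K F} (hx : σ • x = x) (n : ℕ) :
    ∃ f : F, f ≠ 0 ∧ σ • (repN P₀ x n) = repN P₀ x n + divOf f := by
  have h1 : Pic0.mk (repD x) = Pic0.mk (SemilinearAut.degZeroSMulHom σ (repD x)) := by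
    rw [← SemilinearAut.pic0_smul_mk, mk_repD, hx]
  obtain ⟨f, hf, h2⟩ := (mk_eq_mk_iff _ _).1 h1
  refine ⟨f, hf, ?_⟩
  rw [SemilinearAut.coe_degZeroSMulHom] at h2
  rw [repN, smul_add, h2, SemilinearAut.smul_single, hP₀]
  abel

include hσ hP₀ in
open Classical in
theorem card_class (x : Pic0 K F) (hx : σ • x = x) (n : ℕ) :
    (p ^ r - 1) * ((invFinset (pperm σ) (fix_finite hσ) n).filter (fun D => cls P₀ D = x)).card
      + 1 = (p ^ r) ^ (ell P₀ x n) := by
  rw [card_filter_eq, card_invEff hσ (repN P₀ x n) (exists_repN_smul hP₀ hx n)]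
  rfl

include hσ hP₀ in
theorem exists_inv_of_fixed (x : Pic0 K F) (hx : σ • x = x) {n : ℕ} (hn : genusFF K F ≤ n) :
    ∃ D ∈ invFinset (pperm σ) (fix_finite hσ) n, cls P₀ D = x := by
  classical
  have hp : p.Prime := Fact.out
  have hq1 : 1 < p ^ r := Nat.one_lt_pow hσ.r_ne_zero hp.one_lt
  have h1 := card_class hσ hP₀ x hx n
  have h2 := ell_ge P₀ x n
  have h3 : 1 ≤ ell P₀ x n := by omega
  have h4 : p ^ r ≤ (p ^ r) ^ (ell P₀ x n) := Nat.le_self_pow (by omega) _
  have h5 : ((invFinset (pperm σ) (fix_finite hσ) n).filter (fun D => cls P₀ D = x)).card ≠ 0 := by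
    intro h0
    rw [h0, mul_zero] at h1
    omega
  rw [Finset.card_ne_zero] at h5
  obtain ⟨D, hD⟩ := h5
  rw [Finset.mem_filter] at hD
  exact ⟨D, hD.1, hD.2⟩

include hσ hP₀ in
theorem finite_fixedCls : Finite (fixedCls (K := K) (F := F) σ) := by
  classical
  let n := genusFF K F
  let f : fixedCls (K := K) (F := F) σ → invFinset (pperm σ) (fix_finite hσ) n := fun x =>
    ⟨(exists_inv_of_fixed hσ hP₀ x.1 x.2 (n := n) le_rfl).choose,
      (exists_inv_of_fixed hσ hP₀ x.1 x.2 (n := n) le_rfl).choose_spec.1⟩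
  refine Finite.of_injective f ?_
  intro x y hxy
  have hx := (exists_inv_of_fixed hσ hP₀ x.1 x.2 (n := n) le_rfl).choose_spec.2
  have hy := (exists_inv_of_fixed hσ hP₀ y.1 y.2 (n := n) le_rfl).choose_spec.2
  apply Subtype.ext
  rw [← hx, ← hy]
  have := congrArg Subtype.val hxy
  exact congrArg (cls P₀) this

open Classical in
/-- the weight attached to a character -/
def wt (σ : SemilinearAut K F) (P₀ : Place K F) (χ : AddChar (fixedCls (K := K) (F := F) σ) ℂ)
    (D : Place K F →₀ ℕ) : ℂ :=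
  if h : cls P₀ D ∈ fixedCls (K := K) (F := F) σ then χ ⟨cls P₀ D, h⟩ else 0

include hP₀ in
theorem cls_mem {D : Place K F →₀ ℕ} (hD : ∀ x, D (pperm σ x) = D x) :
    cls P₀ D ∈ fixedCls (K := K) (F := F) σ := smul_cls σ hP₀ hD

include hP₀ in
theorem wt_eq (χ : AddChar (fixedCls (K := K) (F := F) σ) ℂ)
    {D : Place K F →₀ ℕ} (hD : ∀ x, D (pperm σ x) = D x) :
    wt σ P₀ χ D = χ ⟨cls P₀ D, cls_mem hP₀ hD⟩ := by
  rw [wt, dif_pos (cls_mem hP₀ hD)]

include hP₀ in
theorem wt_add (χ : AddChar (fixedCls (K := K) (F := F) σ) ℂ)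
    (D E : Place K F →₀ ℕ) (hD : ∀ x, D (pperm σ x) = D x) (hE : ∀ x, E (pperm σ x) = E x) :
    wt σ P₀ χ (D + E) = wt σ P₀ χ D * wt σ P₀ χ E := by
  have hDE : ∀ x, (D + E) (pperm σ x) = (D + E) x := by
    intro x; rw [Finsupp.add_apply, Finsupp.add_apply, hD, hE]
  rw [wt_eq hP₀ χ hD, wt_eq hP₀ χ hE, wt_eq hP₀ χ hDE, ← AddChar.map_add_eq_mul]
  congr 1
  apply Subtype.ext
  exact map_add (cls P₀) D E

include hσ hP₀ in
theorem sum_wt [Fintype (fixedCls (K := K) (F := F) σ)]
    (χ : AddChar (fixedCls (K := K) (F := F) σ) ℂ) (n : ℕ) :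
    ((p : ℂ) ^ r - 1) * ∑ D ∈ invFinset (pperm σ) (fix_finite hσ) n, wt σ P₀ χ D =
      ∑ x : fixedCls (K := K) (F := F) σ, χ x * (((p : ℂ) ^ r) ^ (ell P₀ x.1 n) - 1) := by
  classical
  have hp : p.Prime := Fact.out
  have hq1 : 1 < p ^ r := Nat.one_lt_pow hσ.r_ne_zero hp.one_lt
  -- fiberwise
  have h1 : ∑ D ∈ invFinset (pperm σ) (fix_finite hσ) n, wt σ P₀ χ D =
      ∑ x : fixedCls (K := K) (F := F) σ,
        ∑ D ∈ (invFinset (pperm σ) (fix_finite hσ) n).filter (fun D => cls P₀ D = x.1),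
          wt σ P₀ χ D := by
    rw [← Finset.sum_fiberwise_of_maps_to (s := invFinset (pperm σ) (fix_finite hσ) n)
      (t := (Finset.univ : Finset (fixedCls (K := K) (F := F) σ)))
      (g := fun D => if h : cls P₀ D ∈ fixedCls (K := K) (F := F) σ then ⟨cls P₀ D, h⟩ else 0)
      (fun _ _ => Finset.mem_univ _)]
    refine Finset.sum_congr rfl fun x _ => ?_
    refine Finset.sum_congr ?_ fun _ _ => rfl
    ext D
    rw [Finset.mem_filter, Finset.mem_filter]
    refine and_congr_right fun hD => ?_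
    have hDinv := ((mem_invFinset _ _).1 hD).1
    have hmem := cls_mem hP₀ hDinv
    rw [dif_pos hmem]
    constructor
    · intro h; exact congrArg Subtype.val h
    · intro h; exact Subtype.ext h
  rw [h1, Finset.mul_sum]
  refine Finset.sum_congr rfl fun x _ => ?_
  have h2 : ∑ D ∈ (invFinset (pperm σ) (fix_finite hσ) n).filter (fun D => cls P₀ D = x.1),
      wt σ P₀ χ D = ((invFinset (pperm σ) (fix_finite hσ) n).filter
        (fun D => cls P₀ D = x.1)).card * χ x := by
    rw [← nsmul_eq_mul, ← Finset.sum_const]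
    refine Finset.sum_congr rfl fun D hD => ?_
    rw [Finset.mem_filter] at hD
    rw [wt_eq hP₀ χ ((mem_invFinset _ _).1 hD.1).1]
    congr 1
    exact Subtype.ext hD.2
  rw [h2]
  have h3 := card_class hσ hP₀ x.1 x.2 n
  have h4 : ((p : ℂ) ^ r - 1) * ((invFinset (pperm σ) (fix_finite hσ) n).filter
        (fun D => cls P₀ D = x.1)).card + 1 = ((p : ℂ) ^ r) ^ (ell P₀ x.1 n) := by
    have h5 := congrArg (Nat.cast : ℕ → ℂ) h3
    rw [Nat.cast_add, Nat.cast_mul, Nat.cast_sub hq1.le] at h5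
    push_cast at h5
    exact h5
  rw [← h4]
  ring

/-- number of invariant effective divisors of degree `n`. -/
def AA (n : ℕ) : ℕ := (invFinset (pperm σ) (fix_finite hσ) n).card

include hσ hP₀ in
theorem sum_card (n : ℕ) (S : Finset (Pic0 K F)) (hS : ∀ x, x ∈ S ↔ σ • x = x) :
    ((p : ℤ) ^ r - 1) * (AA hσ n : ℤ) = ∑ x ∈ S, (((p : ℤ) ^ r) ^ (ell P₀ x n) - 1) := by
  classical
  have hp : p.Prime := Fact.out
  have hq1 : 1 < p ^ r := Nat.one_lt_pow hσ.r_ne_zero hp.one_lt
  have h1 : AA hσ n = ∑ x ∈ S,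
      ((invFinset (pperm σ) (fix_finite hσ) n).filter (fun D => cls P₀ D = x)).card := by
    rw [AA, Finset.card_eq_sum_card_fiberwise (f := fun D => cls P₀ D) (t := S)]
    intro D hD
    rw [Finset.mem_coe] at hD ⊢
    rw [hS]
    exact smul_cls σ hP₀ ((mem_invFinset _ _).1 hD).1
  rw [h1, Nat.cast_sum, Finset.mul_sum]
  refine Finset.sum_congr rfl fun x hx => ?_
  have h3 := card_class hσ hP₀ x ((hS x).1 hx) n
  have h5 := congrArg (Nat.cast : ℕ → ℤ) h3
  rw [Nat.cast_add, Nat.cast_mul, Nat.cast_sub hq1.le] at h5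
  push_cast at h5
  linarith

end count

section canonical

variable {σ : SemilinearAut K F}

theorem finrank_smul (σ : SemilinearAut K F) (D : Divisor K F) :
    Module.finrank K (riemannRochSpace (σ • D)) = Module.finrank K (riemannRochSpace D) := by
  have hmem : ∀ (g : SemilinearAut K F) (E : Divisor K F) (f : F), f ∈ riemannRochSpace E →
      g • f ∈ riemannRochSpace (g • E) := by
    intro g E f hf
    rw [mem_riemannRochSpace_iff] at hf ⊢
    intro v
    rcases hf (g⁻¹ • v) with h | h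
    · left; rw [h, smul_zero]
    · right
      rw [SemilinearAut.divisor_smul_apply, ord_smul_inv]
      exact h
  let j : riemannRochSpace D ≃+ riemannRochSpace (σ • D) :=
    { toFun := fun f => ⟨σ • (f : F), hmem σ D f f.2⟩
      invFun := fun f => ⟨σ⁻¹ • (f : F), by
        have := hmem σ⁻¹ (σ • D) f f.2
        rwa [inv_smul_smul] at this⟩
      left_inv := fun f => Subtype.ext (inv_smul_smul σ (f : F))
      right_inv := fun f => Subtype.ext (smul_inv_smul σ (f : F))
      map_add' := fun a b => Subtype.ext (smul_add σ (a : F) (b : F)) }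
  have := rank_eq_of_equiv_equiv (SemilinearAut.baseAut σ) j (SemilinearAut.baseAut σ).bijective (by
    intro a f
    apply Subtype.ext
    show σ • (a • (f : F)) = SemilinearAut.baseAut σ a • (σ • (f : F))
    rw [Algebra.smul_def, smul_mul', SemilinearAut.smul_algebraMap, Algebra.smul_def])
  exact (Module.finrank_eq_of_rank_eq (this.trans (Module.finrank_eq_rank K _).symm)).symm

theorem exists_divOf_of_degree_zero {D : Divisor K F} (hD : Divisor.degree D = 0)
    (h : 1 ≤ Module.finrank K (riemannRochSpace D)) : ∃ f : F, f ≠ 0 ∧ D = divOf f := by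
  obtain ⟨f, hf⟩ : ∃ f : riemannRochSpace D, f ≠ 0 := by
    have : Nontrivial (riemannRochSpace D) := Module.nontrivial_of_finrank_pos (R := K) (by omega)
    exact exists_ne 0
  have hf0 : (f : F) ≠ 0 := fun h0 => hf (Subtype.ext h0)
  have hnn : 0 ≤ D + divOf (f : F) := by
    intro w
    have := (mem_riemannRochSpace_iff.1 f.2 w).resolve_left hf0
    simp
    omega
  obtain ⟨E, hE⟩ := exists_toDiv hnn
  have hdeg : E.degree = 0 := by
    have := congrArg Divisor.degree hE
    rw [degree_toDiv, map_add, hD, degree_divOf] at this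
    exact_mod_cast this
  have hE0 : E = 0 := by
    ext v
    have := le_degree E v
    rw [hdeg] at this
    simpa using this
  refine ⟨(f : F)⁻¹, inv_ne_zero hf0, ?_⟩
  rw [hE0, map_zero] at hE
  rw [divOf_inv]
  exact eq_neg_of_add_eq_zero_left hE.symm

theorem smul_canDiv (σ : SemilinearAut K F) :
    ∃ f : F, f ≠ 0 ∧ canDiv K F - σ • canDiv K F = divOf f := by
  have h1 := riemannRoch (σ • canDiv K F)
  have h2 : Divisor.degree (σ • canDiv K F) = Divisor.degree (canDiv K F) :=
    SemilinearAut.degree_smul σ _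
  rw [finrank_smul, finrank_riemannRochSpace_canDiv, h2, degree_canDiv] at h1
  apply exists_divOf_of_degree_zero
  · rw [map_sub, h2, sub_self]
  · omega

/-- the canonical class minus `(2g-2) P₀`. -/
def canCls (P₀ : Place K F) : Pic0 K F :=
  Pic0.mk ⟨canDiv K F - Finsupp.single P₀ (2 * (genusFF K F : ℤ) - 2), by
    rw [Divisor.mem_degZero, map_sub, degree_canDiv, degree_single_one, sub_self]⟩

theorem smul_canCls {P₀ : Place K F} (hP₀ : σ • P₀ = P₀) : σ • canCls P₀ = canCls P₀ := by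
  rw [canCls, SemilinearAut.pic0_smul_mk, mk_eq_mk_iff]
  obtain ⟨f, hf, h⟩ := smul_canDiv σ
  refine ⟨f, hf, ?_⟩
  rw [SemilinearAut.coe_degZeroSMulHom]
  simp only
  rw [smul_sub, SemilinearAut.smul_single, hP₀, ← h]
  abel

open Classical in
theorem ell_can (P₀ : Place K F) (x : Pic0 K F) (hg : 1 ≤ genusFF K F) :
    ell P₀ x (2 * genusFF K F - 2) =
      if x = canCls P₀ then genusFF K F else genusFF K F - 1 := by
  set n := 2 * genusFF K F - 2 with hn
  have h1 := riemannRoch (repN P₀ x n)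
  rw [degree_repN] at h1
  have hcan : (x = canCls P₀) ↔ ∃ f : F, f ≠ 0 ∧ canDiv K F - repN P₀ x n = divOf f := by
    conv_lhs => rw [← mk_repD x]
    rw [canCls, mk_eq_mk_iff]
    refine exists_congr fun f => and_congr_right fun _ => ?_
    simp only
    rw [repN]
    have h2 : ((n : ℕ) : ℤ) = 2 * (genusFF K F : ℤ) - 2 := by omega
    rw [h2]
    constructor
    · intro h
      rw [sub_eq_iff_eq_add] at h
      rw [h]; abel
    · intro h
      rw [sub_eq_iff_eq_add] at h
      rw [h]; abel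
  have hdeg : Divisor.degree (canDiv K F - repN P₀ x n) = 0 := by
    rw [map_sub, degree_canDiv, degree_repN]; omega
  unfold ell
  split_ifs with h
  · obtain ⟨f, hf, hfd⟩ := hcan.1 h
    have h3 : Module.finrank K (riemannRochSpace (canDiv K F - repN P₀ x n)) = 1 := by
      rw [hfd]
      have := finrank_riemannRochSpace_add_divOf (0 : Divisor K F) hf
      rw [zero_add] at this
      rw [this, finrank_riemannRochSpace_zero]
    rw [h3] at h1
    omega
  · have h3 : Module.finrank K (riemannRochSpace (canDiv K F - repN P₀ x n)) = 0 := by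
      by_contra hne
      exact h (hcan.2 (exists_divOf_of_degree_zero hdeg (by omega)))
    rw [h3] at h1
    omega

end canonical

section counthyp

variable {p r : ℕ} [Fact p.Prime] [CharP K p] {σ : SemilinearAut K F} (hσ : IsFrob p r σ)
  {P₀ : Place K F} (hP₀ : σ • P₀ = P₀)

include hP₀ in
theorem countHyp : CountHyp (p ^ r) (genusFF K F) (Nat.card (fixedCls (K := K) (F := F) σ))
    (AA hσ) := by
  classical
  have hfin := finite_fixedCls hσ hP₀
  have hfin' : {x : Pic0 K F | σ • x = x}.Finite := hfin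
  set S := hfin'.toFinset with hS
  have hmem : ∀ x, x ∈ S ↔ σ • x = x := by
    intro x; rw [hS, Set.Finite.mem_toFinset]; rfl
  have hcard : Nat.card (fixedCls (K := K) (F := F) σ) = S.card := by
    apply Nat.subtype_card
    intro x
    rw [hmem]; rfl
  refine ⟨?_, ?_, ?_⟩
  · rw [AA, Finset.card_eq_one]
    refine ⟨0, ?_⟩
    ext D
    rw [mem_invFinset, Finset.mem_singleton]
    constructor
    · rintro ⟨-, h⟩
      ext v
      have := le_degree D v
      rw [h] at this
      simpa using this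
    · rintro rfl
      exact ⟨fun x => rfl, by simp⟩
  · intro n hn
    push_cast
    rw [sum_card hσ hP₀ n S hmem, hcard]
    have : ∀ x ∈ S, (((p : ℤ) ^ r) ^ (ell P₀ x n) - 1) =
        ((p : ℤ) ^ r) ^ (n + 1 - genusFF K F) - 1 := by
      intro x _
      rw [ell_of_big P₀ x hn]
    rw [Finset.sum_congr rfl this, Finset.sum_const, nsmul_eq_mul]
  · intro hg
    push_cast
    rw [sum_card hσ hP₀ _ S hmem, hcard]
    have hW : canCls P₀ ∈ S := (hmem _).2 (smul_canCls hP₀)
    rw [← Finset.add_sum_erase S _ hW]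
    have : ∀ x ∈ S.erase (canCls P₀), (((p : ℤ) ^ r) ^ (ell P₀ x (2 * genusFF K F - 2)) - 1) =
        ((p : ℤ) ^ r) ^ (genusFF K F - 1) - 1 := by
      intro x hx
      rw [ell_can P₀ x hg, if_neg (Finset.ne_of_mem_erase hx)]
    rw [Finset.sum_congr rfl this, Finset.sum_const, nsmul_eq_mul, Finset.card_erase_of_mem hW,
      ell_can P₀ _ hg, if_pos rfl, Nat.cast_sub (Finset.card_pos.2 ⟨_, hW⟩)]
    push_cast
    ring

theorem count_rec (n : ℕ) :
    n * AA hσ n = ∑ j ∈ Icc 1 n, (fixFinset (pperm σ) (fix_finite hσ) j).card * AA hσ (n - j) := by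
  have h := count_identity (pperm σ) (fix_finite hσ) (fun _ => 1) (fun _ _ _ _ => by norm_num) n
  simp only [Finset.sum_const, nsmul_eq_mul, mul_one] at h
  exact_mod_cast h

theorem card_fixFinset_pow (hσ : IsFrob p r σ) {m : ℕ} (hm : 1 ≤ m) {n : ℕ} (hn : 1 ≤ n) :
    (fixFinset (pperm (σ ^ m)) (fix_finite (hσ.pow hm)) n).card =
      (fixFinset (pperm σ) (fix_finite hσ) (m * n)).card := by
  congr 1
  ext P
  rw [mem_fixFinset _ _ hn, mem_fixFinset _ _ (Nat.mul_pos hm hn), pperm_iterate, pperm_iterate,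
    pow_mul]

end counthyp

end Fermat.Agent.S27Lib
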