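import Fermat.Agent.S27Lib.CharP
import Fermat.Agent.RR.Instance

/-!
Existence of Frobenius structures, and the final torsion count in characteristic `p`.
-/

set_option autoImplicit false
set_option linter.unusedSectionVars false
set_option linter.style.haveILetI false

noncomputable section

open AlgebraicCurve Fermat.Agent.RR Finset MvPolynomial

namespace Fermat.Agent.S27Lib

/-- A surjection-free extension principle: a ring hom out of the range of `π`. -/
theorem exists_ringHom_range {A F : Type*} [CommRing A] [Field F] (π : A →+* F) (ψ : A →+* F)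
    (h : ∀ a, π a = 0 ↔ ψ a = 0) :
    ∃ φ : π.range →+* F, Function.Injective φ ∧ ∀ a, φ (π.rangeRestrict a) = ψ a := by
  have hker : RingHom.ker π.rangeRestrict ≤ RingHom.ker ψ := by
    intro P hP
    rw [RingHom.mem_ker] at hP ⊢
    exact (h P).1 (congrArg Subtype.val hP)
  have key : ∀ P, (π.rangeRestrict.liftOfSurjective π.rangeRestrict_surjective
    ⟨ψ, hker⟩) (π.rangeRestrict P) = ψ P := by
    intro P
    exact RingHom.liftOfRightInverse_comp_apply _ _ _ ⟨ψ, hker⟩ P
  refine ⟨π.rangeRestrict.liftOfSurjective π.rangeRestrict_surjective ⟨ψ, hker⟩, ?_, key⟩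
  rw [injective_iff_map_eq_zero]
  intro b hb
  obtain ⟨P, rfl⟩ := π.rangeRestrict_surjective b
  rw [key] at hb
  exact Subtype.ext ((h P).2 hb)

theorem exists_endo {A F : Type*} [CommRing A] [Field F] (π : A →+* F) (ψ : A →+* F)
    (h : ∀ a, π a = 0 ↔ ψ a = 0) (hfrac : ∀ f : F, ∃ P Q, f = π P / π Q) :
    ∃ φ : F →+* F, ∀ a, φ (π a) = ψ a := by
  obtain ⟨φB, hinj, hφB⟩ := exists_ringHom_range π ψ h
  have hfr : IsFractionRing π.range F := by
    apply IsFractionRing.of_field
    intro f
    obtain ⟨P, Q, h⟩ := hfrac f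
    exact ⟨⟨π P, P, rfl⟩, ⟨π Q, Q, rfl⟩, h⟩
  refine ⟨IsFractionRing.lift hinj, fun P => ?_⟩
  rw [← hφB]
  exact IsFractionRing.lift_algebraMap hinj (π.rangeRestrict P)

theorem exists_fieldEquiv {K F ι : Type*} [Field K] [Field F] [Algebra K F] (x : ι → F)
    (hx : IntermediateField.adjoin K (Set.range x) = ⊤)
    (Φ : MvPolynomial ι K ≃+* MvPolynomial ι K)
    (hΦ : ∀ P, aeval x P = 0 ↔ aeval x (Φ P) = 0) :
    ∃ σ : F ≃+* F, ∀ P, σ (aeval x P) = aeval x (Φ P) := by
  have hfrac : ∀ f : F, ∃ P Q : MvPolynomial ι K, f = aeval x P / aeval x Q := by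
    intro f
    have : f ∈ IntermediateField.adjoin K (Set.range x) := by rw [hx]; trivial
    rwa [IntermediateField.mem_adjoin_range_iff] at this
  obtain ⟨φ, hφ⟩ := exists_endo ((aeval x : MvPolynomial ι K →ₐ[K] F) : MvPolynomial ι K →+* F)
    (((aeval x : MvPolynomial ι K →ₐ[K] F) : MvPolynomial ι K →+* F).comp
      (Φ : MvPolynomial ι K →+* MvPolynomial ι K)) hΦ hfrac
  have hφ' : ∀ P : MvPolynomial ι K, φ (aeval x P) = aeval x (Φ P) := hφ
  have hsurj : Function.Surjective φ := by
    intro f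
    obtain ⟨P, Q, h⟩ := hfrac f
    refine ⟨aeval x (Φ.symm P) / aeval x (Φ.symm Q), ?_⟩
    rw [map_div₀, hφ', hφ', RingEquiv.apply_symm_apply, RingEquiv.apply_symm_apply, h]
  exact ⟨RingEquiv.ofBijective φ ⟨φ.injective, hsurj⟩, hφ'⟩

section

variable (p : ℕ) [hp : Fact p.Prime] {K : Type*} [Field K] [Algebra (ZMod p) K]
  [Algebra.IsAlgebraic (ZMod p) K]

theorem exists_pow_eq (a : K) : ∃ r : ℕ, 1 ≤ r ∧ a ^ (p ^ r) = a := by
  have hint : IsIntegral (ZMod p) a := (Algebra.IsAlgebraic.isAlgebraic a).isIntegral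
  haveI : FiniteDimensional (ZMod p) (IntermediateField.adjoin (ZMod p) {a}) :=
    IntermediateField.adjoin.finiteDimensional hint
  haveI : Finite (IntermediateField.adjoin (ZMod p) {a}) := Module.finite_of_finite (ZMod p)
  haveI : Fintype (IntermediateField.adjoin (ZMod p) {a}) := Fintype.ofFinite _
  have h1 := FiniteField.pow_card (IntermediateField.AdjoinSimple.gen (ZMod p) a)
  rw [Module.card_eq_pow_finrank (K := ZMod p), ZMod.card] at h1
  refine ⟨Module.finrank (ZMod p) (IntermediateField.adjoin (ZMod p) {a}),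
    Module.finrank_pos, ?_⟩
  have := congrArg (algebraMap (IntermediateField.adjoin (ZMod p) {a}) K) h1
  simpa using this

theorem pow_pow_fix {a : K} {r m : ℕ} (h : a ^ (p ^ r) = a) : a ^ (p ^ (r * m)) = a := by
  induction m with
  | zero => simp
  | succ m ih => rw [Nat.mul_succ, pow_add, pow_mul, ih, h]

theorem exists_pow_eq_finset (S : Finset K) : ∃ r : ℕ, 1 ≤ r ∧ ∀ a ∈ S, a ^ (p ^ r) = a := by
  classical
  induction S using Finset.induction_on with
  | empty => exact ⟨1, le_rfl, fun a ha => absurd ha (Finset.notMem_empty a)⟩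
  | insert b S hb ih =>
    obtain ⟨r, hr, h⟩ := ih
    obtain ⟨t, ht, hbt⟩ := exists_pow_eq p b
    refine ⟨r * t, Nat.mul_pos hr ht, fun a ha => ?_⟩
    rcases Finset.mem_insert.1 ha with rfl | ha
    · rw [mul_comm]; exact pow_pow_fix p hbt
    · exact pow_pow_fix p (h a ha)

end

theorem fg_of_functionField (K F : Type*) [Field K] [Field F] [Algebra K F] [FunctionField K F] :
    ∃ s : Finset F, IntermediateField.adjoin K (s : Set F) = ⊤ := by
  obtain ⟨x, -, hfin⟩ := FunctionField.exists_finite (K := K) (F := F)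
  have h1 : Algebra.EssFiniteType K (IntermediateField.adjoin K {x}) := by
    rw [IntermediateField.essFiniteType_iff]
    exact IntermediateField.fg_adjoin_of_finite (Set.finite_singleton x)
  have h2 : Algebra.EssFiniteType (IntermediateField.adjoin K {x}) F := inferInstance
  have h3 : Algebra.EssFiniteType K F :=
    Algebra.EssFiniteType.comp K (IntermediateField.adjoin K {x}) F
  have h4 : Algebra.EssFiniteType K (⊤ : IntermediateField K F) := by
    exact (Algebra.EssFiniteType.iff_of_algEquiv (IntermediateField.topEquiv (F := K) (E := F))).2 h3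
  rw [IntermediateField.essFiniteType_iff] at h4
  obtain ⟨s, hs⟩ := h4
  exact ⟨s, hs⟩

section

variable (p : ℕ) [hp : Fact p.Prime] {K F : Type*} [Field K] [Field F] [Algebra K F]
  [IsAlgClosed K] [Algebra (ZMod p) K] [Algebra.IsAlgebraic (ZMod p) K] [CharP K p]

theorem exists_frob {ι : Type*} [Finite ι] (x : ι → F)
    (hx : IntermediateField.adjoin K (Set.range x) = ⊤) :
    ∃ (σ : SemilinearAut K F) (r : ℕ), IsFrob p r σ := by
  classical
  haveI : ExpChar K p := ExpChar.prime hp.out
  haveI : PerfectRing K p := inferInstance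
  set I : Ideal (MvPolynomial ι K) := RingHom.ker (aeval x : MvPolynomial ι K →ₐ[K] F) with hI
  have hfg : I.FG := (isNoetherianRing_iff_ideal_fg _).1 inferInstance I
  obtain ⟨G, hG⟩ := hfg
  -- common Frobenius power fixing all coefficients
  obtain ⟨r, hr, hfix⟩ := exists_pow_eq_finset p (K := K)
    (G.biUnion (fun P => P.support.image (fun m => coeff m P)))
  set Fr : K ≃+* K := iterateFrobeniusEquiv K p r with hFr
  have hFr' : ∀ a, Fr a = a ^ (p ^ r) := fun a => iterateFrobeniusEquiv_def K p r a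
  set Φ : MvPolynomial ι K ≃+* MvPolynomial ι K := mapEquiv ι Fr with hΦ
  have hΦ' : ∀ P, Φ P = map (Fr : K →+* K) P := fun P => rfl
  have hΦG : ∀ P ∈ G, Φ P = P := by
    intro P hP
    rw [hΦ']
    ext m
    rw [coeff_map]
    by_cases hm : m ∈ P.support
    · have : coeff m P ∈ G.biUnion (fun P => P.support.image (fun m => coeff m P)) :=
        Finset.mem_biUnion.2 ⟨P, hP, Finset.mem_image.2 ⟨m, hm, rfl⟩⟩
      show Fr (coeff m P) = coeff m P
      rw [hFr', hfix _ this]
    · rw [notMem_support_iff.1 hm, map_zero]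
  have hmap : Ideal.map (Φ : MvPolynomial ι K →+* MvPolynomial ι K) I = I := by
    rw [← hG]
    rw [Ideal.map_span]
    congr 1
    ext P
    constructor
    · rintro ⟨Q, hQ, rfl⟩
      have := hΦG Q hQ
      show Φ Q ∈ _
      rw [this]; exact hQ
    · intro hP
      exact ⟨P, hP, hΦG P hP⟩
  have hiff : ∀ P, P ∈ I ↔ Φ P ∈ I := by
    intro P
    constructor
    · intro h
      rw [← hmap]
      exact Ideal.mem_map_of_mem _ h
    · intro h
      rw [← hmap] at h
      obtain ⟨Q, hQ, hQP⟩ := (Ideal.mem_map_iff_of_surjective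
        (Φ : MvPolynomial ι K →+* MvPolynomial ι K) Φ.surjective).1 h
      have : Q = P := Φ.injective hQP
      rwa [← this]
  obtain ⟨σ, hσ⟩ := exists_fieldEquiv x hx Φ (fun P => hiff P)
  have hσK : ∀ a : K, σ (algebraMap K F a) = algebraMap K F (a ^ (p ^ r)) := by
    intro a
    have := hσ (C a)
    rw [hΦ', map_C, aeval_C, aeval_C] at this
    rw [this]
    show algebraMap K F (Fr a) = _
    rw [hFr']
  refine ⟨⟨(σ, Fr), fun a => by
    show σ (algebraMap K F a) = algebraMap K F (Fr a)
    rw [hσK, hFr']⟩, r, ?_⟩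
  refine ⟨by omega, fun a => hFr' a, ?_⟩
  intro f
  -- every element is fixed by a power
  set τ : SemilinearAut K F := ⟨(σ, Fr), fun a => by
    show σ (algebraMap K F a) = algebraMap K F (Fr a)
    rw [hσK, hFr']⟩ with hτ
  have hτσ : ∀ y : F, τ • y = σ y := fun y => rfl
  have hpoly : ∀ (m : ℕ) (P : MvPolynomial ι K),
      (τ ^ m) • (aeval x P) = aeval x (map ((Fr ^ m : K ≃+* K) : K →+* K) P) := by
    intro m
    induction m with
    | zero =>
      intro P
      rw [pow_zero, one_smul, pow_zero]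
      congr 1
      ext n
      rw [coeff_map]
      rfl
    | succ m ih =>
      intro P
      rw [pow_succ, mul_smul, hτσ, hσ, ih, hΦ', MvPolynomial.map_map]
      rfl
  have hFrm : ∀ (m : ℕ) (a : K), (Fr ^ m : K ≃+* K) a = a ^ (p ^ (r * m)) := by
    intro m a
    induction m generalizing a with
    | zero => simp
    | succ m ih =>
      rw [pow_succ, RingAut.mul_apply, ih, hFr', ← pow_mul, ← pow_add]
      congr 2
      ring
  have hfixpoly : ∀ P : MvPolynomial ι K, ∃ m : ℕ, 1 ≤ m ∧ (τ ^ m) • (aeval x P) = aeval x P := by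
    intro P
    obtain ⟨m, hm, hcoef⟩ := exists_pow_eq_finset p (K := K) (P.support.image (fun n => coeff n P))
    refine ⟨m, hm, ?_⟩
    rw [hpoly]
    congr 1
    ext n
    rw [coeff_map]
    show (Fr ^ m : K ≃+* K) (coeff n P) = coeff n P
    rw [hFrm, mul_comm]
    by_cases hn : n ∈ P.support
    · exact pow_pow_fix p (hcoef _ (Finset.mem_image.2 ⟨n, hn, rfl⟩))
    · rw [notMem_support_iff.1 hn, zero_pow]
      exact (pow_pos hp.out.pos _).ne'
  have hf : f ∈ IntermediateField.adjoin K (Set.range x) := by rw [hx]; trivial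
  rw [IntermediateField.mem_adjoin_range_iff] at hf
  obtain ⟨P, Q, rfl⟩ := hf
  obtain ⟨m, hm, hmP⟩ := hfixpoly P
  obtain ⟨n, hn, hnQ⟩ := hfixpoly Q
  refine ⟨m * n, Nat.mul_pos hm hn, ?_⟩
  have h1 := smul_pow_fix (dvd_mul_right m n) hmP
  have h2 := smul_pow_fix (dvd_mul_left n m) hnQ
  show SemilinearAut.toRingAut (τ ^ (m * n)) (aeval x P / aeval x Q) = _
  rw [map_div₀]
  exact congrArg₂ (· / ·) h1 h2

end

/-- **Torsion of `Pic⁰` over the algebraic closure of a finite field.** -/
theorem natCard_torsion_charP (p : ℕ) [Fact p.Prime] (K F : Type*) [Field K] [Field F]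
    [Algebra K F] [IsAlgClosed K] [Algebra (ZMod p) K] [Algebra.IsAlgebraic (ZMod p) K]
    [FunctionField K F] (ℓ : ℕ) [Fact ℓ.Prime] (hℓ : ℓ ≠ p) (k : ℕ) :
    Nat.card (Pic0.torsion K F (ℓ ^ k)) = ℓ ^ (2 * genusFF K F * k) := by
  haveI : CharP K p := charP_of_injective_algebraMap (algebraMap (ZMod p) K).injective p
  obtain ⟨s, hs⟩ := fg_of_functionField K F
  have hrange : Set.range (fun y : s => (y : F)) = (s : Set F) := by
    ext y; simp
  obtain ⟨σ, r, hσ⟩ := exists_frob (K := K) (F := F) p (fun y : s => (y : F)) (by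
    rw [hrange]; exact hs)
  obtain ⟨P₀⟩ := FunctionField.nonempty_place (K := K) (F := F)
  obtain ⟨m, hm, hmP⟩ := place_periodic hσ P₀
  rw [← torsion_aux (hσ.pow hm) hmP ℓ hℓ k]
  refine Nat.card_congr (Equiv.subtypeEquivRight fun x => ?_)
  rw [Pic0.mem_torsion, natCast_zsmul]

end Fermat.Agent.S27Lib
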