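import Fermat.Agent.S27Lib.FrobExist

/-!
Torsion and divisibility properties of `Pic⁰` over the algebraic closure of a finite field.
-/

set_option autoImplicit false
set_option linter.unusedSectionVars false
set_option linter.style.haveILetI false

noncomputable section

open AlgebraicCurve Fermat.Agent.RR Finset

namespace Fermat.Agent.S27Lib

section Abstract

variable {P : Type*} [AddCommGroup P] (ℓ : ℕ) [hℓ : Fact ℓ.Prime]

/-- `ℓ ^ k`-torsion as a subgroup. -/
def torsN (P : Type*) [AddCommGroup P] (N : ℕ) : AddSubgroup P where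
  carrier := {x | N • x = 0}
  zero_mem' := smul_zero _
  add_mem' := fun {a b} ha hb => by
    show N • (a + b) = 0
    rw [smul_add, show N • a = 0 from ha, show N • b = 0 from hb, add_zero]
  neg_mem' := fun {a} ha => by
    show N • (-a) = 0
    rw [smul_neg, show N • a = 0 from ha, neg_zero]

theorem mem_torsN {N : ℕ} {x : P} : x ∈ torsN P N ↔ N • x = 0 := Iff.rfl

theorem divisible_primary (n : ℕ)
    (hcard : ∀ k, Nat.card {x : P // ℓ ^ k • x = 0} = ℓ ^ (n * k)) (k : ℕ) (x : P)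
    (hx : ℓ ^ k • x = 0) : ∃ y : P, ℓ ^ (k + 1) • y = 0 ∧ ℓ • y = x := by
  have hcard' : ∀ k, Nat.card (torsN P (ℓ ^ k)) = ℓ ^ (n * k) := hcard
  have hpos : ∀ k, 0 < Nat.card (torsN P (ℓ ^ k)) := fun k => by
    rw [hcard']; exact pow_pos hℓ.out.pos _
  haveI hfin : ∀ k, Finite (torsN P (ℓ ^ k)) := fun k => Nat.finite_of_card_ne_zero (hpos k).ne'
  let f : torsN P (ℓ ^ (k + 1)) →+ torsN P (ℓ ^ k) :=
    { toFun := fun y => ⟨ℓ • y.1, by
        rw [mem_torsN, smul_smul, ← pow_succ]; exact y.2⟩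
      map_zero' := by ext; exact smul_zero _
      map_add' := fun a b => by ext; exact smul_add _ _ _ }
  have hker : Nat.card f.ker = ℓ ^ n := by
    have h1 := hcard' 1
    rw [mul_one] at h1
    rw [← h1]
    refine Nat.card_congr ⟨fun y => ⟨y.1.1, ?_⟩, fun y => ⟨⟨y.1, ?_⟩, ?_⟩, fun y => ?_, fun y => ?_⟩
    · have := y.2
      rw [AddMonoidHom.mem_ker] at this
      have h2 : ℓ • y.1.1 = 0 := congrArg Subtype.val this
      rw [mem_torsN, pow_one]; exact h2
    · have h2 : ℓ ^ 1 • y.1 = 0 := y.2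
      have h3 : ℓ • y.1 = 0 := by simpa using h2
      rw [mem_torsN, pow_succ, mul_smul, h3, smul_zero]
    · have h2 : ℓ ^ 1 • y.1 = 0 := y.2
      have h3 : ℓ • y.1 = 0 := by simpa using h2
      rw [AddMonoidHom.mem_ker]
      exact Subtype.ext h3
    · rfl
    · rfl
  have h2 : Nat.card (torsN P (ℓ ^ (k + 1))) = Nat.card f.range * Nat.card f.ker := by
    rw [AddSubgroup.card_eq_card_quotient_mul_card_addSubgroup f.ker]
    congr 1
    exact Nat.card_congr (QuotientAddGroup.quotientKerEquivRange f).toEquiv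
  have h3 : Nat.card f.range = Nat.card (torsN P (ℓ ^ k)) := by
    rw [hker, hcard'] at h2
    rw [hcard']
    have h4 : ℓ ^ (n * k) * ℓ ^ n = Nat.card f.range * ℓ ^ n := by
      rw [← h2, ← pow_add]; congr 1
    exact (Nat.eq_of_mul_eq_mul_right (pow_pos hℓ.out.pos _) h4).symm
  have h4 : f.range = ⊤ := AddSubgroup.eq_top_of_card_eq _ h3
  have h5 : (⟨x, hx⟩ : torsN P (ℓ ^ k)) ∈ f.range := by rw [h4]; trivial
  obtain ⟨y, hy⟩ := h5
  exact ⟨y.1, y.2, congrArg Subtype.val hy⟩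

theorem divisible_of_card (n : ℕ)
    (hcard : ∀ k, Nat.card {x : P // ℓ ^ k • x = 0} = ℓ ^ (n * k))
    (htors : ∀ x : P, ∃ N : ℕ, 0 < N ∧ N • x = 0) (x : P) : ∃ y : P, ℓ • y = x := by
  obtain ⟨N, hN, hNx⟩ := htors x
  obtain ⟨k, m, hm, rfl⟩ := Nat.exists_eq_pow_mul_and_not_dvd hN.ne' ℓ hℓ.out.ne_one
  have hcop : IsCoprime ((ℓ ^ k : ℕ) : ℤ) ((m : ℕ) : ℤ) := by
    rw [Nat.isCoprime_iff_coprime]
    exact Nat.Coprime.pow_left _ ((Nat.Prime.coprime_iff_not_dvd hℓ.out).2 hm)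
  have hcop1 : IsCoprime ((ℓ : ℕ) : ℤ) ((m : ℕ) : ℤ) := by
    rw [Nat.isCoprime_iff_coprime]
    exact (Nat.Prime.coprime_iff_not_dvd hℓ.out).2 hm
  obtain ⟨a, b, hab⟩ := hcop
  obtain ⟨c, d, hcd⟩ := hcop1
  have hNx' : ((ℓ ^ k : ℕ) : ℤ) • ((m : ℤ) • x) = 0 := by
    rw [smul_smul, ← Nat.cast_mul, natCast_zsmul]; exact hNx
  have h1 : ℓ ^ k • ((b * m) • x) = 0 := by
    rw [← natCast_zsmul, mul_smul, smul_comm, hNx', smul_zero]
  obtain ⟨y, -, hy⟩ := divisible_primary ℓ n hcard k _ h1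
  have h2 : (m : ℤ) • ((a * ((ℓ ^ k : ℕ) : ℤ)) • x) = 0 := by
    rw [mul_smul, smul_comm, smul_comm (m : ℤ), hNx', smul_zero]
  refine ⟨y + c • ((a * ((ℓ ^ k : ℕ) : ℤ)) • x), ?_⟩
  rw [smul_add, hy]
  set v := (a * ((ℓ ^ k : ℕ) : ℤ)) • x with hv
  have h3 : ℓ • c • v = v := by
    have : (c * (ℓ : ℤ) + d * (m : ℤ)) • v = (1 : ℤ) • v := by rw [hcd]
    rw [add_smul, mul_smul d, h2, smul_zero, add_zero, one_smul, mul_comm, mul_smul,
      natCast_zsmul] at this
    exact this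
  rw [h3, hv, ← add_smul, add_comm, hab, one_smul]

end Abstract

section

variable (p : ℕ) [Fact p.Prime] (K F : Type*) [Field K] [Field F]
    [Algebra K F] [IsAlgClosed K] [Algebra (ZMod p) K] [Algebra.IsAlgebraic (ZMod p) K]
    [FunctionField K F]

include p in
/-- Over the algebraic closure of a finite field every degree-zero class is torsion. -/
theorem pic0_torsion_charP (x : Pic0 K F) : ∃ N : ℕ, 0 < N ∧ N • x = 0 := by
  haveI : CharP K p := charP_of_injective_algebraMap (algebraMap (ZMod p) K).injective p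
  obtain ⟨s, hs⟩ := fg_of_functionField K F
  have hrange : Set.range (fun y : s => (y : F)) = (s : Set F) := by
    ext y; simp
  obtain ⟨σ, r, hσ⟩ := exists_frob (K := K) (F := F) p (fun y : s => (y : F)) (by
    rw [hrange]; exact hs)
  obtain ⟨P₀⟩ := FunctionField.nonempty_place (K := K) (F := F)
  obtain ⟨m, hm, hmP⟩ := place_periodic hσ P₀
  obtain ⟨n, hn, hnx⟩ := pic0_periodic (hσ.pow hm) x
  have hP : ((σ ^ m) ^ n) • P₀ = P₀ := smul_pow_fix (one_dvd n) (by rwa [pow_one])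
  haveI := finite_fixedCls ((hσ.pow hm).pow hn) hP
  refine ⟨Nat.card (fixedCls (K := K) (F := F) ((σ ^ m) ^ n)), Nat.card_pos, ?_⟩
  have := card_nsmul_eq_zero' (x := (⟨x, hnx⟩ : fixedCls (K := K) (F := F) ((σ ^ m) ^ n)))
  exact congrArg Subtype.val this

include p in
/-- Over the algebraic closure of a finite field `Pic⁰` is `ℓ`-divisible, `ℓ ≠ p` prime. -/
theorem pic0_divisible_charP (ℓ : ℕ) [Fact ℓ.Prime] (hℓ : ℓ ≠ p) (x : Pic0 K F) :
    ∃ y : Pic0 K F, ℓ • y = x := by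
  refine divisible_of_card ℓ (2 * genusFF K F) (fun k => ?_) (pic0_torsion_charP p K F) x
  rw [← natCard_torsion_charP p K F ℓ hℓ k]
  refine Nat.card_congr (Equiv.subtypeEquivRight fun x => ?_)
  rw [Pic0.mem_torsion, natCast_zsmul]

include p in
/-- the same for every integer prime to `p` -/
theorem pic0_divisible_charP' (n : ℕ) (hn : ¬ p ∣ n) (x : Pic0 K F) :
    ∃ y : Pic0 K F, n • y = x := by
  induction n using Nat.recOnMul generalizing x with
  | zero => exact absurd (dvd_zero p) hn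
  | one => exact ⟨x, one_smul _ _⟩
  | prime q hq =>
    haveI : Fact q.Prime := ⟨hq⟩
    exact pic0_divisible_charP p K F q (fun h => hn (h ▸ dvd_rfl)) x
  | mul a b iha ihb =>
    obtain ⟨y, hy⟩ := iha (fun h => hn (h.mul_right b)) x
    obtain ⟨z, hz⟩ := ihb (fun h => hn (h.mul_left a)) y
    exact ⟨z, by rw [mul_smul, hz, hy]⟩

end

end Fermat.Agent.S27Lib
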