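import Fermat.Agent.S27Lib.FrobCount

/-!
Norm surjectivity and the torsion count for a function field with a Frobenius structure.
-/

set_option autoImplicit false
set_option linter.unusedSectionVars false
set_option linter.style.haveILetI false

noncomputable section

open AlgebraicCurve Fermat.Agent.RR Finset

namespace Fermat.Agent.S27Lib

variable {K F : Type*} [Field K] [Field F] [Algebra K F] [IsAlgClosed K] [FunctionField K F]

theorem cls_orbSum (σ : SemilinearAut K F) {P₀ : Place K F} (hP₀ : σ • P₀ = P₀) (n : ℕ)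
    (P : Place K F) :
    cls P₀ (orbSum (pperm σ) n P) = ∑ i ∈ range n, (σ ^ i) • cls P₀ (Finsupp.single P 1) := by
  rw [orbSum, map_sum]
  refine Finset.sum_congr rfl fun i _ => ?_
  rw [pperm_iterate, smul_cls_single (σ ^ i) (smul_pow_fix (one_dvd i) (by rwa [pow_one]))]

theorem sum_range_mul_aux {M : Type*} [AddCommMonoid M] (g : ℕ → M) (a b : ℕ) :
    ∑ i ∈ range (a * b), g i = ∑ k ∈ range b, ∑ i ∈ range a, g (a * k + i) := by
  induction b with
  | zero => simp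
  | succ b ih => rw [Nat.mul_succ, Finset.sum_range_add, ih, Finset.sum_range_succ]

/-- the norm on classes -/
def normCls (σ : SemilinearAut K F) (n : ℕ) :
    fixedCls (K := K) (F := F) (σ ^ n) →+ fixedCls (K := K) (F := F) σ where
  toFun y := ⟨∑ i ∈ range n, (σ ^ i) • (y : Pic0 K F), by
    rw [mem_fixedCls, Finset.smul_sum]
    have h1 : ∀ i, σ • (σ ^ i • (y : Pic0 K F)) = σ ^ (i + 1) • (y : Pic0 K F) := by
      intro i; rw [pow_succ', mul_smul]
    simp only [h1]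
    have h2 := Finset.sum_range_succ (fun i => σ ^ i • (y : Pic0 K F)) n
    have h3 := Finset.sum_range_succ' (fun i => σ ^ i • (y : Pic0 K F)) n
    have h4 : σ ^ n • (y : Pic0 K F) = y := y.2
    rw [h4] at h2
    rw [pow_zero, one_smul] at h3
    rw [h2] at h3
    exact (add_right_cancel h3).symm⟩
  map_zero' := by
    apply Subtype.ext
    simp only [ZeroMemClass.coe_zero]
    exact Finset.sum_eq_zero fun i _ => smul_zero (A := Pic0 K F) (σ ^ i)
  map_add' a b := by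
    apply Subtype.ext
    simp only [AddSubgroup.coe_add, smul_add, Finset.sum_add_distrib]

theorem coe_normCls (σ : SemilinearAut K F) (n : ℕ) (y : fixedCls (K := K) (F := F) (σ ^ n)) :
    ((normCls σ n y : fixedCls (K := K) (F := F) σ) : Pic0 K F) =
      ∑ i ∈ range n, (σ ^ i) • (y : Pic0 K F) := rfl

variable {p r : ℕ} [Fact p.Prime] [CharP K p] {σ : SemilinearAut K F} (hσ : IsFrob p r σ)
  {P₀ : Place K F} (hP₀ : σ • P₀ = P₀)

include hσ hP₀

theorem normCls_surjective {ℓ : ℕ} (hℓ : 1 ≤ ℓ) : Function.Surjective (normCls (K := K) (F := F) σ ℓ) := by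
  classical
  intro x
  by_contra hcon
  have hp : p.Prime := Fact.out
  have hq1 : 1 < p ^ r := Nat.one_lt_pow hσ.r_ne_zero hp.one_lt
  haveI := finite_fixedCls hσ hP₀
  haveI : Fintype (fixedCls (K := K) (F := F) σ) := Fintype.ofFinite _
  set H : AddSubgroup (fixedCls (K := K) (F := F) σ) := (normCls (K := K) (F := F) σ ℓ).range
    with hH
  have hx : x ∉ H := by
    intro h
    exact hcon h
  have hx' : (QuotientAddGroup.mk x : fixedCls (K := K) (F := F) σ ⧸ H) ≠ 0 := by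
    rw [ne_eq, QuotientAddGroup.eq_zero_iff]
    exact hx
  obtain ⟨ψ, hψ⟩ := AddChar.exists_apply_ne_zero.2 hx'
  set χ : AddChar (fixedCls (K := K) (F := F) σ) ℂ :=
    ψ.compAddMonoidHom (QuotientAddGroup.mk' H) with hχ
  have hχH : ∀ y ∈ H, χ y = 1 := by
    intro y hy
    rw [hχ, AddChar.compAddMonoidHom_apply]
    have : (QuotientAddGroup.mk' H) y = 0 := (QuotientAddGroup.eq_zero_iff y).2 hy
    rw [this, AddChar.map_zero_eq_one]
  have hχ1 : χ ≠ 1 := by
    intro h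
    apply hψ
    have := congrArg (fun c : AddChar (fixedCls (K := K) (F := F) σ) ℂ => c x) h
    simpa [hχ] using this
  have hσℓ : (σ ^ ℓ) • P₀ = P₀ := smul_pow_fix (one_dvd ℓ) (by rwa [pow_one])
  -- the sequences
  set B : ℕ → ℂ := fun n => ∑ D ∈ invFinset (pperm σ) (fix_finite hσ) n, wt σ P₀ χ D with hB
  set T : ℕ → ℂ := fun j => ∑ P ∈ fixFinset (pperm σ) (fix_finite hσ) j,
    wt σ P₀ χ (orbSum (pperm σ) j P) with hT
  set A' : ℕ → ℂ := fun n => (AA (hσ.pow hℓ) n : ℂ) with hA'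
  have hB0 : B 0 = 1 := by
    have h0 : invFinset (pperm σ) (fix_finite hσ) 0 = {0} := by
      ext D
      rw [mem_invFinset, Finset.mem_singleton]
      constructor
      · rintro ⟨-, h⟩
        ext v
        have := le_degree D v
        rw [h] at this
        simpa using this
      · rintro rfl
        exact ⟨fun x => rfl, by simp⟩
    rw [hB]
    simp only
    rw [h0, Finset.sum_singleton, wt_eq hP₀ χ (D := 0) (fun x => rfl)]
    have h1 : (⟨cls P₀ 0, cls_mem hP₀ (D := 0) (fun x => rfl)⟩ :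
        fixedCls (K := K) (F := F) σ) = 0 := Subtype.ext (map_zero (cls P₀))
    rw [h1, AddChar.map_zero_eq_one]
  have hBrec : ∀ n : ℕ, 1 ≤ n → (n : ℂ) * B n = ∑ j ∈ Icc 1 n, T j * B (n - j) := by
    intro n _
    exact count_identity (pperm σ) (fix_finite hσ) (wt σ P₀ χ) (wt_add hP₀ χ) n
  have hBfin : ∃ N, ∀ n, N ≤ n → B n = 0 := by
    refine ⟨2 * genusFF K F, fun n hn => ?_⟩
    have h1 := sum_wt hσ hP₀ χ n
    have h2 : ∀ x : fixedCls (K := K) (F := F) σ,
        χ x * (((p : ℂ) ^ r) ^ (ell P₀ x.1 n) - 1) =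
        χ x * (((p : ℂ) ^ r) ^ (n + 1 - genusFF K F) - 1) := by
      intro x; rw [ell_of_big P₀ x.1 (by omega)]
    simp only [h2] at h1
    rw [← Finset.sum_mul, AddChar.sum_eq_zero_of_ne_one hχ1, zero_mul] at h1
    have h3 : ((p : ℂ) ^ r - 1) ≠ 0 := by
      rw [sub_ne_zero]
      have : (p ^ r : ℕ) ≠ 1 := by omega
      exact_mod_cast this
    exact (mul_eq_zero.1 h1).resolve_left h3
  have hA0 : A' 0 = 1 := by
    rw [hA']
    simp only
    rw [(countHyp (hσ.pow hℓ) hσℓ).A0, Nat.cast_one]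
  have hT1 : ∀ j, 1 ≤ j → T (ℓ * j) =
      ((fixFinset (pperm (σ ^ ℓ)) (fix_finite (hσ.pow hℓ)) j).card : ℂ) := by
    intro j hj
    rw [card_fixFinset_pow hσ hℓ hj, hT]
    simp only
    rw [Finset.card_eq_sum_ones, Nat.cast_sum, Nat.cast_one]
    refine Finset.sum_congr rfl fun P hP => ?_
    rw [mem_fixFinset _ _ (Nat.mul_pos hℓ hj)] at hP
    rw [wt_eq hP₀ χ (orbSum_inv (pperm σ) hP)]
    apply hχH
    -- it is a norm
    have hP' : (pperm (σ ^ ℓ))^[j] P = P := by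
      rw [pperm_iterate, ← pow_mul, ← pperm_iterate]; exact hP
    refine ⟨⟨cls P₀ (orbSum (pperm (σ ^ ℓ)) j P),
      cls_mem hσℓ (orbSum_inv (pperm (σ ^ ℓ)) hP')⟩, ?_⟩
    apply Subtype.ext
    rw [coe_normCls]
    simp only
    rw [cls_orbSum (σ ^ ℓ) hσℓ, cls_orbSum σ hP₀, sum_range_mul_aux, Finset.sum_comm]
    refine Finset.sum_congr rfl fun i _ => ?_
    rw [Finset.smul_sum]
    refine Finset.sum_congr rfl fun k _ => ?_
    rw [← pow_mul, ← mul_smul, ← pow_add, add_comm]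
  have hArec : ∀ n : ℕ, 1 ≤ n → (n : ℂ) * A' n = ∑ j ∈ Icc 1 n, T (ℓ * j) * A' (n - j) := by
    intro n _
    have h1 := count_rec (hσ.pow hℓ) n
    have h2 : (n : ℂ) * A' n = ∑ j ∈ Icc 1 n,
        ((fixFinset (pperm (σ ^ ℓ)) (fix_finite (hσ.pow hℓ)) j).card : ℂ) * A' (n - j) := by
      simp only [hA']
      exact_mod_cast h1
    rw [h2]
    refine Finset.sum_congr rfl fun j hj => ?_
    rw [hT1 j (Finset.mem_Icc.1 hj).1]
  obtain ⟨N, hN⟩ := eventually_zero_of_rec hℓ B T A' hB0 hBrec hBfin hA0 hArec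
  have h1 := hN N le_rfl
  have h2 : AA (hσ.pow hℓ) N = 0 := by
    simp only [hA'] at h1
    exact_mod_cast h1
  rw [AA, Finset.card_eq_zero] at h2
  have h3 : Finsupp.single P₀ N ∈ invFinset (pperm (σ ^ ℓ)) (fix_finite (hσ.pow hℓ)) N := by
    rw [mem_invFinset]
    refine ⟨?_, Finsupp.degree_single _ _⟩
    rw [← smul_toDiv_eq_iff]
    have : toDiv (Finsupp.single P₀ N) = (Finsupp.single P₀ (N : ℤ) : Divisor K F) := by
      simp [toDiv]
    rw [this, SemilinearAut.smul_single, hσℓ]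
  rw [h2] at h3
  exact absurd h3 (Finset.notMem_empty _)

omit [IsAlgClosed K] [FunctionField K F] [Fact p.Prime] [CharP K p] hσ hP₀ in
/-- `σ` as an endomorphism of `Pic⁰`. -/
theorem exists_end (σ : SemilinearAut K F) : ∃ φ : Module.End ℤ (Pic0 K F),
    ∀ (m : ℕ) (x : Pic0 K F), (φ ^ m) x = (σ ^ m) • x := by
  refine ⟨(DistribSMul.toAddMonoidHom (Pic0 K F) σ).toIntLinearMap, fun m x => ?_⟩
  induction m generalizing x with
  | zero => simp
  | succ m ih =>
    rw [pow_succ, pow_succ, Module.End.mul_apply, ih, mul_smul]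
    rfl

omit hP₀ in
theorem divisor_periodic (D : Divisor K F) : ∃ m : ℕ, 1 ≤ m ∧ (σ ^ m) • D = D := by
  induction D using Finsupp.induction_linear with
  | zero => exact ⟨1, le_rfl, smul_zero _⟩
  | add D E hD hE =>
    obtain ⟨m, hm, hmD⟩ := hD
    obtain ⟨n, hn, hnE⟩ := hE
    refine ⟨m * n, Nat.mul_pos hm hn, ?_⟩
    rw [smul_add, smul_pow_fix (dvd_mul_right _ _) hmD, smul_pow_fix (dvd_mul_left _ _) hnE]
  | single v n =>
    obtain ⟨m, hm, hmv⟩ := place_periodic hσ v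
    exact ⟨m, hm, by rw [SemilinearAut.smul_single, hmv]⟩

omit hP₀ in
theorem pic0_periodic (x : Pic0 K F) : ∃ m : ℕ, 1 ≤ m ∧ (σ ^ m) • x = x := by
  obtain ⟨D, rfl⟩ := Pic0.mk_surjective x
  obtain ⟨m, hm, hmD⟩ := divisor_periodic hσ (D : Divisor K F)
  refine ⟨m, hm, ?_⟩
  rw [SemilinearAut.pic0_smul_mk]
  congr 1
  exact Subtype.ext hmD

/-- the matrix of Frobenius -/
theorem exists_matrix : ∃ (d : ℕ) (M : Matrix (Fin d) (Fin d) ℤ), d = 2 * genusFF K F ∧
    M.det = ((p ^ r : ℕ) : ℤ) ^ (genusFF K F) ∧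
    ∀ m, 1 ≤ m → (1 - M ^ m).det = (Nat.card (fixedCls (K := K) (F := F) (σ ^ m)) : ℤ) := by
  have hp : p.Prime := Fact.out
  have hq1 : 2 ≤ p ^ r := Nat.one_lt_pow hσ.r_ne_zero hp.one_lt
  have hfix : ∀ m : ℕ, (σ ^ m) • P₀ = P₀ := fun m => smul_pow_fix (one_dvd m) (by rwa [pow_one])
  let A : ℕ → ℕ → ℕ := fun m n => if h : 1 ≤ m then AA (hσ.pow h) n else 0
  let S : ℕ → ℕ → ℕ := fun m n => if h : 1 ≤ m then
    (fixFinset (pperm (σ ^ m)) (fix_finite (hσ.pow h)) n).card else 0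
  let h : ℕ → ℕ := fun m => Nat.card (fixedCls (K := K) (F := F) (σ ^ m))
  have h1 : ∀ m, 1 ≤ m → CountHyp ((p ^ r) ^ m) (genusFF K F) (h m) (A m) := by
    intro m hm
    have h1 := countHyp (hσ.pow hm) (hfix m)
    rw [pow_mul] at h1
    have : A m = AA (hσ.pow hm) := by
      funext n; simp only [A, dif_pos hm]
    rw [this]
    exact h1
  have h2 : ∀ m, 1 ≤ m → ∀ n, 1 ≤ n → n * A m n = ∑ j ∈ Icc 1 n, S m j * A m (n - j) := by
    intro m hm n _
    simp only [A, S, dif_pos hm]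
    exact count_rec (hσ.pow hm) n
  have h3 : ∀ m, 1 ≤ m → ∀ n, 1 ≤ n → S m n = S 1 (m * n) := by
    intro m hm n hn
    simp only [S, dif_pos hm, dif_pos (le_refl 1)]
    rw [card_fixFinset_pow hσ hm hn, card_fixFinset_pow hσ le_rfl (Nat.mul_pos hm hn), one_mul]
  obtain ⟨d, M, hd, hdet, hM, -⟩ := exists_matrix_of_count (q := p ^ r) (g := genusFF K F) hq1
    A S h h1 h2 h3
  exact ⟨d, M, hd, hdet, hM⟩

theorem torsion_aux (ℓ : ℕ) [Fact ℓ.Prime] (hℓp : ℓ ≠ p) (k : ℕ) :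
    Nat.card {x : Pic0 K F // ℓ ^ k • x = 0} = ℓ ^ (2 * genusFF K F * k) := by
  have hp : p.Prime := Fact.out
  have hℓ : ℓ.Prime := Fact.out
  obtain ⟨d, M, hd, hdet, hM⟩ := exists_matrix hσ hP₀
  obtain ⟨φ, hφ⟩ := exists_end (K := K) (F := F) σ
  have hfix : ∀ m : ℕ, (σ ^ m) • P₀ = P₀ := fun m => smul_pow_fix (one_dvd m) (by rwa [pow_one])
  have hcard : ∀ m : ℕ, Nat.card {x : Pic0 K F // (φ ^ m) x = x} =
      Nat.card (fixedCls (K := K) (F := F) (σ ^ m)) := by
    intro m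
    refine Nat.card_congr (Equiv.subtypeEquivRight fun x => ?_)
    rw [hφ, mem_fixedCls]
  have key := torsion_count (P := Pic0 K F) ℓ φ M ?_ ?_ ?_ ?_ ?_ k
  · rw [key, Fintype.card_fin, hd]
  · rw [hdet]
    intro hdvd
    have h1 : (ℓ : ℤ) ∣ ((p ^ r : ℕ) : ℤ) := (Nat.prime_iff_prime_int.1 hℓ).dvd_of_dvd_pow hdvd
    have h2 : ℓ ∣ p ^ r := by exact_mod_cast h1
    exact hℓp ((Nat.prime_dvd_prime_iff_eq hℓ hp).1 (hℓ.dvd_of_dvd_pow h2))
  · intro m hm
    rw [hM m hm]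
    haveI := finite_fixedCls (hσ.pow hm) (hfix m)
    have : 0 < Nat.card (fixedCls (K := K) (F := F) (σ ^ m)) := Nat.card_pos
    exact_mod_cast this.ne'
  · intro x
    obtain ⟨m, hm, hmx⟩ := pic0_periodic hσ x
    exact ⟨m, hm, by rw [hφ]; exact hmx⟩
  · intro m hm
    rw [hcard, hM m hm, Int.natAbs_natCast]
  · intro a ha x hx
    rw [hφ] at hx
    obtain ⟨y, hy⟩ := normCls_surjective (hσ.pow ha) (hfix a) hℓ.one_lt.le ⟨x, hx⟩
    refine ⟨y.1, ?_, ?_⟩
    · rw [hφ, pow_mul]; exact y.2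
    · have h1 := congrArg Subtype.val hy
      rw [coe_normCls] at h1
      simp only at h1
      rw [← h1]
      refine Finset.sum_congr rfl fun i _ => ?_
      rw [← pow_mul, hφ, pow_mul]

end Fermat.Agent.S27Lib
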