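import Mathlib

/-!
Combinatorics of effective divisors invariant under a permutation.
-/

set_option autoImplicit false
set_option linter.unusedSectionVars false
set_option linter.style.haveILetI false

namespace Fermat.Agent.S27Lib

open Finset

variable {X : Type*} (f : Equiv.Perm X)

/-- invariant effective divisors of degree `n` -/
def InvDiv (n : ℕ) : Set (X →₀ ℕ) := {D | (∀ x, D (f x) = D x) ∧ D.degree = n}

theorem inv_iterate {D : X →₀ ℕ} (hD : ∀ x, D (f x) = D x) (i : ℕ) (x : X) :
    D (f^[i] x) = D x := by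
  induction i with
  | zero => rfl
  | succ i ih => rw [Function.iterate_succ_apply', hD, ih]

theorem le_degree (D : X →₀ ℕ) (x : X) : D x ≤ D.degree := by
  by_cases hx : x ∈ D.support
  · rw [Finsupp.degree_apply]
    exact Finset.single_le_sum (f := fun y => D y) (fun _ _ => Nat.zero_le _) hx
  · rw [Finsupp.notMem_support_iff.1 hx]; exact Nat.zero_le _

theorem card_support_le (D : X →₀ ℕ) : D.support.card ≤ D.degree := by
  rw [Finsupp.degree_apply, Finset.card_eq_sum_ones]
  refine Finset.sum_le_sum fun x hx => ?_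
  exact Nat.one_le_iff_ne_zero.2 (Finsupp.mem_support_iff.1 hx)

theorem exists_period {D : X →₀ ℕ} (hD : ∀ x, D (f x) = D x) {n : ℕ} (hn : D.degree ≤ n)
    {x : X} (hx : D x ≠ 0) : ∃ j, 1 ≤ j ∧ j ≤ n ∧ f^[j] x = x := by
  classical
  have hcard : D.support.card < (range (n + 1)).card := by
    rw [card_range]; exact lt_of_le_of_lt ((card_support_le D).trans hn) (Nat.lt_succ_self n)
  have hmaps : ∀ i ∈ range (n + 1), f^[i] x ∈ D.support := by
    intro i _
    rw [Finsupp.mem_support_iff, inv_iterate f hD]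
    exact hx
  obtain ⟨a, ha, b, hb, hab, heq⟩ := Finset.exists_ne_map_eq_of_card_lt_of_maps_to hcard hmaps
  have key : ∀ a b : ℕ, a < b → b < n + 1 → f^[a] x = f^[b] x →
      ∃ j, 1 ≤ j ∧ j ≤ n ∧ f^[j] x = x := by
    intro a b hab hb heq
    refine ⟨b - a, by omega, by omega, ?_⟩
    have h1 : f^[a] (f^[b - a] x) = f^[a] x := by
      rw [← Function.iterate_add_apply, heq]
      congr 2; omega
    exact (f.injective.iterate a) h1
  rw [mem_range] at ha hb
  rcases lt_or_gt_of_ne hab with h | h
  · exact key a b h hb heq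
  · exact key b a h ha heq.symm

theorem invDiv_finite (hfix : ∀ j, 1 ≤ j → {x | f^[j] x = x}.Finite) (n : ℕ) :
    (InvDiv f n).Finite := by
  classical
  set T : Set X := ⋃ j ∈ Icc 1 n, {x | f^[j] x = x} with hT
  have hTfin : T.Finite := by
    rw [hT]
    refine Set.Finite.biUnion (Finset.finite_toSet _) ?_
    intro j hj
    exact hfix j (by have := Finset.mem_Icc.1 (Finset.mem_coe.1 hj); exact this.1)
  refine Set.Finite.subset (Finset.finite_toSet (finsuppAntidiag hTfin.toFinset n)) ?_
  intro D hD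
  rw [Finset.mem_coe, mem_finsuppAntidiag]
  have hsub : D.support ⊆ hTfin.toFinset := by
    intro x hx
    rw [Set.Finite.mem_toFinset, hT]
    obtain ⟨j, h1, h2, h3⟩ := exists_period f hD.1 hD.2.le (Finsupp.mem_support_iff.1 hx)
    simp only [Set.mem_iUnion]
    exact ⟨j, Finset.mem_Icc.2 ⟨h1, h2⟩, h3⟩
  refine ⟨?_, hsub⟩
  rw [← hD.2, Finsupp.degree_apply]
  symm
  refine Finset.sum_subset hsub ?_
  intro x _ hx
  exact Finsupp.notMem_support_iff.1 hx

/-- `∑_{i<j} f^i P` -/
noncomputable def orbSum (j : ℕ) (P : X) : X →₀ ℕ := ∑ i ∈ range j, Finsupp.single (f^[i] P) 1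

theorem orbSum_apply [DecidableEq X] (j : ℕ) (P x : X) :
    orbSum f j P x = ∑ i ∈ range j, if f^[i] P = x then 1 else 0 := by
  rw [orbSum, Finsupp.finsetSum_apply]
  refine Finset.sum_congr rfl fun i _ => ?_
  rw [Finsupp.single_apply]

theorem orbSum_degree (j : ℕ) (P : X) : (orbSum f j P).degree = j := by
  rw [orbSum, map_sum]
  simp [Finsupp.degree_single]

theorem orbSum_inv {j : ℕ} {P : X} (hP : f^[j] P = P) (x : X) :
    orbSum f j P (f x) = orbSum f j P x := by
  classical
  rw [orbSum_apply, orbSum_apply]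
  have h1 : ∑ i ∈ range (j + 1), (if f^[i] P = f x then 1 else 0) =
      ∑ i ∈ range j, (if f^[i] P = f x then 1 else 0) + (if f^[j] P = f x then 1 else 0) :=
    Finset.sum_range_succ _ _
  have h2 : ∑ i ∈ range (j + 1), (if f^[i] P = f x then 1 else 0) =
      ∑ i ∈ range j, (if f^[i + 1] P = f x then 1 else 0) +
        (if f^[0] P = f x then 1 else 0) := Finset.sum_range_succ' _ _
  rw [hP] at h1
  rw [Function.iterate_zero_apply] at h2
  have h3 : ∑ i ∈ range j, (if f^[i] P = f x then 1 else 0) =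
      ∑ i ∈ range j, (if f^[i + 1] P = f x then 1 else 0) := by omega
  rw [h3]
  refine Finset.sum_congr rfl fun i _ => ?_
  rw [Function.iterate_succ_apply']
  simp only [f.injective.eq_iff]

theorem orbSum_add (a b : ℕ) (P : X) :
    orbSum f (a + b) P = orbSum f a P + orbSum f b (f^[a] P) := by
  rw [orbSum, Finset.sum_range_add, orbSum, orbSum]
  congr 1
  refine Finset.sum_congr rfl fun i _ => ?_
  rw [← Function.iterate_add_apply, add_comm]

theorem orbSum_mul_period {d : ℕ} {P : X} (hd : f^[d] P = P) (r : ℕ) :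
    orbSum f (r * d) P = r • orbSum f d P := by
  induction r with
  | zero => simp [orbSum]
  | succ r ih =>
    rw [add_mul, one_mul, add_comm, orbSum_add, hd, ih, succ_nsmul']

theorem orbSum_minimal_le_one {P : X} (x : X) :
    orbSum f (Function.minimalPeriod f P) P x ≤ 1 := by
  classical
  rw [orbSum_apply, Finset.sum_boole, Nat.cast_id, Finset.card_le_one]
  intro a ha b hb
  rw [Finset.mem_filter, mem_range] at ha hb
  have h := ha.2.trans hb.2.symm
  rcases Nat.eq_zero_or_pos (Function.minimalPeriod f P) with h0 | h0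
  · omega
  · have hinj := Function.iterate_injOn_Iio_minimalPeriod (f := f) (x := P)
    exact hinj (Set.mem_Iio.2 ha.1) (Set.mem_Iio.2 hb.1) h

theorem orbSum_minimal_self {P : X} (h0 : 0 < Function.minimalPeriod f P) :
    orbSum f (Function.minimalPeriod f P) P P = 1 := by
  classical
  apply le_antisymm (orbSum_minimal_le_one f P)
  rw [orbSum_apply, Finset.sum_boole, Nat.cast_id, Nat.one_le_iff_ne_zero, Finset.card_ne_zero]
  exact ⟨0, by rw [Finset.mem_filter, mem_range]; exact ⟨h0, rfl⟩⟩

theorem orbSum_le_iff {D : X →₀ ℕ} (hD : ∀ x, D (f x) = D x) {P : X}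
    (h0 : 0 < Function.minimalPeriod f P) (r : ℕ) :
    orbSum f (r * Function.minimalPeriod f P) P ≤ D ↔ r ≤ D P := by
  classical
  have hper : f^[Function.minimalPeriod f P] P = P :=
    Function.isPeriodicPt_minimalPeriod f P
  rw [orbSum_mul_period f hper]
  constructor
  · intro h
    have := h P
    rwa [Finsupp.smul_apply, orbSum_minimal_self f h0, smul_eq_mul, mul_one] at this
  · intro h x
    rw [Finsupp.smul_apply, smul_eq_mul]
    rcases Nat.eq_zero_or_pos (orbSum f (Function.minimalPeriod f P) P x) with hz | hz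
    · rw [hz, mul_zero]; exact Nat.zero_le _
    · have h1 := orbSum_minimal_le_one f (P := P) x
      have h2 : orbSum f (Function.minimalPeriod f P) P x = 1 := by omega
      rw [h2, mul_one]
      have h3 : ∃ i, f^[i] P = x := by
        by_contra hcon
        push Not at hcon
        rw [orbSum_apply] at h2
        simp [hcon] at h2
      obtain ⟨i, rfl⟩ := h3
      rw [inv_iterate f hD]
      exact h

variable (hfix : ∀ j, 1 ≤ j → {x | f^[j] x = x}.Finite)

/-- the set of invariant effective divisors of degree `n`, as a `Finset` -/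
noncomputable def invFinset (n : ℕ) : Finset (X →₀ ℕ) := (invDiv_finite f hfix n).toFinset

theorem mem_invFinset {n : ℕ} {D : X →₀ ℕ} :
    D ∈ invFinset f hfix n ↔ (∀ x, D (f x) = D x) ∧ D.degree = n := by
  rw [invFinset, Set.Finite.mem_toFinset]; rfl

/-- The points fixed by `f^j` as a `Finset`, for `j ≥ 1` (empty for `j = 0`). -/
noncomputable def fixFinset (j : ℕ) : Finset X :=
  if h : 1 ≤ j then (hfix j h).toFinset else ∅

theorem mem_fixFinset {j : ℕ} (hj : 1 ≤ j) {x : X} : x ∈ fixFinset f hfix j ↔ f^[j] x = x := by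
  rw [fixFinset, dif_pos hj, Set.Finite.mem_toFinset]; rfl

/-- The fundamental counting identity. -/
theorem count_identity (w : (X →₀ ℕ) → ℂ)
    (hw : ∀ D E : X →₀ ℕ, (∀ x, D (f x) = D x) → (∀ x, E (f x) = E x) → w (D + E) = w D * w E)
    (n : ℕ) :
    (n : ℂ) * ∑ D ∈ invFinset f hfix n, w D =
      ∑ j ∈ Icc 1 n, (∑ P ∈ fixFinset f hfix j, w (orbSum f j P)) *
        ∑ D ∈ invFinset f hfix (n - j), w D := by
  classical
  -- left side
  have hL : (n : ℂ) * ∑ D ∈ invFinset f hfix n, w D =
      ∑ z ∈ (invFinset f hfix n).sigma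
        (fun D => D.support.sigma (fun P => Icc 1 (D P))), w z.1 := by
    rw [Finset.sum_sigma, Finset.mul_sum]
    refine Finset.sum_congr rfl fun D hD => ?_
    show (n : ℂ) * w D = ∑ s ∈ D.support.sigma fun P => Icc 1 (D P), w D
    rw [Finset.sum_const, Finset.card_sigma]
    simp only [Nat.card_Icc, Nat.add_sub_cancel]
    have := ((mem_invFinset f hfix).1 hD).2
    rw [Finsupp.degree_apply] at this
    rw [this, nsmul_eq_mul]
  have hR : ∑ j ∈ Icc 1 n, (∑ P ∈ fixFinset f hfix j, w (orbSum f j P)) *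
        ∑ D ∈ invFinset f hfix (n - j), w D =
      ∑ z ∈ (Icc 1 n).sigma (fun j => (fixFinset f hfix j) ×ˢ (invFinset f hfix (n - j))),
        w (orbSum f z.1 z.2.1 + z.2.2) := by
    rw [Finset.sum_sigma]
    refine Finset.sum_congr rfl fun j hj => ?_
    rw [Finset.sum_mul_sum, ← Finset.sum_product']
    refine Finset.sum_congr rfl fun z hz => ?_
    rw [Finset.mem_product] at hz
    rw [Finset.mem_Icc] at hj
    rw [hw]
    · exact orbSum_inv f ((mem_fixFinset f hfix hj.1).1 hz.1)
    · exact ((mem_invFinset f hfix).1 hz.2).1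
  rw [hL, hR]
  refine Finset.sum_bij' (fun z _ => (⟨z.2.2 * Function.minimalPeriod f z.2.1,
      (z.2.1, z.1 - orbSum f (z.2.2 * Function.minimalPeriod f z.2.1) z.2.1)⟩ :
        (_ : ℕ) × (X × (X →₀ ℕ))))
    (fun z _ => (⟨orbSum f z.1 z.2.1 + z.2.2,
      ⟨z.2.1, z.1 / Function.minimalPeriod f z.2.1⟩⟩ : (_ : X →₀ ℕ) × ((_ : X) × ℕ))) ?_ ?_ ?_ ?_ ?_
  · rintro ⟨D, P, r⟩ hz
    rw [Finset.mem_sigma, Finset.mem_sigma] at hz
    obtain ⟨hD, hP, hr⟩ := hz
    simp only at hD hP hr ⊢
    rw [mem_invFinset] at hD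
    rw [Finsupp.mem_support_iff] at hP
    rw [Finset.mem_Icc] at hr
    obtain ⟨j, hj1, hj2, hj3⟩ := exists_period f hD.1 hD.2.le hP
    have h0 : 0 < Function.minimalPeriod f P :=
      Function.minimalPeriod_pos_of_mem_periodicPts ⟨j, hj1, hj3⟩
    have hper : f^[r * Function.minimalPeriod f P] P = P := by
      have := (Function.isPeriodicPt_minimalPeriod f P).const_mul r
      exact this
    have hle := (orbSum_le_iff f hD.1 h0 r).2 hr.2
    have hdeg := orbSum_degree f (r * Function.minimalPeriod f P) P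
    have hadd : (D - orbSum f (r * Function.minimalPeriod f P) P) +
        orbSum f (r * Function.minimalPeriod f P) P = D := tsub_add_cancel_of_le hle
    have hdeg2 : (D - orbSum f (r * Function.minimalPeriod f P) P).degree +
        r * Function.minimalPeriod f P = n := by
      have := congrArg Finsupp.degree hadd
      rwa [map_add, hdeg, hD.2] at this
    rw [Finset.mem_sigma, Finset.mem_product, Finset.mem_Icc]
    have hpos : 1 ≤ r * Function.minimalPeriod f P := Nat.mul_pos hr.1 h0
    refine ⟨⟨hpos, by simp only; omega⟩, ?_, ?_⟩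
    · exact (mem_fixFinset f hfix hpos).2 hper
    · rw [mem_invFinset]
      refine ⟨fun x => ?_, by simp only; omega⟩
      simp only [Finsupp.tsub_apply]
      rw [hD.1, orbSum_inv f hper]
  · rintro ⟨j, P, E⟩ hz
    rw [Finset.mem_sigma, Finset.mem_product, Finset.mem_Icc] at hz
    obtain ⟨hj, hP, hE⟩ := hz
    simp only at hj hP hE ⊢
    rw [mem_fixFinset f hfix hj.1] at hP
    rw [mem_invFinset] at hE
    have h0 : 0 < Function.minimalPeriod f P :=
      Function.minimalPeriod_pos_of_mem_periodicPts ⟨j, hj.1, hP⟩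
    have hdvd : Function.minimalPeriod f P ∣ j := Function.IsPeriodicPt.minimalPeriod_dvd hP
    obtain ⟨r, hr⟩ := hdvd
    have hr' : j = r * Function.minimalPeriod f P := by rw [hr, mul_comm]
    have hdiv : j / Function.minimalPeriod f P = r := by
      rw [hr', Nat.mul_div_cancel _ h0]
    have hinv : ∀ x, (orbSum f j P + E) (f x) = (orbSum f j P + E) x := by
      intro x
      rw [Finsupp.add_apply, Finsupp.add_apply, orbSum_inv f hP, hE.1]
    have hle : r ≤ (orbSum f j P + E) P := by
      rw [← orbSum_le_iff f hinv h0 r, ← hr']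
      exact le_self_add
    have hr1 : 1 ≤ r := by
      rcases Nat.eq_zero_or_pos r with h | h
      · rw [h, zero_mul] at hr'; omega
      · exact h
    rw [Finset.mem_sigma, Finset.mem_sigma, hdiv]
    refine ⟨?_, ?_, ?_⟩
    · rw [mem_invFinset]
      refine ⟨hinv, ?_⟩
      simp only
      rw [map_add, orbSum_degree, hE.2]; omega
    · rw [Finsupp.mem_support_iff]
      simp only
      omega
    · rw [Finset.mem_Icc]
      exact ⟨hr1, hle⟩
  · rintro ⟨D, P, r⟩ hz
    rw [Finset.mem_sigma, Finset.mem_sigma] at hz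
    obtain ⟨hD, hP, hr⟩ := hz
    simp only at hD hP hr ⊢
    rw [mem_invFinset] at hD
    rw [Finsupp.mem_support_iff] at hP
    rw [Finset.mem_Icc] at hr
    obtain ⟨j, hj1, hj2, hj3⟩ := exists_period f hD.1 hD.2.le hP
    have h0 : 0 < Function.minimalPeriod f P :=
      Function.minimalPeriod_pos_of_mem_periodicPts ⟨j, hj1, hj3⟩
    have hle := (orbSum_le_iff f hD.1 h0 r).2 hr.2
    rw [Nat.mul_div_cancel _ h0, add_tsub_cancel_of_le hle]
  · rintro ⟨j, P, E⟩ hz
    rw [Finset.mem_sigma, Finset.mem_product, Finset.mem_Icc] at hz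
    obtain ⟨hj, hP, hE⟩ := hz
    simp only at hj hP hE ⊢
    rw [mem_fixFinset f hfix hj.1] at hP
    have hdvd : Function.minimalPeriod f P ∣ j := Function.IsPeriodicPt.minimalPeriod_dvd hP
    rw [Nat.div_mul_cancel hdvd, add_tsub_cancel_left]
  · rintro ⟨D, P, r⟩ hz
    rw [Finset.mem_sigma, Finset.mem_sigma] at hz
    obtain ⟨hD, hP, hr⟩ := hz
    simp only at hD hP hr ⊢
    rw [mem_invFinset] at hD
    rw [Finsupp.mem_support_iff] at hP
    rw [Finset.mem_Icc] at hr
    obtain ⟨j, hj1, hj2, hj3⟩ := exists_period f hD.1 hD.2.le hP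
    have h0 : 0 < Function.minimalPeriod f P :=
      Function.minimalPeriod_pos_of_mem_periodicPts ⟨j, hj1, hj3⟩
    have hle := (orbSum_le_iff f hD.1 h0 r).2 hr.2
    rw [add_tsub_cancel_of_le hle]

end Fermat.Agent.S27Lib
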