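import Mathlib

/-!
Lang's lemma: over an algebraically closed field of characteristic `p`, an injective
`q`-semilinear endomorphism of an `n`-dimensional vector space has exactly `q ^ n` fixed vectors.
-/

set_option autoImplicit false
set_option linter.unusedSectionVars false
set_option linter.style.haveILetI false

namespace Fermat.Agent.S27Lib

open Polynomial Module

section

variable {K : Type*} [Field K]

/-- auxiliary polynomials -/
noncomputable def langPoly (q : ℕ) (c : ℕ → K) : ℕ → K[X]
  | 0 => C (c 0) * X ^ q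
  | (i + 1) => (langPoly q c i) ^ q + C (c (i + 1)) * X ^ q

theorem X_pow_dvd_langPoly {q : ℕ} (hq : 1 ≤ q) (c : ℕ → K) (i : ℕ) :
    (X : K[X]) ^ q ∣ langPoly q c i := by
  induction i with
  | zero => exact Dvd.intro_left _ rfl
  | succ i ih =>
    refine dvd_add (ih.trans (dvd_pow_self _ (by omega))) (Dvd.intro_left _ rfl)

theorem langPoly_ne_zero {q : ℕ} (hq : 2 ≤ q) (c : ℕ → K) (i : ℕ) (h : ∃ j ≤ i, c j ≠ 0) :
    langPoly q c i ≠ 0 := by
  induction i with
  | zero =>
    obtain ⟨j, hj, hc⟩ := h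
    have : j = 0 := by omega
    subst this
    exact mul_ne_zero (C_ne_zero.2 hc) (pow_ne_zero _ X_ne_zero)
  | succ i ih =>
    rw [langPoly]
    by_cases h0 : langPoly q c i = 0
    · have h1 : ∀ j ≤ i, c j = 0 := by
        intro j hj
        by_contra hc
        exact ih ⟨j, hj, hc⟩ h0
      obtain ⟨j, hj, hc⟩ := h
      have : j = i + 1 := by
        by_contra hne
        exact hc (h1 j (by omega))
      subst this
      rw [h0, zero_pow (by omega), zero_add]
      exact mul_ne_zero (C_ne_zero.2 hc) (pow_ne_zero _ X_ne_zero)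
    · intro hsum
      have h1 : q ≤ (langPoly q c i).natDegree := by
        have := natDegree_le_of_dvd (X_pow_dvd_langPoly (by omega) c i) h0
        rwa [natDegree_X_pow] at this
      have h2 : (langPoly q c i) ^ q = - (C (c (i + 1)) * X ^ q) := eq_neg_of_add_eq_zero_left hsum
      have h3 := congrArg natDegree h2
      rw [natDegree_pow, natDegree_neg] at h3
      have h4 : (C (c (i + 1)) * X ^ q : K[X]).natDegree ≤ q := natDegree_C_mul_X_pow_le _ _
      nlinarith

theorem exists_lang_root [IsAlgClosed K] {q : ℕ} (hq : 2 ≤ q) (c : ℕ → K) (i : ℕ)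
    (h : ∃ j ≤ i, c j ≠ 0) : ∃ t : K, t ≠ 0 ∧ (langPoly q c i).eval t = t := by
  obtain ⟨u, hu⟩ := X_pow_dvd_langPoly (q := q) (by omega) c i
  have hne := langPoly_ne_zero hq c i h
  have hu0 : u ≠ 0 := by rintro rfl; rw [mul_zero] at hu; exact hne hu
  set H : K[X] := X ^ (q - 1) * u - 1 with hH
  have hdeg : H.degree ≠ 0 := by
    intro hd
    have h1 : (X ^ (q - 1) * u : K[X]) = H + 1 := by rw [hH]; ring
    have h2 : (X ^ (q - 1) * u : K[X]).degree ≤ 0 := by
      rw [h1]
      refine (degree_add_le _ _).trans ?_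
      rw [hd, degree_one, max_self]
    have h3 : (X ^ (q - 1) * u : K[X]).degree = ((q - 1 : ℕ) : WithBot ℕ) + u.degree := by
      rw [degree_mul, degree_X_pow]
    rw [h3, degree_eq_natDegree hu0] at h2
    have h4 : (((q - 1 + u.natDegree : ℕ) : ℕ) : WithBot ℕ) ≤ ((0 : ℕ) : WithBot ℕ) := by
      push_cast; exact h2
    have h5 := WithBot.coe_le_coe.1 h4
    have : q - 1 + u.natDegree ≤ 0 := h5
    omega
  obtain ⟨t, ht⟩ := IsAlgClosed.exists_root H hdeg
  have ht' : t ^ (q - 1) * u.eval t = 1 := by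
    have := ht
    rw [IsRoot.def, hH, eval_sub, eval_mul, eval_pow, eval_X, eval_one] at this
    exact sub_eq_zero.1 this
  have ht0 : t ≠ 0 := by
    rintro rfl
    rw [zero_pow (by omega), zero_mul] at ht'
    exact zero_ne_one ht'
  refine ⟨t, ht0, ?_⟩
  rw [hu, eval_mul, eval_pow, eval_X]
  have : t ^ q = t * t ^ (q - 1) := by rw [← pow_succ']; congr 1; omega
  rw [this, mul_assoc, ht', mul_one]

end

section

variable {K : Type*} [Field K] [IsAlgClosed K]

theorem exists_fixed_vector {V : Type*} [AddCommGroup V] [Module K V] [FiniteDimensional K V]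
    {q : ℕ} (hq : 2 ≤ q) (ψ : V →+ V) (hψ : ∀ (a : K) (v : V), ψ (a • v) = a ^ q • ψ v)
    (hinj : Function.Injective ψ) [Nontrivial V] : ∃ w : V, w ≠ 0 ∧ ψ w = w := by
  classical
  obtain ⟨v, hv⟩ := exists_ne (0 : V)
  have hit0 : ∀ i : ℕ, ψ^[i] v ≠ 0 := by
    intro i
    induction i with
    | zero => exact hv
    | succ i ih =>
      rw [Function.iterate_succ_apply']
      intro h
      exact ih (hinj (by rw [h, map_zero]))
  -- minimal r
  have hex : ∃ r : ℕ, ¬ LinearIndependent K (fun i : Fin (r + 1) => ψ^[(i : ℕ)] v) := by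
    refine ⟨finrank K V, fun hli => ?_⟩
    have := hli.fintype_card_le_finrank
    simp at this
  set r := Nat.find hex with hr
  have hdep : ¬ LinearIndependent K (fun i : Fin (r + 1) => ψ^[(i : ℕ)] v) := Nat.find_spec hex
  have hind : LinearIndependent K (fun i : Fin r => ψ^[(i : ℕ)] v) := by
    rcases Nat.eq_zero_or_pos r with h0 | h0
    · rw [h0]; exact linearIndependent_empty_type
    · have := Nat.find_min hex (m := r - 1) (by omega)
      rw [not_not] at this
      have h1 : r - 1 + 1 = r := by omega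
      rw [h1] at this
      exact this
  have hmem : ψ^[r] v ∈ Submodule.span K (Set.range (fun i : Fin r => ψ^[(i : ℕ)] v)) := by
    by_contra hnot
    apply hdep
    rw [linearIndependent_finSucc']
    refine ⟨hind, ?_⟩
    have h1 : (Fin.init fun i : Fin (r + 1) => ψ^[(i : ℕ)] v) = fun i : Fin r => ψ^[(i : ℕ)] v := by
      funext i; simp [Fin.init]
    rw [h1]
    simpa using hnot
  rw [Submodule.mem_span_range_iff_exists_fun] at hmem
  obtain ⟨c, hc⟩ := hmem
  have hrpos : 0 < r := by
    rcases Nat.eq_zero_or_pos r with h0 | h0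
    · exfalso
      have : ψ^[r] v = 0 := by
        rw [← hc]
        apply Finset.sum_eq_zero
        intro i _
        exact absurd i.2 (by omega)
      exact hit0 r this
    · exact h0
  -- extend c
  let c' : ℕ → K := fun i => if h : i < r then c ⟨i, h⟩ else 0
  have hc' : ∀ i : Fin r, c' i = c i := fun i => by simp [c']
  have hcne : ∃ j ≤ r - 1, c' j ≠ 0 := by
    by_contra hcon
    push Not at hcon
    apply hit0 r
    rw [← hc]
    apply Finset.sum_eq_zero
    intro i _
    rw [← hc' i, hcon i (by have := i.2; omega), zero_smul]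
  obtain ⟨t, ht0, ht⟩ := exists_lang_root hq c' (r - 1) hcne
  let b : ℕ → K := fun i => (langPoly q c' i).eval t
  have hb0 : b 0 = c' 0 * t ^ q := by simp [b, langPoly]
  have hbs : ∀ i, b (i + 1) = (b i) ^ q + c' (i + 1) * t ^ q := by
    intro i; simp [b, langPoly]
  have hbr : b (r - 1) = t := ht
  obtain ⟨m, hm⟩ : ∃ m, r = m + 1 := ⟨r - 1, by omega⟩
  have hbm : b m = t := by
    have : r - 1 = m := by omega
    rw [← this]; exact hbr
  refine ⟨∑ i ∈ Finset.range r, b i • ψ^[i] v, ?_, ?_⟩
  · intro h0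
    rw [Finset.sum_range] at h0
    have := (Fintype.linearIndependent_iff.1 hind) (fun i => b i) h0 ⟨m, by omega⟩
    simp only at this
    rw [hbm] at this
    exact ht0 this
  · have hc2 : ψ^[r] v = ∑ i ∈ Finset.range r, c' i • ψ^[i] v := by
      rw [Finset.sum_range, ← hc]
      exact Finset.sum_congr rfl fun i _ => by rw [hc']
    rw [map_sum]
    simp only [hψ, ← Function.iterate_succ_apply' ψ]
    rw [hm] at hc2 ⊢
    rw [Finset.sum_range_succ, hbm, Nat.succ_eq_add_one, hc2, Finset.smul_sum]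
    rw [Finset.sum_range_succ' (fun i => t ^ q • c' i • ψ^[i] v),
      Finset.sum_range_succ' (fun i => b i • ψ^[i] v), hb0, ← add_assoc,
      ← Finset.sum_add_distrib]
    congr 1
    · refine Finset.sum_congr rfl fun i _ => ?_
      rw [hbs, add_smul, smul_smul, mul_comm (t ^ q)]
    · rw [smul_smul, mul_comm]

theorem card_pow_eq_self (p : ℕ) [Fact p.Prime] [CharP K p] {r : ℕ} (hr : r ≠ 0) :
    Nat.card {a : K // a ^ (p ^ r) = a} = p ^ r := by
  classical
  have hp : p.Prime := Fact.out
  have hq1 : 1 < p ^ r := Nat.one_lt_pow hr hp.one_lt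
  have hsep : (X ^ (p ^ r) - X : K[X]).Separable :=
    galois_poly_separable p (p ^ r) (dvd_pow_self p hr)
  have hne : (X ^ (p ^ r) - X : K[X]) ≠ 0 := FiniteField.X_pow_card_sub_X_ne_zero K hq1
  have h1 : Fintype.card ((X ^ (p ^ r) - X : K[X]).rootSet K) = (X ^ (p ^ r) - X : K[X]).natDegree :=
    card_rootSet_eq_natDegree hsep (IsAlgClosed.splits _)
  rw [FiniteField.X_pow_card_sub_X_natDegree_eq K hq1] at h1
  rw [← Nat.card_eq_fintype_card] at h1
  refine Eq.trans ?_ h1
  refine Nat.card_congr (Equiv.subtypeEquivRight fun a => ?_)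
  rw [mem_rootSet]
  simp [hne, sub_eq_zero]

theorem card_fixed_semilinear (p : ℕ) [Fact p.Prime] [CharP K p] {r : ℕ} (hr : r ≠ 0)
    (n : ℕ) : ∀ (V : Type*) [AddCommGroup V] [Module K V] [FiniteDimensional K V],
    finrank K V = n → ∀ (ψ : V →+ V), (∀ (a : K) (v : V), ψ (a • v) = a ^ (p ^ r) • ψ v) →
    Function.Injective ψ → Nat.card {v : V // ψ v = v} = (p ^ r) ^ n := by
  have hp : p.Prime := Fact.out
  have hq1 : 1 < p ^ r := Nat.one_lt_pow hr hp.one_lt
  induction n with
  | zero =>
    intro V _ _ _ hn ψ _ _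
    haveI := finrank_zero_iff.1 hn
    rw [pow_zero, Nat.card_eq_one_iff_unique]
    exact ⟨⟨fun a b => Subtype.ext (Subsingleton.elim _ _)⟩, ⟨⟨0, map_zero ψ⟩⟩⟩
  | succ n ih =>
    intro V _ _ _ hn ψ hψ hinj
    haveI : Nontrivial V := Module.nontrivial_of_finrank_eq_succ hn
    obtain ⟨w, hw0, hw⟩ := exists_fixed_vector hq1 ψ hψ hinj
    set S : Submodule K V := Submodule.span K {w} with hS
    have memS : ∀ v, v ∈ S ↔ ∃ a : K, a • w = v := fun v => Submodule.mem_span_singleton
    have hψS : ∀ v ∈ S, ψ v ∈ S := by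
      intro v hv
      obtain ⟨a, rfl⟩ := (memS v).1 hv
      rw [hψ, hw]
      exact (memS _).2 ⟨_, rfl⟩
    let ψ' : (V ⧸ S) →+ (V ⧸ S) := QuotientAddGroup.map S.toAddSubgroup S.toAddSubgroup ψ hψS
    have hψ'mk : ∀ v : V, ψ' (Submodule.Quotient.mk v) = Submodule.Quotient.mk (ψ v) := fun v => rfl
    have hfr : finrank K (V ⧸ S) = n := by
      have h1 := Submodule.finrank_quotient_add_finrank S
      have h2 : finrank K S = 1 := finrank_span_singleton hw0
      rw [hn, h2] at h1
      omega
    have hψ' : ∀ (a : K) (v : V ⧸ S), ψ' (a • v) = a ^ (p ^ r) • ψ' v := by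
      intro a v
      obtain ⟨v, rfl⟩ := Submodule.Quotient.mk_surjective S v
      rw [← Submodule.Quotient.mk_smul, hψ'mk, hψ'mk, hψ, Submodule.Quotient.mk_smul]
    have hinj' : Function.Injective ψ' := by
      rw [injective_iff_map_eq_zero]
      intro v hv
      obtain ⟨v, rfl⟩ := Submodule.Quotient.mk_surjective S v
      rw [hψ'mk, Submodule.Quotient.mk_eq_zero] at hv
      obtain ⟨a, ha⟩ := (memS _).1 hv
      obtain ⟨b, hb⟩ := IsAlgClosed.exists_pow_nat_eq a (by omega : 0 < p ^ r)
      have : ψ (b • w) = ψ v := by rw [hψ, hb, hw, ha]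
      rw [Submodule.Quotient.mk_eq_zero]
      exact (memS _).2 ⟨b, hinj this⟩
    have hIH := ih (V ⧸ S) hfr ψ' hψ' hinj'
    -- counting
    let F1 : AddSubgroup V := (ψ - AddMonoidHom.id V).ker
    let F0 : AddSubgroup (V ⧸ S) := (ψ' - AddMonoidHom.id (V ⧸ S)).ker
    have mem1 : ∀ v, v ∈ F1 ↔ ψ v = v := by
      intro v; simp [F1, AddMonoidHom.mem_ker, sub_eq_zero]
    have mem0 : ∀ v, v ∈ F0 ↔ ψ' v = v := by
      intro v; simp [F0, AddMonoidHom.mem_ker, sub_eq_zero]
    let f : F1 →+ F0 :=
      { toFun := fun v => ⟨Submodule.Quotient.mk v.1, by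
          rw [mem0, hψ'mk, (mem1 _).1 v.2]⟩
        map_zero' := rfl
        map_add' := fun _ _ => rfl }
    have hfsurj : Function.Surjective f := by
      rintro ⟨x, hx⟩
      obtain ⟨v, rfl⟩ := Submodule.Quotient.mk_surjective S x
      rw [mem0, hψ'mk, Submodule.Quotient.eq] at hx
      obtain ⟨a, ha⟩ := (memS _).1 hx
      -- find b with b^q - b + a = 0
      have hdeg : (X ^ (p ^ r) - X + C a : K[X]).degree ≠ 0 := by
        have h1 : (X ^ (p ^ r) - X + C a : K[X]) = X ^ (p ^ r) + (C a - X) := by ring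
        have h2 : (C a - X : K[X]).degree < (X ^ (p ^ r) : K[X]).degree := by
          rw [degree_X_pow]
          refine (degree_sub_le _ _).trans_lt ?_
          rw [max_lt_iff]
          constructor
          · exact degree_C_le.trans_lt (by exact_mod_cast (by omega : 0 < p ^ r))
          · rw [degree_X]; exact_mod_cast hq1
        rw [h1, degree_add_eq_left_of_degree_lt h2, degree_X_pow]
        exact_mod_cast (by omega : p ^ r ≠ 0)
      obtain ⟨b, hb⟩ := IsAlgClosed.exists_root _ hdeg
      rw [IsRoot.def, eval_add, eval_sub, eval_pow, eval_X, eval_C] at hb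
      refine ⟨⟨v + b • w, ?_⟩, ?_⟩
      · rw [mem1, map_add, hψ, hw]
        have h1 : ψ v = v + a • w := by rw [ha]; abel
        have h2 : b ^ (p ^ r) = b - a := by linear_combination hb
        rw [h1, h2, sub_smul]; abel
      · apply Subtype.ext
        show (Submodule.Quotient.mk (v + b • w) : V ⧸ S) = Submodule.Quotient.mk v
        rw [Submodule.Quotient.eq, add_sub_cancel_left]
        exact (memS _).2 ⟨b, rfl⟩
    have hker : Nat.card f.ker = p ^ r := by
      rw [← card_pow_eq_self (K := K) p hr]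
      symm
      refine Nat.card_congr (Equiv.ofBijective
        (fun a : {a : K // a ^ (p ^ r) = a} => (⟨⟨a.1 • w, ?_⟩, ?_⟩ : f.ker)) ⟨?_, ?_⟩)
      · rw [mem1, hψ, hw, a.2]
      · rw [AddMonoidHom.mem_ker]
        apply Subtype.ext
        show (Submodule.Quotient.mk (a.1 • w) : V ⧸ S) = 0
        rw [Submodule.Quotient.mk_eq_zero]
        exact (memS _).2 ⟨_, rfl⟩
      · intro a b hab
        have h1 : a.1 • w = b.1 • w := congrArg (fun z : f.ker => z.1.1) hab
        exact Subtype.ext (smul_left_injective K hw0 h1)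
      · rintro ⟨⟨v, hv⟩, hvk⟩
        have h1 : (Submodule.Quotient.mk v : V ⧸ S) = 0 := congrArg Subtype.val hvk
        rw [Submodule.Quotient.mk_eq_zero] at h1
        obtain ⟨a, rfl⟩ := (memS _).1 h1
        refine ⟨⟨a, ?_⟩, rfl⟩
        rw [mem1, hψ, hw] at hv
        exact smul_left_injective K hw0 hv
    have h1 := AddSubgroup.card_eq_card_quotient_mul_card_addSubgroup f.ker
    have h2 : Nat.card (F1 ⧸ f.ker) = Nat.card F0 :=
      Nat.card_congr (QuotientAddGroup.quotientKerEquivOfSurjective f hfsurj).toEquiv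
    have e1 : Nat.card {v : V // ψ v = v} = Nat.card F1 :=
      Nat.card_congr (Equiv.subtypeEquivRight mem1).symm
    have e0 : Nat.card {v : V ⧸ S // ψ' v = v} = Nat.card F0 :=
      Nat.card_congr (Equiv.subtypeEquivRight mem0).symm
    rw [e1, h1, h2, hker, ← e0, hIH, pow_succ]

end

end Fermat.Agent.S27Lib
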