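import Fermat.Agent.RR.Divisors
import Fermat.Prelude.Def_AlgebraicCurve_BaseChangeGalois
import Fermat.Agent.S27Lib.Lang
import Fermat.Agent.S27Lib.InvDivisors

/-!
Frobenius structures on function fields over algebraic closures of finite fields:
action on places, divisors, and counting of invariant effective divisors in a class.
-/

set_option autoImplicit false
set_option linter.unusedSectionVars false
set_option linter.style.haveILetI false

noncomputable section

open AlgebraicCurve Fermat.Agent.RR

namespace Fermat.Agent.S27Lib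

variable {K F : Type*} [Field K] [Field F] [Algebra K F]

/-- `σ` is a `p ^ r`-Frobenius structure on `F / K`. -/
structure IsFrob (p r : ℕ) (σ : SemilinearAut K F) : Prop where
  r_ne_zero : r ≠ 0
  base : ∀ a : K, SemilinearAut.baseAut σ a = a ^ (p ^ r)
  fin : ∀ f : F, ∃ m : ℕ, 1 ≤ m ∧ (σ ^ m) • f = f

theorem baseAut_pow {q : ℕ} {σ : SemilinearAut K F}
    (h : ∀ a : K, SemilinearAut.baseAut σ a = a ^ q) (m : ℕ) (a : K) :
    SemilinearAut.baseAut (σ ^ m) a = a ^ (q ^ m) := by
  induction m generalizing a with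
  | zero => simp
  | succ m ih =>
    rw [pow_succ, SemilinearAut.baseAut_mul]
    show SemilinearAut.baseAut (σ ^ m) (SemilinearAut.baseAut σ a) = _
    rw [h, ih, ← pow_mul, pow_succ, mul_comm]

theorem smul_pow_fix {α : Type*} [MulAction (SemilinearAut K F) α] {σ : SemilinearAut K F} {n m : ℕ}
    (hnm : n ∣ m) {x : α} (hx : (σ ^ n) • x = x) : (σ ^ m) • x = x := by
  obtain ⟨k, rfl⟩ := hnm
  induction k with
  | zero => simp
  | succ k ih => rw [Nat.mul_succ, pow_add, mul_smul, hx, ih]

theorem IsFrob.pow {p r : ℕ} {σ : SemilinearAut K F} (h : IsFrob p r σ) {m : ℕ} (hm : 1 ≤ m) :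
    IsFrob p (r * m) (σ ^ m) where
  r_ne_zero := Nat.mul_ne_zero h.r_ne_zero (by omega)
  base a := by rw [baseAut_pow h.base, pow_mul]
  fin f := by
    obtain ⟨k, hk, hf⟩ := h.fin f
    refine ⟨k, hk, ?_⟩
    rw [← pow_mul]
    exact smul_pow_fix (dvd_mul_left _ _) hf

/-- the permutation of places -/
abbrev pperm (σ : SemilinearAut K F) : Equiv.Perm (Place K F) := MulAction.toPerm σ

theorem pperm_iterate (σ : SemilinearAut K F) (j : ℕ) (P : Place K F) :
    (pperm σ)^[j] P = (σ ^ j) • P := by
  induction j with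
  | zero => simp
  | succ j ih => rw [Function.iterate_succ_apply', ih, pow_succ', mul_smul]; rfl

theorem ord_smul_inv (g : SemilinearAut K F) (v : Place K F) (f : F) :
    v.ord (g • f) = (g⁻¹ • v).ord f := by
  have := SemilinearAut.ord_smul g (g⁻¹ • v) f
  rw [smul_inv_smul] at this
  exact this

theorem smul_divOf [HasPrincipalDivisors K F] (g : SemilinearAut K F) (f : F) :
    g • (divOf f : Divisor K F) = divOf (g • f) := by
  ext v
  rw [SemilinearAut.divisor_smul_apply, divOf_apply, divOf_apply, ord_smul_inv]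

section places

variable [IsAlgClosed K] [FunctionField K F] {p r : ℕ} {σ : SemilinearAut K F}

theorem exists_transcendental_fixed (h : IsFrob p r σ) :
    ∃ (x : F) (m : ℕ), Transcendental K x ∧ 1 ≤ m ∧ (σ ^ m) • x = x := by
  obtain ⟨x, hx, -⟩ := FunctionField.exists_finite (K := K) (F := F)
  obtain ⟨m, hm, hmx⟩ := h.fin x
  exact ⟨x, m, hx, hm, hmx⟩

/-- the places where `f` has nonzero order form a finite set. -/
theorem finite_ord_ne_zero {f : F} (_hf : f ≠ 0) : {v : Place K F | v.ord f ≠ 0}.Finite := by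
  refine Set.Finite.subset (Finset.finite_toSet (divOf (K := K) f).support) ?_
  intro v hv
  rw [Finset.mem_coe, Finsupp.mem_support_iff, divOf_apply]
  exact hv

theorem sub_const_ne_zero {x : F} (hx : Transcendental K x) (a : K) :
    x - algebraMap K F a ≠ 0 := by
  intro h
  rw [sub_eq_zero] at h
  rw [h] at hx
  exact hx (isAlgebraic_algebraMap a)

theorem transcendental_ne_zero' {x : F} (hx : Transcendental K x) : x ≠ 0 := by
  rintro rfl
  exact hx isAlgebraic_zero

/-- A finite set of places, one of which contains `P`, stable under `τ`. -/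
theorem exists_period_of_finite {S : Set (Place K F)} (hS : S.Finite) (τ : SemilinearAut K F)
    (hτ : ∀ v ∈ S, τ • v ∈ S) {P : Place K F} (hP : P ∈ S) : ∃ m : ℕ, 1 ≤ m ∧ (τ ^ m) • P = P := by
  have hmem : ∀ n : ℕ, (τ ^ n) • P ∈ S := by
    intro n
    induction n with
    | zero => simpa using hP
    | succ n ih => rw [pow_succ', mul_smul]; exact hτ _ ih
  have hni : ¬ Function.Injective (fun n : ℕ => (τ ^ n) • P) := by
    intro hinj
    have : Set.Infinite (Set.range (fun n : ℕ => (τ ^ n) • P)) := Set.infinite_range_of_injective hinj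
    exact this (hS.subset (by rintro _ ⟨n, rfl⟩; exact hmem n))
  rw [Function.Injective] at hni
  push Not at hni
  obtain ⟨a, b, hab, hne⟩ := hni
  have key : ∀ a b : ℕ, (τ ^ a) • P = (τ ^ b) • P → a < b → ∃ m : ℕ, 1 ≤ m ∧ (τ ^ m) • P = P := by
    intro a b hab hlt
    refine ⟨b - a, by omega, ?_⟩
    have h1 : b = a + (b - a) := by omega
    rw [h1, pow_add, mul_smul] at hab
    have h2 := (MulAction.injective (τ ^ a)) hab
    exact h2.symm
  rcases lt_or_gt_of_ne hne with h | h
  · exact key a b hab h
  · exact key b a hab.symm h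

theorem place_periodic (h : IsFrob p r σ) (P : Place K F) : ∃ m : ℕ, 1 ≤ m ∧ (σ ^ m) • P = P := by
  obtain ⟨x, m₀, hx, hm₀, hmx⟩ := exists_transcendental_fixed h
  by_cases hP : P.ord x < 0
  · have hfin : {v : Place K F | v.ord x < 0}.Finite :=
      (finite_ord_ne_zero (transcendental_ne_zero' hx)).subset (fun v hv => ne_of_lt hv)
    obtain ⟨m, hm, hmP⟩ := exists_period_of_finite hfin (σ ^ m₀) (by
      intro v hv
      show ((σ ^ m₀) • v).ord x < 0
      have h1 := SemilinearAut.ord_smul (σ ^ m₀) v x
      rw [hmx] at h1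
      rw [h1]
      exact hv) hP
    exact ⟨m₀ * m, Nat.mul_pos hm₀ hm, by rw [pow_mul]; exact hmP⟩
  · have hmem : x ∈ P.toValuationSubring := mem_of_ord_nonneg P (not_lt.1 hP)
    obtain ⟨c, hc⟩ := exists_const_of_mem P hmem
    have hc' := hc.resolve_left (sub_const_ne_zero hx c)
    obtain ⟨m₁, hm₁, hmc⟩ := h.fin (algebraMap K F c)
    have hτ : (σ ^ (m₀ * m₁)) • (x - algebraMap K F c) = x - algebraMap K F c := by
      rw [smul_sub, smul_pow_fix (dvd_mul_right _ _) hmx, smul_pow_fix (dvd_mul_left _ _) hmc]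
    have hfin : {v : Place K F | 0 < v.ord (x - algebraMap K F c)}.Finite :=
      (finite_ord_ne_zero (sub_const_ne_zero hx c)).subset (fun v hv => ne_of_gt hv)
    obtain ⟨m, hm, hmP⟩ := exists_period_of_finite hfin (σ ^ (m₀ * m₁)) (by
      intro v hv
      show 0 < ((σ ^ (m₀ * m₁)) • v).ord (x - algebraMap K F c)
      have h1 := SemilinearAut.ord_smul (σ ^ (m₀ * m₁)) v (x - algebraMap K F c)
      rw [hτ] at h1
      rw [h1]
      exact hv) hc'
    exact ⟨m₀ * m₁ * m, Nat.mul_pos (Nat.mul_pos hm₀ hm₁) hm, by rw [pow_mul]; exact hmP⟩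

theorem fix_finite_aux [Fact p.Prime] (h : IsFrob p r σ) {x : F} (hx : Transcendental K x)
    (hσx : σ • x = x) : {P : Place K F | σ • P = P}.Finite := by
  classical
  have hp : p.Prime := Fact.out
  have hq1 : 1 < p ^ r := Nat.one_lt_pow h.r_ne_zero hp.one_lt
  have hA : {a : K | a ^ (p ^ r) = a}.Finite := by
    have hne : (Polynomial.X ^ (p ^ r) - Polynomial.X : Polynomial K) ≠ 0 :=
      FiniteField.X_pow_card_sub_X_ne_zero K hq1
    refine Set.Finite.subset (Finset.finite_toSet
      (Polynomial.X ^ (p ^ r) - Polynomial.X : Polynomial K).roots.toFinset) ?_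
    intro a ha
    rw [Finset.mem_coe, Multiset.mem_toFinset, Polynomial.mem_roots hne]
    simp only [Polynomial.IsRoot.def, Polynomial.eval_sub, Polynomial.eval_pow, Polynomial.eval_X]
    exact sub_eq_zero.2 ha
  have hfin : ({v : Place K F | v.ord x ≠ 0} ∪
      ⋃ a ∈ {a : K | a ^ (p ^ r) = a}, {v : Place K F | v.ord (x - algebraMap K F a) ≠ 0}).Finite := by
    refine Set.Finite.union (finite_ord_ne_zero (transcendental_ne_zero' hx)) ?_
    refine Set.Finite.biUnion hA ?_
    intro a _
    exact finite_ord_ne_zero (sub_const_ne_zero hx a)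
  refine hfin.subset ?_
  intro P hP
  by_cases hPx : P.ord x < 0
  · left
    exact ne_of_lt hPx
  · right
    have hmem : x ∈ P.toValuationSubring := mem_of_ord_nonneg P (not_lt.1 hPx)
    obtain ⟨c, hc⟩ := exists_const_of_mem P hmem
    have hc' := hc.resolve_left (sub_const_ne_zero hx c)
    simp only [Set.mem_iUnion]
    refine ⟨c, ?_, ne_of_gt hc'⟩
    -- σ (x - c) = x - c^q has positive order at σ P = P
    have h1 := SemilinearAut.ord_smul σ P (x - algebraMap K F c)
    rw [smul_sub, hσx, SemilinearAut.smul_algebraMap, h.base] at h1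
    have hP' : σ • P = P := hP
    rw [hP'] at h1
    by_contra hne
    have hne' : c ^ (p ^ r) - c ≠ 0 := fun h0 => hne (sub_eq_zero.1 h0)
    have h2 : (x - algebraMap K F c) - (x - algebraMap K F (c ^ (p ^ r))) =
        algebraMap K F (c ^ (p ^ r) - c) := by rw [map_sub]; ring
    have h3 : (x - algebraMap K F c) - (x - algebraMap K F (c ^ (p ^ r))) ≠ 0 := by
      rw [h2]; exact fun h0 => hne' ((map_eq_zero_iff _ (algebraMap K F).injective).1 h0)
    have h4 := ord_sub P h3
    rw [h2, ord_algebraMap, h1, min_self] at h4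
    omega

theorem fix_finite [Fact p.Prime] (h : IsFrob p r σ) (j : ℕ) (hj : 1 ≤ j) :
    {P : Place K F | (pperm σ)^[j] P = P}.Finite := by
  obtain ⟨x, m, hx, hm, hmx⟩ := exists_transcendental_fixed h
  have h1 : {P : Place K F | (σ ^ (m * j)) • P = P}.Finite :=
    fix_finite_aux (h.pow (Nat.mul_pos hm hj)) hx (smul_pow_fix (dvd_mul_right _ _) hmx)
  refine h1.subset ?_
  intro P hP
  have hP' : (σ ^ j) • P = P := by
    rw [← pperm_iterate]; exact hP
  exact smul_pow_fix (dvd_mul_left _ _) hP'

end places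

section count

variable [IsAlgClosed K] [FunctionField K F] {p r : ℕ} {σ : SemilinearAut K F}

/-- the integral divisor attached to a `ℕ`-valued one -/
def toDiv : (Place K F →₀ ℕ) →+ Divisor K F :=
  Finsupp.mapRange.addMonoidHom (Nat.castAddMonoidHom ℤ)

@[simp]
theorem toDiv_apply (D : Place K F →₀ ℕ) (v : Place K F) : toDiv D v = (D v : ℤ) := by
  simp [toDiv]

theorem toDiv_injective : Function.Injective (toDiv (K := K) (F := F)) := by
  intro D E h
  ext v
  have := congrArg (fun D : Divisor K F => D v) h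
  simpa using this

theorem exists_toDiv {D : Divisor K F} (hD : 0 ≤ D) : ∃ E : Place K F →₀ ℕ, toDiv E = D := by
  refine ⟨Finsupp.mapRange Int.toNat (by simp) D, ?_⟩
  ext v
  rw [toDiv_apply, Finsupp.mapRange_apply]
  exact Int.toNat_of_nonneg (hD v)

theorem degree_toDiv (D : Place K F →₀ ℕ) : Divisor.degree (toDiv D) = (D.degree : ℤ) := by
  induction D using Finsupp.induction_linear with
  | zero => simp
  | add D E hD hE => rw [map_add, map_add, hD, hE, map_add]; push_cast; rfl
  | single v n =>
    have : toDiv (Finsupp.single v n) = (Finsupp.single v (n : ℤ) : Divisor K F) := by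
      simp [toDiv]
    rw [this, degree_single_one, Finsupp.degree_single]

theorem smul_toDiv_eq_iff (g : SemilinearAut K F) (D : Place K F →₀ ℕ) :
    g • (toDiv D : Divisor K F) = toDiv D ↔ ∀ x, D (pperm g x) = D x := by
  constructor
  · intro h x
    have h1 := congrArg (fun D : Divisor K F => D (g • x)) h
    simp only [SemilinearAut.divisor_smul_apply_smul, toDiv_apply] at h1
    exact_mod_cast h1.symm
  · intro h
    ext v
    rw [SemilinearAut.divisor_smul_apply, toDiv_apply, toDiv_apply]
    have h1 := h (g⁻¹ • v)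
    have h2 : pperm g (g⁻¹ • v) = v := by
      show g • (g⁻¹ • v) = v
      rw [smul_inv_smul]
    rw [h2] at h1
    rw [h1]

/-- the twisted Frobenius on `L(D₀)`. -/
def twist (D₀ : Divisor K F) (f : F) (hf : f ≠ 0) (hD : σ • D₀ = D₀ + divOf f) :
    riemannRochSpace D₀ →+ riemannRochSpace D₀ where
  toFun h := ⟨f * (σ • (h : F)), by
    rw [mem_riemannRochSpace_iff]
    intro v
    rcases eq_or_ne (h : F) 0 with h0 | h0
    · left; rw [h0, smul_zero, mul_zero]
    · right
      have h1 : σ • (h : F) ≠ 0 := by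
        intro h2
        apply h0
        have := congrArg (fun y => σ⁻¹ • y) h2
        simpa using this
      rw [v.ord_mul hf h1, ord_smul_inv]
      have h2 := (mem_riemannRochSpace_iff.1 h.2 (σ⁻¹ • v)).resolve_left h0
      have h3 : D₀ (σ⁻¹ • v) = D₀ v + v.ord f := by
        have := congrArg (fun D : Divisor K F => D v) hD
        simpa [SemilinearAut.divisor_smul_apply] using this
      omega⟩
  map_zero' := by
    apply Subtype.ext
    show f * (σ • (0 : F)) = 0
    rw [smul_zero, mul_zero]
  map_add' a b := by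
    apply Subtype.ext
    show f * (σ • ((a : F) + (b : F))) = f * (σ • (a : F)) + f * (σ • (b : F))
    rw [smul_add, mul_add]

theorem twist_apply (D₀ : Divisor K F) (f : F) (hf : f ≠ 0) (hD : σ • D₀ = D₀ + divOf f)
    (h : riemannRochSpace D₀) : ((twist D₀ f hf hD h : riemannRochSpace D₀) : F) = f * (σ • (h : F)) :=
  rfl

theorem twist_smul {q : ℕ} (hbase : ∀ a : K, SemilinearAut.baseAut σ a = a ^ q)
    (D₀ : Divisor K F) (f : F) (hf : f ≠ 0) (hD : σ • D₀ = D₀ + divOf f)
    (a : K) (h : riemannRochSpace D₀) :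
    twist D₀ f hf hD (a • h) = a ^ q • twist D₀ f hf hD h := by
  apply Subtype.ext
  rw [twist_apply]
  show f * (σ • (a • (h : F))) = a ^ q • (f * (σ • (h : F)))
  rw [Algebra.smul_def, smul_mul', SemilinearAut.smul_algebraMap, hbase, Algebra.smul_def]
  ring

theorem twist_injective (D₀ : Divisor K F) (f : F) (hf : f ≠ 0) (hD : σ • D₀ = D₀ + divOf f) :
    Function.Injective (twist D₀ f hf hD) := by
  rw [injective_iff_map_eq_zero]
  intro h h0
  have h1 := congrArg Subtype.val h0
  rw [twist_apply] at h1
  apply Subtype.ext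
  have h2 : σ • (h : F) = 0 := (mul_eq_zero.1 h1).resolve_left hf
  have := congrArg (fun y => σ⁻¹ • y) h2
  simpa using this

theorem divOf_ne_zero_inj {f g : F} (hf : f ≠ 0) (hg : g ≠ 0)
    (h : (divOf f : Divisor K F) = divOf g) : ∃ c : K, c ≠ 0 ∧ g = c • f := by
  have h1 : g / f ∈ riemannRochSpace (0 : Divisor K F) := by
    rw [mem_riemannRochSpace_iff]
    intro v
    right
    rw [ord_div v hg hf]
    have := congrArg (fun D : Divisor K F => D v) h
    simp only [divOf_apply] at this
    simp [this]
  rw [riemannRochSpace_zero, Submodule.mem_span_singleton] at h1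
  obtain ⟨c, hc⟩ := h1
  have h2 : g = c • f := by
    rw [Algebra.smul_def]
    rw [Algebra.smul_def, mul_one] at hc
    rw [hc, div_mul_cancel₀ _ hf]
  refine ⟨c, ?_, h2⟩
  rintro rfl
  rw [zero_smul] at h2
  exact hg h2

theorem divOf_smul_const {c : K} (hc : c ≠ 0) (f : F) :
    (divOf (c • f) : Divisor K F) = divOf f := by
  ext v
  rw [divOf_apply, divOf_apply, ord_smul v hc]

theorem card_ne_zero_fixed (p : ℕ) [Fact p.Prime] [CharP K p] {r : ℕ} (hr : r ≠ 0) :
    Nat.card {a : K // a ≠ 0 ∧ a ^ (p ^ r) = a} + 1 = p ^ r := by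
  have hp : p.Prime := Fact.out
  have hq1 : 1 < p ^ r := Nat.one_lt_pow hr hp.one_lt
  have h1 := card_pow_eq_self (K := K) p hr
  have hfin : Finite {a : K // a ^ (p ^ r) = a} := by
    apply Nat.finite_of_card_ne_zero; rw [h1]; omega
  have e : Option {a : K // a ≠ 0 ∧ a ^ (p ^ r) = a} ≃ {a : K // a ^ (p ^ r) = a} :=
    { toFun := fun a => match a with
        | none => ⟨0, zero_pow (by omega)⟩
        | some a => ⟨a.1, a.2.2⟩
      invFun := fun a => by
        classical
        exact if h : a.1 = 0 then none else some ⟨a.1, h, a.2⟩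
      left_inv := by
        rintro (_ | a)
        · simp
        · simp [a.2.1]
      right_inv := by
        intro a
        by_cases h : a.1 = 0
        · simp only [h, dite_true]
          exact Subtype.ext h.symm
        · simp only [h, dite_false] }
  have hfin' : Finite {a : K // a ≠ 0 ∧ a ^ (p ^ r) = a} := by
    refine Finite.of_injective
      (fun a : {a : K // a ≠ 0 ∧ a ^ (p ^ r) = a} => (⟨a.1, a.2.2⟩ : {a : K // a ^ (p ^ r) = a})) ?_
    intro a b hab
    exact Subtype.ext (congrArg (fun z : {a : K // a ^ (p ^ r) = a} => z.1) hab)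
  have h2 := Nat.card_congr e
  rw [Finite.card_option, h1] at h2
  exact h2

theorem card_ne_zero_of_card {V : Type*} [Zero V] {P : V → Prop} (h0 : P 0) {N : ℕ} (hN : 0 < N)
    (h : Nat.card {v : V // P v} = N) : Nat.card {v : V // v ≠ 0 ∧ P v} + 1 = N := by
  classical
  have hfin : Finite {v : V // P v} := by
    apply Nat.finite_of_card_ne_zero; rw [h]; omega
  have e : Option {v : V // v ≠ 0 ∧ P v} ≃ {v : V // P v} :=
    { toFun := fun a => match a with
        | none => ⟨0, h0⟩
        | some a => ⟨a.1, a.2.2⟩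
      invFun := fun a => if h : a.1 = 0 then none else some ⟨a.1, h, a.2⟩
      left_inv := by
        rintro (_ | a)
        · simp
        · simp [a.2.1]
      right_inv := by
        intro a
        by_cases h : a.1 = 0
        · simp only [h, dite_true]
          exact Subtype.ext h.symm
        · simp only [h, dite_false] }
  have hfin' : Finite {v : V // v ≠ 0 ∧ P v} := by
    refine Finite.of_injective
      (fun a : {v : V // v ≠ 0 ∧ P v} => (⟨a.1, a.2.2⟩ : {v : V // P v})) ?_
    intro a b hab
    exact Subtype.ext (congrArg (fun z : {v : V // P v} => z.1) hab)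
  rw [← h, ← Nat.card_congr e, Finite.card_option]

/-- The set of invariant effective divisors linearly equivalent to `D₀`. -/
def InvEff (σ : SemilinearAut K F) (D₀ : Divisor K F) : Type _ :=
  {D : Place K F →₀ ℕ // (∀ x, D (pperm σ x) = D x) ∧ ∃ h : F, h ≠ 0 ∧ toDiv D = D₀ + divOf h}

theorem card_invEff [Fact p.Prime] [CharP K p] (hσ : IsFrob p r σ) (D₀ : Divisor K F)
    (hD₀ : ∃ f : F, f ≠ 0 ∧ σ • D₀ = D₀ + divOf f) :
    (p ^ r - 1) * Nat.card (InvEff σ D₀) + 1 =
      (p ^ r) ^ (Module.finrank K (riemannRochSpace D₀)) := by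
  have hp : p.Prime := Fact.out
  have hq1 : 1 < p ^ r := Nat.one_lt_pow hσ.r_ne_zero hp.one_lt
  obtain ⟨f, hf, hD⟩ := hD₀
  set ψ := twist D₀ f hf hD with hψ
  have hcard := card_fixed_semilinear (K := K) p hσ.r_ne_zero
    (Module.finrank K (riemannRochSpace D₀)) (riemannRochSpace D₀) rfl ψ
    (twist_smul hσ.base D₀ f hf hD) (twist_injective D₀ f hf hD)
  have hcard' := card_ne_zero_of_card (P := fun v => ψ v = v) (map_zero ψ) (by positivity) hcard
  have hC := card_ne_zero_fixed (K := K) p hσ.r_ne_zero
  -- for each invariant divisor choose a fixed section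
  have hchoice : ∀ D : InvEff σ D₀, ∃ h : riemannRochSpace D₀, h ≠ 0 ∧ ψ h = h ∧
      toDiv D.1 = D₀ + divOf (h : F) := by
    rintro ⟨D, hinv, h, h0, hh⟩
    have hDinv : σ • (toDiv D : Divisor K F) = toDiv D := (smul_toDiv_eq_iff σ D).2 hinv
    rw [hh, smul_add, hD, smul_divOf, add_assoc, ← divOf_mul hf (by
      intro h2
      apply h0
      have := congrArg (fun y => σ⁻¹ • y) h2
      simpa using this)] at hDinv
    have hdiv := add_left_cancel hDinv
    have hσh : σ • h ≠ 0 := by
      intro h2
      apply h0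
      have := congrArg (fun y => σ⁻¹ • y) h2
      simpa using this
    obtain ⟨c, hc0, hc⟩ := divOf_ne_zero_inj (mul_ne_zero hf hσh) h0 hdiv
    -- h = c • (f * σ h)
    obtain ⟨a, ha⟩ := IsAlgClosed.exists_pow_nat_eq c (n := p ^ r - 1) (by omega)
    have ha0 : a ≠ 0 := by
      rintro rfl
      rw [zero_pow (by omega)] at ha
      exact hc0 ha.symm
    have hmem : h ∈ riemannRochSpace D₀ := by
      rw [mem_riemannRochSpace_iff]
      intro v
      right
      have h1 := congrArg (fun D : Divisor K F => D v) hh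
      simp only [toDiv_apply, Finsupp.add_apply, divOf_apply] at h1
      omega
    refine ⟨⟨a • h, Submodule.smul_mem _ _ hmem⟩, ?_, ?_, ?_⟩
    · intro h1
      have h2 := congrArg Subtype.val h1
      exact smul_ne_zero ha0 h0 h2
    · apply Subtype.ext
      rw [hψ, twist_apply]
      show f * (σ • (a • h)) = a • h
      have h3 : a ^ (p ^ r) = a * c := by
        rw [← ha, ← pow_succ']; congr 1; omega
      rw [Algebra.smul_def a h, smul_mul', SemilinearAut.smul_algebraMap, hσ.base, h3]
      conv_rhs => rw [hc]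
      rw [Algebra.smul_def, map_mul]
      ring
    · show toDiv D = D₀ + divOf (a • h)
      rw [hh, divOf_smul_const ha0]
  choose s hs0 hs1 hs2 using hchoice
  have hbij : Function.Bijective (fun z : InvEff σ D₀ × {a : K // a ≠ 0 ∧ a ^ (p ^ r) = a} =>
      (⟨z.2.1 • s z.1, smul_ne_zero z.2.2.1 (hs0 z.1), by
        rw [hψ, twist_smul hσ.base, ← hψ, hs1, z.2.2.2]⟩ :
        {v : riemannRochSpace D₀ // v ≠ 0 ∧ ψ v = v})) := by
    constructor
    · rintro ⟨D, a, ha0, ha⟩ ⟨E, b, hb0, hb⟩ heq
      have h1 : a • s D = b • s E :=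
        congrArg (fun z : {v : riemannRochSpace D₀ // v ≠ 0 ∧ ψ v = v} => z.1) heq
      have h2 : (divOf (a • (s D : F)) : Divisor K F) = divOf (b • (s E : F)) := by
        have := congrArg Subtype.val h1
        exact congrArg divOf this
      rw [divOf_smul_const ha0, divOf_smul_const hb0] at h2
      have h3 : D = E := by
        apply Subtype.ext
        apply toDiv_injective
        rw [hs2, hs2, h2]
      subst h3
      have h4 : a = b := smul_left_injective K (hs0 D) h1
      subst h4
      rfl
    · rintro ⟨v, hv0, hv⟩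
      have hv0' : (v : F) ≠ 0 := fun h => hv0 (Subtype.ext h)
      have hnonneg : 0 ≤ D₀ + divOf (v : F) := by
        intro w
        have := (mem_riemannRochSpace_iff.1 v.2 w).resolve_left hv0'
        simp
        omega
      obtain ⟨E, hE⟩ := exists_toDiv hnonneg
      have hv' : f * (σ • (v : F)) = v := by
        have := congrArg Subtype.val hv
        rwa [hψ, twist_apply] at this
      have hσv : σ • (v : F) ≠ 0 := by
        intro h2
        rw [h2, mul_zero] at hv'
        exact hv0' hv'.symm
      have hEinv : ∀ x, E (pperm σ x) = E x := by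
        rw [← smul_toDiv_eq_iff, hE, smul_add, hD, smul_divOf, add_assoc, ← divOf_mul hf hσv, hv']
      let D : InvEff σ D₀ := ⟨E, hEinv, v, hv0', hE⟩
      have h1 : (divOf (v : F) : Divisor K F) = divOf (s D : F) := by
        have := hs2 D
        show _ = _
        have h2 : toDiv D.1 = D₀ + divOf (v : F) := hE
        rw [h2] at this
        exact add_left_cancel this
      obtain ⟨c, hc0, hc⟩ := divOf_ne_zero_inj (fun h => hs0 D (Subtype.ext h)) hv0' h1.symm
      have hcq : c ^ (p ^ r) = c := by
        have h3 : v = c • s D := Subtype.ext hc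
        have h4 : ψ v = c ^ (p ^ r) • s D := by
          rw [h3, hψ, twist_smul hσ.base, ← hψ, hs1]
        rw [hv, h3] at h4
        exact (smul_left_injective K (hs0 D) h4).symm
      refine ⟨⟨D, c, hc0, hcq⟩, ?_⟩
      apply Subtype.ext
      exact (Subtype.ext hc).symm
  have hcount := Nat.card_congr (Equiv.ofBijective _ hbij)
  rw [Nat.card_prod] at hcount
  rw [← hcount] at hcard'
  have h5 : p ^ r - 1 = Nat.card {a : K // a ≠ 0 ∧ a ^ (p ^ r) = a} := by omega
  rw [h5, mul_comm]
  exact hcard'

end count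

end Fermat.Agent.S27Lib
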