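import Mathlib

/-!
Pure group theory for the torsion count on `Pic⁰` of a curve over `𝔽̄_p`.
-/

set_option autoImplicit false

namespace Fermat.Agent.S27Lib

open Finset

section Core

set_option linter.unusedSectionVars false

variable {G : Type*} [AddCommGroup G] (ℓ : ℕ) [hℓ : Fact ℓ.Prime] (ψ : Module.End ℤ G)

/-- On `ℓ`-torsion elements, `ψ ^ (ℓ^s) x = x + (ψ-1)^(ℓ^s) x`. -/
theorem pow_apply_of_torsion (s : ℕ) (x : G) (hx : ℓ • x = 0) :
    (ψ ^ (ℓ ^ s)) x = ((ψ - 1) ^ (ℓ ^ s)) x + x := by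
  obtain ⟨r, hr⟩ := Commute.exists_add_pow_prime_pow_eq hℓ.out
    (Commute.one_right (ψ - 1)) s
  have h1 : ψ - 1 + 1 = ψ := by abel
  rw [h1] at hr
  rw [hr]
  have h2 : ((ℓ : Module.End ℤ G) * (ψ - 1) * 1 * r) x = 0 := by
    have : (ℓ : Module.End ℤ G) * (ψ - 1) * 1 * r = ((ψ - 1) * r) * (ℓ : Module.End ℤ G) := by
      rw [mul_one, mul_assoc, (Nat.cast_commute ℓ ((ψ - 1) * r)).eq]
    rw [this, Module.End.mul_apply]
    have h3 : ((ℓ : Module.End ℤ G)) x = ℓ • x := by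
      rw [← nsmul_one, LinearMap.smul_apply, Module.End.one_apply]
    rw [h3, hx, map_zero]
  rw [LinearMap.add_apply, LinearMap.add_apply, h2, one_pow, Module.End.one_apply, add_zero]

theorem pow_fix_of_fix {n m : ℕ} (hnm : n ∣ m) {x : G} (hx : (ψ ^ n) x = x) : (ψ ^ m) x = x := by
  obtain ⟨k, rfl⟩ := hnm
  induction k with
  | zero => simp
  | succ k ih =>
    rw [Nat.mul_succ, pow_add, Module.End.mul_apply, hx, ih]

/-- `V j` : the `ℓ`-torsion killed by `(ψ-1)^j`. -/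
def VV (j : ℕ) : Submodule ℤ G :=
  LinearMap.ker ((ψ - 1) ^ j) ⊓ LinearMap.ker ((ℓ : ℤ) • (LinearMap.id : Module.End ℤ G))

theorem mem_VV {j : ℕ} {x : G} : x ∈ VV ℓ ψ j ↔ ((ψ - 1) ^ j) x = 0 ∧ ℓ • x = 0 := by
  rw [VV, Submodule.mem_inf, LinearMap.mem_ker, LinearMap.mem_ker]
  simp

theorem VV_mono {i j : ℕ} (hij : i ≤ j) : VV ℓ ψ i ≤ VV ℓ ψ j := by
  intro x hx
  rw [mem_VV] at hx ⊢
  refine ⟨?_, hx.2⟩
  obtain ⟨k, rfl⟩ := Nat.exists_eq_add_of_le hij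
  rw [add_comm, pow_add, Module.End.mul_apply, hx.1, map_zero]

theorem VV_stable {j : ℕ} (hj : VV ℓ ψ (j + 1) ≤ VV ℓ ψ j) (k : ℕ) :
    VV ℓ ψ (j + k) ≤ VV ℓ ψ j := by
  induction k with
  | zero => exact le_rfl
  | succ k ih =>
    intro x hx
    apply ih
    have hx' := (mem_VV ℓ ψ).1 hx
    have h1 : ((ψ - 1) ^ k) x ∈ VV ℓ ψ (j + 1) := by
      rw [mem_VV]
      refine ⟨?_, ?_⟩
      · rw [← Module.End.mul_apply, ← pow_add, show j + 1 + k = j + (k + 1) by ring]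
        exact hx'.1
      · rw [← map_nsmul, hx'.2, map_zero]
    have h2 := (mem_VV ℓ ψ).1 (hj h1)
    rw [mem_VV]
    refine ⟨?_, hx'.2⟩
    rw [pow_add, Module.End.mul_apply]
    exact h2.1

theorem exists_two_pow_gt (c d : ℕ) : ∃ s : ℕ, ℓ ^ (c + d * s) < 2 ^ (ℓ ^ s) := by
  have hℓ2 : 2 ≤ ℓ := hℓ.out.two_le
  -- ℓ ≤ 2^ℓ, so ℓ^(c+ds) ≤ 2^(ℓ(c+ds)); need ℓ(c+ds) < ℓ^s
  have h1 : ∀ s : ℕ, s ^ 2 ≤ 4 * ℓ ^ s := by
    intro s
    have h2 : s ^ 2 ≤ 4 * 2 ^ s := by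
      induction s with
      | zero => simp
      | succ n ih =>
        rcases Nat.lt_or_ge n 3 with h | h
        · interval_cases n <;> norm_num
        · have : (n + 1) ^ 2 ≤ 2 * n ^ 2 := by nlinarith
          calc (n + 1) ^ 2 ≤ 2 * n ^ 2 := this
            _ ≤ 2 * (4 * 2 ^ n) := by gcongr
            _ = 4 * 2 ^ (n + 1) := by ring
    exact h2.trans (by gcongr)
  refine ⟨4 * ℓ * (c + d) + 4 * ℓ * (c + d) + 2, ?_⟩
  set s := 4 * ℓ * (c + d) + 4 * ℓ * (c + d) + 2 with hs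
  have h3 := h1 s
  have h4 : ℓ * (c + d * s) < ℓ ^ s := by
    have h5 : 4 * (ℓ * (c + d * s)) < s ^ 2 := by
      have : 4 * (ℓ * (c + d * s)) ≤ 4 * ℓ * (c + d) * s := by
        have hs1 : 1 ≤ s := by omega
        have : c + d * s ≤ (c + d) * s := by nlinarith
        calc 4 * (ℓ * (c + d * s)) ≤ 4 * (ℓ * ((c + d) * s)) := by gcongr
          _ = _ := by ring
      have h6 : 4 * ℓ * (c + d) * s < s * s := by
        apply Nat.mul_lt_mul_of_pos_right _ (by omega)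
        omega
      nlinarith
    omega
  calc ℓ ^ (c + d * s) ≤ (2 ^ ℓ) ^ (c + d * s) := by
        gcongr
        exact Nat.lt_two_pow_self.le
    _ = 2 ^ (ℓ * (c + d * s)) := by rw [pow_mul]
    _ < 2 ^ (ℓ ^ s) := Nat.pow_lt_pow_right (by norm_num) h4

variable (c d : ℕ)

/-- finiteness bound: the `ℓ`-torsion is fixed by some `ψ ^ (ℓ ^ j)`. -/
theorem exists_fix_torsion
    (hfix : ∀ x : G, ∃ s : ℕ, (ψ ^ (ℓ ^ s)) x = x)
    (hcard : ∀ s, Nat.card {x : G // (ψ ^ (ℓ ^ s)) x = x} = ℓ ^ (c + d * s)) :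
    ∃ j : ℕ, ∀ x : G, ℓ • x = 0 → (ψ ^ (ℓ ^ j)) x = x := by
  have hℓ2 : 2 ≤ ℓ := hℓ.out.two_le
  obtain ⟨s, hs⟩ := exists_two_pow_gt ℓ c d
  have hfin : Finite {x : G // (ψ ^ (ℓ ^ s)) x = x} := by
    apply Nat.finite_of_card_ne_zero
    rw [hcard]
    positivity
  -- VV (ℓ^s) embeds in B_s
  have hsub : ∀ x ∈ VV ℓ ψ (ℓ ^ s), (ψ ^ (ℓ ^ s)) x = x := by
    intro x hx
    rw [mem_VV] at hx
    rw [pow_apply_of_torsion ℓ ψ s x hx.2, hx.1, zero_add]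
  have hfinV : ∀ j ≤ ℓ ^ s, Finite (VV ℓ ψ j) := by
    intro j hj
    refine Finite.of_injective
      (fun x : VV ℓ ψ j => (⟨x.1, hsub x.1 (VV_mono ℓ ψ hj x.2)⟩ :
        {x : G // (ψ ^ (ℓ ^ s)) x = x})) ?_
    intro x y hxy
    exact Subtype.ext (congrArg (fun z : {x : G // (ψ ^ (ℓ ^ s)) x = x} => z.1) hxy)
  have hcardV : Nat.card (VV ℓ ψ (ℓ ^ s)) ≤ ℓ ^ (c + d * s) := by
    rw [← hcard s]
    refine Nat.card_le_card_of_injective
      (fun x : VV ℓ ψ (ℓ ^ s) => (⟨x.1, hsub x.1 x.2⟩ :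
        {x : G // (ψ ^ (ℓ ^ s)) x = x})) ?_
    intro x y hxy
    exact Subtype.ext (congrArg (fun z : {x : G // (ψ ^ (ℓ ^ s)) x = x} => z.1) hxy)
  -- some step is stationary
  have hstat : ∃ j < ℓ ^ s, VV ℓ ψ (j + 1) ≤ VV ℓ ψ j := by
    by_contra hcon
    push Not at hcon
    have hgrow : ∀ j ≤ ℓ ^ s, 2 ^ j ≤ Nat.card (VV ℓ ψ j) := by
      intro j
      induction j with
      | zero =>
        intro h0
        have := hfinV 0 h0
        exact Nat.card_pos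
      | succ j ih =>
        intro hj
        have hj' : j < ℓ ^ s := hj
        have h1 := ih hj'.le
        have hfin1 := hfinV (j + 1) hj
        have hlt : VV ℓ ψ j < VV ℓ ψ (j + 1) :=
          lt_of_le_not_ge (VV_mono ℓ ψ (Nat.le_succ j)) (hcon j hj')
        have hdvd : Nat.card (VV ℓ ψ j) ∣ Nat.card (VV ℓ ψ (j + 1)) := by
          have := AddSubgroup.card_dvd_of_le (H := (VV ℓ ψ j).toAddSubgroup)
            (K := (VV ℓ ψ (j + 1)).toAddSubgroup) hlt.le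
          exact this
        have hne : Nat.card (VV ℓ ψ j) ≠ Nat.card (VV ℓ ψ (j + 1)) := by
          intro heq
          have : (VV ℓ ψ j : Set G) = (VV ℓ ψ (j + 1) : Set G) :=
            Set.eq_of_subset_of_ncard_le hlt.le (by
              rw [← Nat.card_coe_set_eq, ← Nat.card_coe_set_eq]
              exact heq.ge) (Set.toFinite _)
          exact hlt.ne (SetLike.coe_injective this)
        have hpos : 0 < Nat.card (VV ℓ ψ (j + 1)) := Nat.card_pos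
        obtain ⟨k, hk⟩ := hdvd
        have hk2 : 2 ≤ k := by
          rcases k with _ | _ | k
          · rw [hk] at hpos; simp at hpos
          · exact absurd (by rw [hk]; ring) hne
          · omega
        rw [hk, pow_succ]
        exact Nat.mul_le_mul h1 hk2
    exact absurd ((hgrow _ le_rfl).trans hcardV) (not_le.2 hs)
  obtain ⟨j, -, hj⟩ := hstat
  refine ⟨j, fun x hx => ?_⟩
  obtain ⟨t, ht⟩ := hfix x
  have h1 : x ∈ VV ℓ ψ (ℓ ^ t) := by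
    rw [mem_VV]
    refine ⟨?_, hx⟩
    have := pow_apply_of_torsion ℓ ψ t x hx
    rw [ht] at this
    exact (add_eq_right.1 this.symm)
  have h2 : x ∈ VV ℓ ψ j := by
    rcases le_total j (ℓ ^ t) with h | h
    · obtain ⟨k, hk⟩ := Nat.exists_eq_add_of_le h
      rw [hk] at h1
      exact VV_stable ℓ ψ hj k h1
    · exact VV_mono ℓ ψ h h1
  have h3 : x ∈ VV ℓ ψ (ℓ ^ j) := VV_mono ℓ ψ (Nat.lt_pow_self hℓ.out.one_lt).le h2
  rw [pow_apply_of_torsion ℓ ψ j x hx, ((mem_VV ℓ ψ).1 h3).1, zero_add]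

/-- if `ψ' y = y + z` and `ψ' z = z` then `ψ'^i y = y + i z`. -/
theorem pow_apply_of_unipotent (ψ' : Module.End ℤ G) {y z : G} (h1 : ψ' y = y + z)
    (h2 : ψ' z = z) (i : ℕ) : (ψ' ^ i) y = y + i • z := by
  induction i with
  | zero => simp
  | succ i ih =>
    rw [pow_succ', Module.End.mul_apply, ih, map_add, map_nsmul, h1, h2, succ_nsmul']
    abel

theorem exists_fix_torsion_sq
    (hfix : ∀ x : G, ∃ s : ℕ, (ψ ^ (ℓ ^ s)) x = x)
    (hcard : ∀ s, Nat.card {x : G // (ψ ^ (ℓ ^ s)) x = x} = ℓ ^ (c + d * s)) :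
    ∃ j : ℕ, ∀ x : G, ℓ ^ 2 • x = 0 → (ψ ^ (ℓ ^ j)) x = x := by
  obtain ⟨j, hj⟩ := exists_fix_torsion ℓ ψ c d hfix hcard
  refine ⟨j + 1, fun x hx => ?_⟩
  have h1 : ℓ • (ℓ • x) = 0 := by rw [smul_smul, ← sq, hx]
  have h2 := hj _ h1
  set z := (ψ ^ (ℓ ^ j)) x - x with hz
  have h3 : ℓ • z = 0 := by
    rw [hz, smul_sub, ← map_nsmul, h2, sub_self]
  have h4 := hj z h3
  rw [pow_succ, pow_mul, pow_apply_of_unipotent (ψ ^ (ℓ ^ j)) (y := x) (z := z) (by rw [hz]; abel)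
    h4, h3, add_zero]

variable (hprim : ∀ x : G, ∃ k : ℕ, ℓ ^ k • x = 0)

include hprim in
/-- (3') : if `N z = 0`, where `N = 1 + ψ' + ... + ψ'^(ℓ-1)` and `ψ'` fixes `G[ℓ²]`, then
`ℓ z = 0`. -/
theorem smul_eq_zero_of_norm_eq_zero (ψ' : Module.End ℤ G)
    (hψ' : ∀ x : G, ℓ ^ 2 • x = 0 → ψ' x = x) (z : G)
    (hN : ∑ i ∈ range ℓ, (ψ' ^ i) z = 0) : ℓ • z = 0 := by
  obtain ⟨k, hk⟩ := hprim z
  induction k with
  | zero => simp only [pow_zero, one_smul] at hk; rw [hk, smul_zero]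
  | succ k ih =>
    rcases k with _ | k
    · simpa using hk
    · apply ih
      have h1 : ℓ ^ 2 • (ℓ ^ k • z) = 0 := by
        rw [smul_smul, ← pow_add, add_comm]; exact hk
      have h2 := hψ' _ h1
      have h3 : ∑ i ∈ range ℓ, (ψ' ^ i) (ℓ ^ k • z) = 0 := by
        simp only [map_nsmul]
        rw [← Finset.smul_sum, hN, smul_zero]
      have h4 : ∀ i, (ψ' ^ i) (ℓ ^ k • z) = ℓ ^ k • z := by
        intro i
        induction i with
        | zero => simp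
        | succ i ih => rw [pow_succ, Module.End.mul_apply, h2, ih]
      simp only [h4, Finset.sum_const, card_range] at h3
      rw [smul_smul, ← pow_succ'] at h3
      exact h3

theorem geom_apply (ψ' : Module.End ℤ G) (n : ℕ) (y : G) :
    ∑ i ∈ range n, (ψ' ^ i) (ψ' y - y) = (ψ' ^ n) y - y := by
  induction n with
  | zero => simp
  | succ n ih =>
    rw [sum_range_succ, ih, map_sub, ← Module.End.mul_apply, ← pow_succ]
    abel

include hprim in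
theorem smul_mem_of_fix (ψ' : Module.End ℤ G)
    (hψ' : ∀ x : G, ℓ ^ 2 • x = 0 → ψ' x = x) (y : G) (hy : (ψ' ^ ℓ) y = y) :
    ψ' (ℓ • y) = ℓ • y := by
  have h1 := smul_eq_zero_of_norm_eq_zero ℓ hprim ψ' hψ' (ψ' y - y) (by
    rw [geom_apply, hy, sub_self])
  rw [smul_sub, sub_eq_zero] at h1
  rw [map_nsmul, h1]

theorem fix_of_smul_mem (ψ' : Module.End ℤ G)
    (hψ' : ∀ x : G, ℓ ^ 2 • x = 0 → ψ' x = x) (y : G) (hy : ψ' (ℓ • y) = ℓ • y) :
    (ψ' ^ ℓ) y = y := by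
  have h1 : ℓ • (ψ' y - y) = 0 := by rw [smul_sub, ← map_nsmul, hy, sub_self]
  have h2 : ψ' (ψ' y - y) = ψ' y - y := hψ' _ (by rw [sq, mul_smul, h1, smul_zero])
  rw [pow_apply_of_unipotent ψ' (y := y) (z := ψ' y - y) (by abel) h2, h1, add_zero]

include hprim in
/-- The core lemma. -/
theorem core
    (hfix : ∀ x : G, ∃ s : ℕ, (ψ ^ (ℓ ^ s)) x = x)
    (hcard : ∀ s, Nat.card {x : G // (ψ ^ (ℓ ^ s)) x = x} = ℓ ^ (c + d * s))
    (hnorm : ∀ s, ∀ x : G, (ψ ^ (ℓ ^ s)) x = x → ∃ y : G, (ψ ^ (ℓ ^ (s + 1))) y = y ∧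
      ∑ i ∈ range ℓ, ((ψ ^ (ℓ ^ s)) ^ i) y = x) :
    (∀ x : G, ∃ y : G, ℓ • y = x) ∧ Nat.card {x : G // ℓ • x = 0} = ℓ ^ d := by
  have hℓ2 : 2 ≤ ℓ := hℓ.out.two_le
  have hℓ0 : 0 < ℓ := by omega
  obtain ⟨j, hj⟩ := exists_fix_torsion_sq ℓ ψ c d hfix hcard
  have hj' : ∀ s, j ≤ s → ∀ x : G, ℓ ^ 2 • x = 0 → (ψ ^ (ℓ ^ s)) x = x := by
    intro s hs x hx
    exact pow_fix_of_fix ψ (pow_dvd_pow ℓ hs) (hj x hx)
  have hdiv' : ∀ s, j ≤ s → ∀ x : G, (ψ ^ (ℓ ^ s)) x = x → ∃ y : G, ℓ • y = x := by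
    intro s hs x hx
    obtain ⟨y₁, hy₁, hxy₁⟩ := hnorm s x hx
    obtain ⟨y, hy, hyy₁⟩ := hnorm (s + 1) y₁ hy₁
    set ψs := ψ ^ (ℓ ^ s) with hψs
    have hψs1 : ψ ^ (ℓ ^ (s + 1)) = ψs ^ ℓ := by rw [hψs, ← pow_mul, pow_succ]
    have hψs2 : ψ ^ (ℓ ^ (s + 1 + 1)) = (ψs ^ ℓ) ^ ℓ := by rw [← hψs1, ← pow_mul, pow_succ _ (s+1)]
    rw [hψs1] at hy₁ hyy₁
    rw [hψs2] at hy
    -- ℓ y is fixed by ψs^ℓ ; 
    have hfix1 : (ψs ^ ℓ) (ℓ • y) = ℓ • y :=
      smul_mem_of_fix ℓ hprim (ψs ^ ℓ) (by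
        intro x hx; rw [← hψs1]; exact hj' (s + 1) (by omega) x hx) y hy
    have hfix2 : ψs (ℓ • (ℓ • y)) = ℓ • (ℓ • y) :=
      smul_mem_of_fix ℓ hprim ψs (hj' s hs) (ℓ • y) hfix1
    set z := ψs y - y with hz
    have hz2 : ℓ ^ 2 • z = 0 := by
      rw [hz, smul_sub, ← map_nsmul, sq, mul_smul, hfix2, sub_self]
    have hz3 : ψs z = z := hj' s hs z hz2
    have hpow : ∀ i : ℕ, (ψs ^ i) y = y + i • z := fun i =>
      pow_apply_of_unipotent ψs (y := y) (z := z) (by rw [hz]; abel) hz3 i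
    -- x = ∑_{i<ℓ} ψs^i (∑_{k<ℓ} ψs^(ℓ k) y)
    have hx1 : x = ∑ i ∈ range ℓ, ∑ k ∈ range ℓ, (y + (i + ℓ * k) • z) := by
      rw [← hxy₁, ← hyy₁]
      refine Finset.sum_congr rfl fun i _ => ?_
      rw [map_sum]
      refine Finset.sum_congr rfl fun k _ => ?_
      rw [← pow_mul ψs, ← Module.End.mul_apply, ← pow_add, hpow]
    have hx2 : x = ℓ ^ 2 • y + (∑ i ∈ range ℓ, ∑ k ∈ range ℓ, (i + ℓ * k)) • z := by
      rw [hx1]
      rw [Finset.sum_smul]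
      simp only [Finset.sum_smul]
      simp only [sum_add_distrib, sum_const, card_range, smul_smul]
      rw [sq]
    have hdvd : ℓ ∣ (∑ i ∈ range ℓ, ∑ k ∈ range ℓ, (i + ℓ * k)) := by
      simp only [sum_add_distrib, sum_const, card_range, smul_eq_mul]
      rw [← Finset.mul_sum]
      exact dvd_add (Dvd.intro _ rfl) (Dvd.intro _ rfl)
    obtain ⟨e, he⟩ := hdvd
    refine ⟨ℓ • y + e • z, ?_⟩
    rw [hx2, he, smul_add, smul_smul, smul_smul, sq]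
  have hdiv : ∀ x : G, ∃ y : G, ℓ • y = x := by
    intro x
    obtain ⟨s, hs⟩ := hfix x
    exact hdiv' (max j s) (le_max_left _ _) x
      (pow_fix_of_fix ψ (pow_dvd_pow ℓ (le_max_right _ _)) hs)
  refine ⟨hdiv, ?_⟩
  -- counting
  set ψs := ψ ^ (ℓ ^ j) with hψs
  have hψs1 : ψ ^ (ℓ ^ (j + 1)) = ψs ^ ℓ := by rw [hψs, ← pow_mul, pow_succ]
  let B0 : Submodule ℤ G := LinearMap.ker (ψs - 1)
  let B1 : Submodule ℤ G := LinearMap.ker (ψs ^ ℓ - 1)
  have memB0 : ∀ x, x ∈ B0 ↔ ψs x = x := by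
    intro x; simp [B0, LinearMap.mem_ker, sub_eq_zero]
  have memB1 : ∀ x, x ∈ B1 ↔ (ψs ^ ℓ) x = x := by
    intro x; simp [B1, LinearMap.mem_ker, sub_eq_zero]
  have hB0 : Nat.card B0 = ℓ ^ (c + d * j) := by
    rw [← hcard j]
    exact Nat.card_congr (Equiv.subtypeEquivRight memB0)
  have hB1 : Nat.card B1 = ℓ ^ (c + d * (j + 1)) := by
    rw [← hcard (j + 1), hψs1]
    exact Nat.card_congr (Equiv.subtypeEquivRight memB1)
  let f : B1 →ₗ[ℤ] B0 := ((ℓ : ℤ) • (LinearMap.id : G →ₗ[ℤ] G)).restrict (p := B1) (q := B0) (by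
    intro y hy
    rw [memB0]
    have := smul_mem_of_fix ℓ hprim ψs (hj' j le_rfl) y ((memB1 y).1 hy)
    simpa using this)
  have hf : ∀ y : B1, ((f y : B0) : G) = ℓ • (y : G) := by
    intro y
    simp [f]
  have hfsurj : Function.Surjective f := by
    rintro ⟨x, hx⟩
    obtain ⟨y, hy⟩ := hdiv x
    have hy1 : y ∈ B1 := by
      rw [memB1]
      apply fix_of_smul_mem ℓ ψs (hj' j le_rfl)
      rw [hy]
      exact (memB0 x).1 hx
    refine ⟨⟨y, hy1⟩, ?_⟩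
    apply Subtype.ext
    rw [hf]
    exact hy
  have hker : Nat.card (LinearMap.ker f) = Nat.card {x : G // ℓ • x = 0} := by
    refine Nat.card_congr ⟨fun x => ⟨x.1.1, ?_⟩, fun x => ⟨⟨x.1, ?_⟩, ?_⟩, ?_, ?_⟩
    · have := x.2
      rw [LinearMap.mem_ker] at this
      rw [← hf, this]; rfl
    · rw [memB1]
      apply fix_of_smul_mem ℓ ψs (hj' j le_rfl)
      rw [x.2, map_zero]
    · rw [LinearMap.mem_ker]
      apply Subtype.ext
      rw [hf]
      exact x.2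
    · intro x; rfl
    · intro x; rfl
  have hquot : Nat.card B1 = Nat.card B0 * Nat.card (LinearMap.ker f) := by
    have h1 := AddSubgroup.card_eq_card_quotient_mul_card_addSubgroup
      (f.toAddMonoidHom.ker)
    have h2 : Nat.card (B1 ⧸ f.toAddMonoidHom.ker) = Nat.card B0 :=
      Nat.card_congr
        (QuotientAddGroup.quotientKerEquivOfSurjective f.toAddMonoidHom hfsurj).toEquiv
    rw [h2] at h1
    exact h1
  rw [hB0, hB1, hker] at hquot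
  have hpos : 0 < ℓ ^ (c + d * j) := by positivity
  have : ℓ ^ (c + d * (j + 1)) = ℓ ^ (c + d * j) * ℓ ^ d := by
    rw [← pow_add]; ring_nf
  rw [this] at hquot
  exact (Nat.eq_of_mul_eq_mul_left hpos hquot).symm

end Core

end Fermat.Agent.S27Lib
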