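import Mathlib

/-!
Logarithmic derivatives of power series over `ℂ`.
-/

set_option autoImplicit false
set_option linter.unusedSectionVars false
set_option linter.style.haveILetI false

namespace Fermat.Agent.S27Lib

open PowerSeries Finset

/-- `σ` is the logarithmic derivative `X A'/A` of `A`, and `A(0) = 1`. -/
def IsLog (σ A : ℂ⟦X⟧) : Prop := constantCoeff A = 1 ∧ X * d⁄dX ℂ A = σ * A

theorem IsLog.mul {σ τ A B : ℂ⟦X⟧} (hA : IsLog σ A) (hB : IsLog τ B) : IsLog (σ + τ) (A * B) := by
  refine ⟨by rw [map_mul, hA.1, hB.1, one_mul], ?_⟩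
  rw [Derivation.leibniz, smul_eq_mul, smul_eq_mul]
  have h1 := hA.2
  have h2 := hB.2
  linear_combination A * h2 + B * h1

theorem IsLog.one : IsLog 0 1 := ⟨by simp, by simp⟩

theorem IsLog.ne_zero {σ A : ℂ⟦X⟧} (hA : IsLog σ A) : A ≠ 0 := by
  rintro rfl
  have := hA.1
  simp at this

theorem IsLog.unique_log {σ τ A : ℂ⟦X⟧} (hA : IsLog σ A) (hB : IsLog τ A) : σ = τ :=
  mul_right_cancel₀ hA.ne_zero (hA.2.symm.trans hB.2)

theorem IsLog.unique {σ A B : ℂ⟦X⟧} (hA : IsLog σ A) (hB : IsLog σ B) : A = B := by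
  ext n
  induction n using Nat.strong_induction_on with
  | _ n ih =>
    rcases Nat.eq_zero_or_pos n with rfl | hn
    · rw [coeff_zero_eq_constantCoeff_apply, coeff_zero_eq_constantCoeff_apply, hA.1, hB.1]
    · obtain ⟨m, rfl⟩ : ∃ m, n = m + 1 := ⟨n - 1, by omega⟩
      have hσ0 : coeff 0 σ = 0 := by
        have h1 := congrArg (coeff 0) hA.2
        rw [coeff_zero_X_mul, coeff_mul] at h1
        simp only [Finset.Nat.antidiagonal_zero, sum_singleton] at h1
        rw [coeff_zero_eq_constantCoeff_apply A, hA.1, mul_one] at h1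
        exact h1.symm
      have key : ∀ D : ℂ⟦X⟧, X * d⁄dX ℂ D = σ * D →
          coeff (m + 1) D * ((m : ℂ) + 1) =
            ∑ p ∈ (antidiagonal (m + 1)).erase (0, m + 1), coeff p.1 σ * coeff p.2 D := by
        intro D hD
        have h1 := congrArg (coeff (m + 1)) hD
        rw [coeff_succ_X_mul, coeff_derivative, coeff_mul] at h1
        rw [h1, ← Finset.add_sum_erase (antidiagonal (m + 1)) (fun p => coeff p.1 σ * coeff p.2 D)
          (a := (0, m + 1)) (by simp)]
        simp only
        rw [hσ0, zero_mul, zero_add]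
      have h2 := key A hA.2
      have h3 := key B hB.2
      have h4 : ∑ p ∈ (antidiagonal (m + 1)).erase (0, m + 1), coeff p.1 σ * coeff p.2 A =
          ∑ p ∈ (antidiagonal (m + 1)).erase (0, m + 1), coeff p.1 σ * coeff p.2 B := by
        refine Finset.sum_congr rfl fun p hp => ?_
        rw [Finset.mem_erase, HasAntidiagonal.mem_antidiagonal] at hp
        rw [ih p.2]
        rcases Nat.eq_zero_or_pos p.1 with h0 | h0
        · exfalso
          apply hp.1
          ext
          · exact h0
          · simp only; omega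
        · omega
      rw [h4, ← h3] at h2
      exact mul_right_cancel₀ (by exact_mod_cast Nat.succ_ne_zero m) h2

/-- `∑_{n ≥ 1} α^n X^n` -/
noncomputable def sig (α : ℂ) : ℂ⟦X⟧ := PowerSeries.mk (fun n => α ^ n) - 1

theorem coeff_sig (α : ℂ) {n : ℕ} (hn : 1 ≤ n) : coeff n (sig α) = α ^ n := by
  rw [sig, map_sub, coeff_mk, coeff_one, if_neg (by omega), sub_zero]

theorem coeff_sig_zero (α : ℂ) : coeff 0 (sig α) = 0 := by
  rw [sig, map_sub, coeff_mk, coeff_one, if_pos rfl, pow_zero, sub_self]

theorem one_sub_mul_geo (α : ℂ) :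
    (1 - C α * X) * (PowerSeries.mk (fun n => α ^ n) : ℂ⟦X⟧) = 1 := by
  ext n
  rw [sub_mul, one_mul, mul_assoc, map_sub, coeff_C_mul]
  rcases n with _ | n
  · rw [coeff_zero_X_mul, mul_zero, sub_zero, coeff_mk, coeff_one, if_pos rfl, pow_zero]
  · rw [coeff_succ_X_mul, coeff_mk, coeff_mk, coeff_one, if_neg (by omega)]
    ring

theorem isLog_one_sub (α : ℂ) : IsLog (-(sig α)) (1 - C α * X) := by
  refine ⟨by simp, ?_⟩
  have h1 := one_sub_mul_geo α
  have h2 : d⁄dX ℂ (1 - C α * X) = - C α := by
    rw [map_sub, derivative_one, Derivation.leibniz, derivative_X, derivative_C]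
    simp
  rw [h2, sig]
  linear_combination h1

theorem isLog_prod (s : Multiset ℂ) :
    IsLog (-(s.map sig).sum) ((s.map (fun α => 1 - C α * X)).prod) := by
  induction s using Multiset.induction_on with
  | empty => simpa using IsLog.one
  | cons a s ih =>
    rw [Multiset.map_cons, Multiset.sum_cons, Multiset.map_cons, Multiset.prod_cons, neg_add]
    exact (isLog_one_sub a).mul ih

theorem coeff_sum_sig (s : Multiset ℂ) {n : ℕ} (hn : 1 ≤ n) :
    coeff n (s.map sig).sum = (s.map (fun α => α ^ n)).sum := by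
  induction s using Multiset.induction_on with
  | empty => simp
  | cons a s ih =>
    rw [Multiset.map_cons, Multiset.sum_cons, Multiset.map_cons, Multiset.sum_cons, map_add, ih,
      coeff_sig a hn]

theorem coeff_sum_sig_zero (s : Multiset ℂ) :
    coeff 0 (s.map sig).sum = 0 := by
  induction s using Multiset.induction_on with
  | empty => simp
  | cons a s ih =>
    rw [Multiset.map_cons, Multiset.sum_cons, map_add, ih, coeff_sig_zero, add_zero]

/-- the power series `∑_{n≥1} S n X^n`. -/
noncomputable def posSeries (S : ℕ → ℂ) : ℂ⟦X⟧ := mk (fun n => if n = 0 then 0 else S n)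

theorem coeff_posSeries (S : ℕ → ℂ) {n : ℕ} (hn : 1 ≤ n) : coeff n (posSeries S) = S n := by
  rw [posSeries, coeff_mk, if_neg (by omega)]

theorem coeff_posSeries_zero (S : ℕ → ℂ) : coeff 0 (posSeries S) = 0 := by
  rw [posSeries, coeff_mk, if_pos rfl]

theorem isLog_of_rec (S A : ℕ → ℂ) (hA0 : A 0 = 1)
    (hrec : ∀ n : ℕ, 1 ≤ n → (n : ℂ) * A n = ∑ j ∈ Icc 1 n, S j * A (n - j)) :
    IsLog (posSeries S) (PowerSeries.mk A) := by
  refine ⟨by rw [← coeff_zero_eq_constantCoeff_apply, coeff_mk, hA0], ?_⟩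
  ext n
  rcases n with _ | n
  · rw [coeff_zero_X_mul, coeff_mul]
    simp [coeff_posSeries_zero]
  · rw [coeff_succ_X_mul, coeff_derivative, coeff_mk, coeff_mul]
    have h1 := hrec (n + 1) (by omega)
    push_cast at h1
    rw [mul_comm, h1, Finset.Nat.antidiagonal_eq_map, Finset.sum_map]
    simp only [Function.Embedding.coeFn_mk]
    rw [Finset.sum_range_succ']
    simp only [coeff_posSeries_zero, zero_mul, add_zero]
    rw [Finset.sum_bij (fun j _ => j - 1)]
    · intro j hj
      rw [mem_Icc] at hj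
      rw [mem_range]; omega
    · intro i hi j hj hij
      rw [mem_Icc] at hi hj
      omega
    · intro j hj
      rw [mem_range] at hj
      exact ⟨j + 1, by rw [mem_Icc]; omega, by simp⟩
    · intro j hj
      rw [mem_Icc] at hj
      have h2 : j - 1 + 1 = j := by omega
      rw [h2, coeff_posSeries S hj.1, coeff_mk]

end Fermat.Agent.S27Lib
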